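import Fermat.Agent.S05.Valuation

set_option autoImplicit false

/-! # S13 : valuations of rational numbers -/

namespace Fermat.Agent.S13

open Fermat.Agent.S05

local notation "Qb" => AlgebraicClosure ℚ

variable {A : ValuationSubring Qb} {q : ℕ} {v : RVal Qb}

theorem w_prime_pos (hq : q.Prime) (hA : A.LiesOverPrime q)
    (hv : ∀ x : Qb, x ≠ 0 → (0 ≤ v.w x ↔ x ∈ A)) : 0 < v.w (q : Qb) := by
  have := rval_int_pos hq hA hv (n := (q : ℤ)) (by exact_mod_cast hq.ne_zero) dvd_rfl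
  simpa using this

theorem w_intCast_eq (hq : q.Prime) (hA : A.LiesOverPrime q)
    (hv : ∀ x : Qb, x ≠ 0 → (0 ≤ v.w x ↔ x ∈ A)) {z : ℤ} (hz : z ≠ 0) :
    ∃ k : ℕ, v.w (z : Qb) = k * v.w (q : Qb) := by
  have hfin : FiniteMultiplicity (q : ℤ) z := by
    rw [Int.finiteMultiplicity_iff]
    exact ⟨by simpa using hq.ne_one, hz⟩
  obtain ⟨c, hc, hnd⟩ := hfin.exists_eq_pow_mul_and_not_dvd
  refine ⟨multiplicity (q : ℤ) z, ?_⟩
  have hq0 : (q : Qb) ≠ 0 := by exact_mod_cast hq.ne_zero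
  have h1 := rval_int_unit hq hA hv hnd
  have h2 : (z : Qb) = (q : Qb) ^ (multiplicity (q : ℤ) z) * (c : Qb) := by
    conv_lhs => rw [hc]
    push_cast
    ring
  rw [h2, v.map_mul _ _ (pow_ne_zero _ hq0) h1.1, RVal.w_pow hq0, h1.2, add_zero]

theorem w_ratCast_eq (hq : q.Prime) (hA : A.LiesOverPrime q)
    (hv : ∀ x : Qb, x ≠ 0 → (0 ≤ v.w x ↔ x ∈ A)) {r : ℚ} (hr : r ≠ 0) :
    ∃ n : ℤ, v.w (r : Qb) = n * v.w (q : Qb) := by
  obtain ⟨k₁, h₁⟩ := w_intCast_eq hq hA hv (Rat.num_ne_zero.mpr hr)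
  obtain ⟨k₂, h₂⟩ := w_intCast_eq hq hA hv (z := (r.den : ℤ)) (by exact_mod_cast r.den_ne_zero)
  refine ⟨k₁ - k₂, ?_⟩
  have hn : (r.num : Qb) ≠ 0 := by exact_mod_cast Rat.num_ne_zero.mpr hr
  have hd : ((r.den : ℤ) : Qb) ≠ 0 := by exact_mod_cast r.den_ne_zero
  have : (r : Qb) = (r.num : Qb) / ((r.den : ℤ) : Qb) := by
    rw [Rat.cast_def]; simp
  rw [this, RVal.w_div hn hd, h₁, h₂]
  push_cast
  ring

/-- a rational number whose denominator is prime to `q` is integral -/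
theorem ratCast_GE (hq : q.Prime) (hA : A.LiesOverPrime q)
    (hv : ∀ x : Qb, x ≠ 0 → (0 ≤ v.w x ↔ x ∈ A)) {r : ℚ} (hr : ¬ q ∣ r.den) :
    v.GE (r : Qb) 0 := by
  have h1 : v.EQ ((r.den : ℤ) : Qb) 0 := rval_int_unit hq hA hv (by exact_mod_cast hr)
  have : (r : Qb) = (r.num : Qb) * ((r.den : ℤ) : Qb)⁻¹ := by
    rw [Rat.cast_def, div_eq_mul_inv]; simp
  rw [this]
  exact ((RVal.GE_intCast _).mul (h1.inv.GE le_rfl)).mono (by simp)

/-- a rational number whose denominator is divisible by `q` has valuation `≤ - w q` -/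
theorem ratCast_LE (hq : q.Prime) (hA : A.LiesOverPrime q)
    (hv : ∀ x : Qb, x ≠ 0 → (0 ≤ v.w x ↔ x ∈ A)) {r : ℚ} (hr : q ∣ r.den) :
    v.LE (r : Qb) (- v.w (q : Qb)) := by
  have hnum : ¬ (q : ℤ) ∣ r.num := by
    intro h
    have h1 : q ∣ r.num.natAbs := Int.natCast_dvd.mp h
    have := Nat.Coprime.eq_one_of_dvd (r.reduced.coprime_dvd_left h1) hr
    exact hq.ne_one this
  have h1 := rval_int_unit hq hA hv hnum
  obtain ⟨m, hm⟩ := hr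
  have hm0 : m ≠ 0 := by
    rintro rfl
    exact r.den_ne_zero (by rw [hm]; simp)
  have hq0 : (q : Qb) ≠ 0 := by exact_mod_cast hq.ne_zero
  have hm0' : (m : Qb) ≠ 0 := by exact_mod_cast hm0
  have h2 : (r : Qb) = (r.num : Qb) / ((q : Qb) * (m : Qb)) := by
    rw [Rat.cast_def, hm]; push_cast; ring
  have h3 : 0 ≤ v.w (m : Qb) := (RVal.GE_natCast (v := v) m).le_w hm0'
  refine ⟨?_, ?_⟩
  · rw [h2]; exact div_ne_zero h1.1 (mul_ne_zero hq0 hm0')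
  · rw [h2, RVal.w_div h1.1 (mul_ne_zero hq0 hm0'), h1.2, v.map_mul _ _ hq0 hm0']
    linarith

/-- a rational unit has numerator and denominator prime to `q` -/
theorem ratCast_unit (hq : q.Prime) (hA : A.LiesOverPrime q)
    (hv : ∀ x : Qb, x ≠ 0 → (0 ≤ v.w x ↔ x ∈ A)) {r : ℚ} (hr : v.EQ (r : Qb) 0) :
    ¬ (q : ℤ) ∣ r.num ∧ ¬ q ∣ r.den := by
  have hden : ¬ q ∣ r.den := by
    intro h
    have := (ratCast_LE hq hA hv h).2
    rw [hr.2] at this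
    linarith [w_prime_pos hq hA hv]
  refine ⟨?_, hden⟩
  intro h
  have hr0 : r ≠ 0 := by
    rintro rfl
    exact hr.1 (by simp)
  have h1 : v.EQ ((r.den : ℤ) : Qb) 0 := rval_int_unit hq hA hv (by exact_mod_cast hden)
  have h2 := rval_int_pos hq hA hv (Rat.num_ne_zero.mpr hr0) h
  have hn : (r.num : Qb) ≠ 0 := by exact_mod_cast Rat.num_ne_zero.mpr hr0
  have : (r : Qb) = (r.num : Qb) / ((r.den : ℤ) : Qb) := by
    rw [Rat.cast_def]; simp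
  have h3 := hr.2
  rw [this, RVal.w_div hn h1.1, h1.2] at h3
  linarith

/-- two rational 2-adic units are congruent modulo 2 -/
theorem ratCast_sub_GT (hA : A.LiesOverPrime 2)
    (hv : ∀ x : Qb, x ≠ 0 → (0 ≤ v.w x ↔ x ∈ A)) {r₁ r₂ : ℚ} (h₁ : v.EQ (r₁ : Qb) 0)
    (h₂ : v.EQ (r₂ : Qb) 0) : v.GT ((r₁ : Qb) - (r₂ : Qb)) 0 := by
  obtain ⟨n₁, d₁⟩ := ratCast_unit Nat.prime_two hA hv h₁
  obtain ⟨n₂, d₂⟩ := ratCast_unit Nat.prime_two hA hv h₂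
  have e₁ : v.EQ ((r₁.den : ℤ) : Qb) 0 := rval_int_unit Nat.prime_two hA hv (by exact_mod_cast d₁)
  have e₂ : v.EQ ((r₂.den : ℤ) : Qb) 0 := rval_int_unit Nat.prime_two hA hv (by exact_mod_cast d₂)
  have hkey : (r₁ : Qb) - (r₂ : Qb) =
      ((r₁.num * r₂.den - r₂.num * r₁.den : ℤ) : Qb) *
        (((r₁.den : ℤ) : Qb) * ((r₂.den : ℤ) : Qb))⁻¹ := by
    have a₁ := e₁.1
    have a₂ := e₂.1
    rw [Rat.cast_def r₁, Rat.cast_def r₂]
    push_cast at a₁ a₂ ⊢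
    field_simp
  rw [hkey]
  have hdvd : ((2 : ℕ) : ℤ) ∣ (r₁.num * r₂.den - r₂.num * r₁.den : ℤ) := by
    have d₁' : ¬ (2 : ℤ) ∣ (r₁.den : ℤ) := by exact_mod_cast d₁
    have d₂' : ¬ (2 : ℤ) ∣ (r₂.den : ℤ) := by exact_mod_cast d₂
    have n₁' : ¬ (2 : ℤ) ∣ r₁.num := by exact_mod_cast n₁
    have n₂' : ¬ (2 : ℤ) ∣ r₂.num := by exact_mod_cast n₂
    have o1 : Odd (r₁.num * r₂.den) :=
      (Int.not_even_iff_odd.mp (fun h => n₁' h.two_dvd)).mul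
        (Int.not_even_iff_odd.mp (fun h => d₂' h.two_dvd))
    have o2 : Odd (r₂.num * r₁.den) :=
      (Int.not_even_iff_odd.mp (fun h => n₂' h.two_dvd)).mul
        (Int.not_even_iff_odd.mp (fun h => d₁' h.two_dvd))
    exact_mod_cast (o1.sub_odd o2).two_dvd
  have hnum : v.GT ((r₁.num * r₂.den - r₂.num * r₁.den : ℤ) : Qb) 0 := by
    by_cases h0 : (r₁.num * r₂.den - r₂.num * r₁.den : ℤ) = 0
    · left; rw [h0]; simp
    · exact Or.inr (rval_int_pos Nat.prime_two hA hv h0 hdvd)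
  exact (hnum.mul_GE ((e₁.mul e₂).inv.GE le_rfl)).mono (by simp)

end Fermat.Agent.S13
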