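import Fermat.Agent.S13.FreyLocal
import Fermat.Agent.S13.RatVal
import Fermat.Agent.S51.Galois
import Fermat.Agent.Lib.Frobenius

set_option autoImplicit false

/-! # S13 : the Frey curve has no rational point of order `p` (2-adic argument) -/

namespace Fermat.Agent.S13

open Fermat.Agent.S05 WeierstrassCurve WeierstrassCurve.Affine WeierstrassCurve.Affine.Point

local notation "Qb" => AlgebraicClosure ℚ

variable (P : FreyPackage)

/-- abscissae of Galois-fixed points are rational -/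
lemma rational_of_fixed {R : (P.freyCurve⁄Qb).Point} (hfix : ∀ σ : Qb ≃ₐ[ℚ] Qb, σ • R = R)
    {x : Qb} (hx : (D0 P).ξ R = Option.some x) : ∃ r : ℚ, x = (r : Qb) := by
  rcases R with _ | ⟨x', y', h⟩
  · rw [show (Point.zero : (P.freyCurve⁄Qb).Point) = 0 from rfl, ((D0 P).ξ_eq_none 0).mpr rfl] at hx
    cases hx
  · rw [D0_ξ_some] at hx
    obtain rfl := Option.some.inj hx
    obtain ⟨r, hr⟩ := Fermat.Agent.S51.mem_range_of_fixed x' (by
      intro σ
      obtain ⟨h', hs⟩ := Fermat.Agent.S51.smul_some P.freyCurve σ h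
      rw [hfix σ, Point.some.injEq] at hs
      exact hs.1.symm)
    exact ⟨r, by rw [← hr]; exact eq_ratCast _ r⟩

lemma not_dvd_eight {n : ℕ} (hn : n.Prime) (h5 : 5 ≤ n) : ¬ n ∣ 8 := by
  intro h
  have := Nat.le_of_dvd (by norm_num) h
  interval_cases n
  · omega
  · omega
  · omega
  · exact absurd hn (by norm_num)

theorem no_fixed_torsion (Q : (P.freyCurve⁄Qb).Point) (hQ0 : Q ≠ 0) (hQp : P.p • Q = 0)
    (hfix : ∀ σ : Qb ≃ₐ[ℚ] Qb, σ • Q = Q) : False := by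
  obtain ⟨A, hA⟩ := Fermat.Agent.Frob.exists_liesOverPrime Nat.prime_two
  obtain ⟨v, hv⟩ := exists_rval A Nat.prime_two hA
  have unit : ∀ n : ℤ, ¬ ((2 : ℕ) : ℤ) ∣ n → v.EQ (n : Qb) 0 :=
    fun n hn => rval_int_unit Nat.prime_two hA hv hn
  have hab := isCoprime_of_gcd P.hgcdab
  have hβ : v.EQ (D0 P).β 0 := by
    rw [D0_β]
    exact unit _ (not_dvd_pow_sub' Int.prime_two hab (two_dvd_b P) P.hp0)
  set t : ℝ := v.w ((2 : ℕ) : Qb) with ht
  have htpos : 0 < t := w_prime_pos Nat.prime_two hA hv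
  have h2ne : ((2 : ℕ) : Qb) ≠ 0 := by norm_num
  have h16 : v.EQ (16 : Qb) (4 * t) := by
    have := (RVal.EQ_self (v := v) h2ne).pow 4
    norm_num at this
    exact this.of_eq (by rw [ht]; norm_num)
  have hne : ((P.a * P.b : ℤ) : Qb) ≠ 0 := by exact_mod_cast mul_ne_zero P.ha0 P.hb0
  obtain ⟨m, hm⟩ := w_intCast_eq Nat.prime_two hA hv (mul_ne_zero P.ha0 P.hb0)
  rw [← ht] at hm
  have hκ : v.EQ (D0 P).κ (((P.p : ℤ) * m - 4 : ℤ) * t) := by
    rw [D0_κ]
    refine (((RVal.EQ_self hne).pow P.p).div h16).neg.of_eq ?_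
    rw [hm]; push_cast; ring
  -- positivity of `h`
  have hκ0 : (-(P.a ^ P.p) * (P.b ^ P.p) / 16 : ℤ) ≠ 0 := by
    intro h
    have h1 := Int.eq_mul_of_ediv_eq_right (sixteen_dvd_a₄ P) h
    have h2 : P.a ^ P.p * P.b ^ P.p ≠ 0 := mul_ne_zero (pow_ne_zero _ P.ha0) (pow_ne_zero _ P.hb0)
    apply h2
    linarith
  have hκ2 : ((2 : ℕ) : ℤ) ∣ (-(P.a ^ P.p) * (P.b ^ P.p) / 16 : ℤ) := by
    obtain ⟨m, hm⟩ := thirtytwo_dvd_b_pow P
    rw [hm]
    refine ⟨-(P.a ^ P.p) * m, ?_⟩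
    rw [show -(P.a ^ P.p) * (32 * m) = (2 * (-(P.a ^ P.p) * m)) * 16 by ring]
    rw [Int.mul_ediv_cancel _ (by norm_num)]
    norm_num
  have hh : 0 < (((P.p : ℤ) * m - 4 : ℤ) : ℝ) * t := by
    rw [← hκ.2, D0_κ_int]
    exact rval_int_pos Nat.prime_two hA hv hκ0 hκ2
  have hH : 0 < ((P.p : ℤ) * m - 4 : ℤ) := by
    have := (pos_iff_pos_of_mul_pos hh).mpr htpos
    exact_mod_cast this
  have hpv : v.EQ ((P.p : ℕ) : Qb) 0 := by
    have := unit (P.p : ℤ) (by
      intro h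
      have h' : 2 ∣ P.p := by exact_mod_cast h
      have := (Nat.prime_dvd_prime_iff_eq Nat.prime_two P.pp).mp h'
      have := P.hp5
      omega)
    simpa using this
  have NT : ∀ (g' : (P.freyCurve⁄Qb).Point) (x' : Qb), (D0 P).ξ g' = Option.some x' →
      P.p • g' = 0 → v.GE x' 0 := by
    intro g' x' hx' hg'
    by_contra hcon
    have hx0 : x' ≠ 0 := fun h => hcon (Or.inl h)
    have hlt : v.w x' < 0 := by
      by_contra h
      exact hcon (Or.inr (not_lt.mp h))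
    exact no_torsion (D0 P) v (hβ.GE le_rfl) (hκ.GE hh.le) hx' hx0 hlt hpv hg'
  cases hx : (D0 P).ξ Q with
  | none => exact hQ0 (((D0 P).ξ_eq_none Q).mp hx)
  | some x₁ =>
  obtain ⟨r₁, hr₁⟩ := rational_of_fixed P hfix hx
  rcases RVal.GE_or_LE (v := v) x₁ 0 with hpos | hle
  · -- not in the identity component
    obtain ⟨hx0, hxh, j, hj⟩ := val_of_torsion' (D0 P) hh hβ hκ hx hpos P.hp_odd hQp
    have hr0 : r₁ ≠ 0 := by
      rintro rfl
      exact hx0 (by rw [hr₁]; simp)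
    obtain ⟨n, hn⟩ := w_ratCast_eq Nat.prime_two hA hv hr0
    rw [← hr₁, ← ht] at hn
    have hxpos := hpos.lt_w hx0
    rw [hn] at hj hxh hxpos
    have e1 : (P.p : ℤ) * n = 2 * ((P.p : ℤ) * m - 4) * j := by
      have : ((P.p : ℝ) * n - 2 * (((P.p : ℤ) * m - 4 : ℤ) : ℝ) * j) * t = 0 := by linarith
      rcases mul_eq_zero.mp this with h | h
      · have h' : ((P.p : ℝ) * n) = 2 * (((P.p : ℤ) * m - 4 : ℤ) : ℝ) * j := by linarith
        exact_mod_cast h'
      · exact absurd h htpos.ne'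
    have e2 : 0 < n := by
      have := (pos_iff_pos_of_mul_pos hxpos).mpr htpos
      exact_mod_cast this
    have e3 : n < (P.p : ℤ) * m - 4 := by
      have := lt_of_mul_lt_mul_right hxh htpos.le
      exact_mod_cast this
    have hpZ : Prime (P.p : ℤ) := Nat.prime_iff_prime_int.mp P.pp
    have e4 : (P.p : ℤ) ∣ 8 * j := ⟨2 * m * j - n, by linarith⟩
    have e5 : (P.p : ℤ) ∣ j := by
      rcases hpZ.dvd_or_dvd e4 with h | h
      · exfalso
        have h' : P.p ∣ 8 := by exact_mod_cast h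
        exact not_dvd_eight P.pp P.hp5 h'
      · exact h
    obtain ⟨j', rfl⟩ := e5
    have hp0 : (P.p : ℤ) ≠ 0 := by exact_mod_cast P.hp0
    have e6 : n = 2 * ((P.p : ℤ) * m - 4) * j' := by
      apply mul_left_cancel₀ hp0
      rw [e1]; ring
    rcases le_or_gt j' 0 with h | h
    · nlinarith
    · nlinarith
  · -- in the identity component
    have hx₁ : v.EQ x₁ 0 := ⟨hle.1, le_antisymm hle.2 ((NT Q x₁ hx hQp).le_w hle.1)⟩
    have hη : (D0 P).η Q ≠ 0 := by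
      intro h0
      exact hQ0 (eq_zero_of_odd_nsmul P.hp_odd hQp ((D0 P).dbl_zero Q h0))
    obtain ⟨x₂, hx2, hx2e⟩ := (D0 P).dbl Q x₁ hx hη
    have hle₂ : v.LE x₂ 0 := trop_dbl_zero' hh hβ hκ hx2e hle
    have hQQp : P.p • (Q + Q) = 0 := by rw [nsmul_add, hQp, add_zero]
    have hx₂ : v.EQ x₂ 0 := ⟨hle₂.1, le_antisymm hle₂.2 ((NT _ x₂ hx2 hQQp).le_w hle₂.1)⟩
    obtain ⟨r₂, hr₂⟩ := rational_of_fixed P (R := Q + Q) (fun σ => by
      rw [algEquiv_smul_def, map_add, ← algEquiv_smul_def, hfix σ]) hx2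
    have hsub : v.GT (x₂ - x₁) 0 := by
      rw [hr₁, hr₂]
      exact ratCast_sub_GT hA hv (hr₂ ▸ hx₂) (hr₁ ▸ hx₁)
    have hne12 : x₂ ≠ x₁ := by
      rintro rfl
      rcases (D0 P).eq_or_eq_neg (Q + Q) Q (hx2.trans hx.symm) with h | h
      · exact hQ0 (by simpa using h)
      · -- 3 Q = 0
        have h3 : 3 • Q = 0 := by
          have : 3 • Q = (Q + Q) + Q := by abel
          rw [this, h]; abel
        have hcop : Nat.Coprime 3 P.p := by
          rw [Nat.coprime_primes Nat.prime_three P.pp]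
          have := P.hp5
          omega
        have h1 : addOrderOf Q ∣ 1 := by
          rw [← hcop.gcd_eq_one]
          exact Nat.dvd_gcd (addOrderOf_dvd_of_nsmul_eq_zero h3)
            (addOrderOf_dvd_of_nsmul_eq_zero hQp)
        exact hQ0 (AddMonoid.addOrderOf_eq_one_iff.mp (Nat.dvd_one.mp h1))
    obtain ⟨X, Y, hX, hY, hprod, -⟩ := (D0 P).addsub (Q + Q) Q x₂ x₁ hx2 hx hne12
    have hXi := NT _ X hX (by rw [nsmul_add, hQQp, hQp, add_zero])
    have hYi := NT _ Y hY (by rw [nsmul_sub, hQQp, hQp, sub_zero])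
    have h5 : v.GT (X * Y * (x₂ - x₁) ^ 2) 0 := ((hXi.mul hYi).mul_GT hsub.sq).mono (by linarith)
    rw [hprod] at h5
    have h6 : v.EQ (x₂ * x₁ - (D0 P).κ) 0 := ((hx₂.mul hx₁).of_eq (by ring)).sub_GT (hκ.GT hh)
    exact h6.sq.not_GT h5 (by linarith)

end Fermat.Agent.S13
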