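import Mathlib
import Fermat.Agent.Lib.Frobenius
import Fermat.Prelude.Def_FLTPrelim_Ramification

set_option autoImplicit false

open scoped Pointwise NumberField

namespace Fermat.Agent.S13.Minkowski

section lift

universe u
variable {B : Type*} [CommRing B] {G : Type u} [Group G] [MulSemiringAction G B]
  [TopologicalSpace G] [CompactSpace G] [TotallyDisconnectedSpace G] [IsTopologicalGroup G]
  [TopologicalSpace B] [DiscreteTopology B] [ContinuousSMul G B]

theorem exists_mul_mem_inertia (H : Subgroup G) [H.Normal] (hH : IsClosed (H : Set G))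
    (Q : Ideal B) [Q.IsPrime] (τ : G)
    (hτ : ∀ x : B, (∀ h ∈ H, h • x = x) → τ • x - x ∈ Q) :
    ∃ h ∈ H, ∀ x : B, (h * τ) • x - x ∈ Q := by
  let A := FixedPoints.subalgebra ℤ B H
  have : CompactSpace H := isCompact_iff_compactSpace.mp hH.isCompact
  have : Algebra.IsInvariant A B H := ⟨fun b hb => ⟨⟨b, hb⟩, rfl⟩⟩
  have hfix : ∀ a : A, ∀ h ∈ H, h • (a : B) = a := fun a h hh => a.2 ⟨h, hh⟩
  have hconj : ∀ g : G, ∀ x : B, (∀ h ∈ H, h • x = x) → ∀ h ∈ H, h • (g • x) = g • x := by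
    intro g x hx h hh
    have h1 : g⁻¹ * h * g ∈ H := by
      have := ‹H.Normal›.conj_mem h hh g⁻¹
      simpa using this
    have h2 := hx _ h1
    calc h • (g • x) = g • ((g⁻¹ * h * g) • x) := by
          simp only [← mul_smul]; congr 1; group
      _ = g • x := by rw [h2]
  have hunder : (τ • Q).under A = Q.under A := by
    ext a
    simp only [Ideal.mem_comap]
    change (a : B) ∈ τ • Q ↔ (a : B) ∈ Q
    rw [Ideal.mem_pointwise_smul_iff_inv_smul_mem]
    have h1 : τ • (τ⁻¹ • (a : B)) - τ⁻¹ • (a : B) ∈ Q := hτ _ (hconj τ⁻¹ a (hfix a))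
    rw [smul_inv_smul] at h1
    constructor
    · intro h
      have := Q.add_mem h1 h
      simpa using this
    · intro h
      have := Q.sub_mem h h1
      simpa using this
  obtain ⟨h₁, hh₁⟩ := Algebra.IsInvariant.exists_smul_of_under_eq_of_profinite (A := A) (G := H)
    (τ • Q) Q hunder
  -- `τ₁ = h₁ τ` stabilises `Q`
  set τ₁ : G := (h₁ : G) * τ with hτ₁
  have hstab : τ₁ • Q = Q := by
    rw [hτ₁, mul_smul]
    exact hh₁.symm
  have hτ₁A : ∀ a : A, τ₁ • (a : B) - a ∈ Q := by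
    intro a
    rw [hτ₁, mul_smul, hconj τ a (hfix a) h₁ h₁.2]
    exact hτ a (hfix a)
  let P : Ideal A := Q.under A
  let e : (B ⧸ Q) ≃+* (B ⧸ Q) :=
    Ideal.quotientEquiv Q Q (MulSemiringAction.toRingEquiv G B τ₁) hstab.symm
  have he : ∀ b : B, e (Ideal.Quotient.mk Q b) = Ideal.Quotient.mk Q (τ₁ • b) := fun b => rfl
  let e' : (B ⧸ Q) ≃ₐ[A ⧸ P] (B ⧸ Q) := AlgEquiv.ofRingEquiv (f := e) (by
    intro r
    obtain ⟨a, rfl⟩ := Ideal.Quotient.mk_surjective r
    change e (Ideal.Quotient.mk Q (a : B)) = Ideal.Quotient.mk Q (a : B)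
    rw [he, Ideal.Quotient.eq]
    exact hτ₁A a)
  obtain ⟨⟨h₂, hh₂⟩, hσe⟩ := Ideal.Quotient.stabilizerHom_surjective_of_profinite (G := H) P Q e'
  have hh₂' : (h₂ : G) • Q = Q := hh₂
  have key : ∀ b : B, τ₁ • b - (h₂ : G) • b ∈ Q := by
    intro b
    have h1 := congrArg (fun f => f (Ideal.Quotient.mk Q b)) hσe
    simp only [Ideal.Quotient.stabilizerHom_apply] at h1
    rw [← Ideal.Quotient.eq]
    exact h1.symm
  refine ⟨(h₂ : G)⁻¹ * h₁, H.mul_mem (H.inv_mem h₂.2) h₁.2, fun x => ?_⟩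
  have h3 : ((h₂ : G)⁻¹ * h₁ * τ) • x - x = (h₂ : G)⁻¹ • (τ₁ • x - (h₂ : G) • x) := by
    rw [smul_sub, inv_smul_smul, hτ₁, ← mul_smul, mul_assoc]
  rw [h3]
  have h4 : (h₂ : G)⁻¹ • Q = Q := by
    conv_lhs => rw [← hh₂']
    rw [inv_smul_smul]
  rw [← h4]
  exact Ideal.smul_mem_pointwise_smul _ _ _ (key x)

end lift

theorem exists_inertia_ne_one (K : Type*) [Field K] [NumberField K] [IsGalois ℚ K]
    (h : 1 < Module.finrank ℚ K) :
    ∃ (P : Ideal (𝓞 K)) (_ : P.IsMaximal) (q : ℕ) (σ : K ≃ₐ[ℚ] K), q.Prime ∧ (q : 𝓞 K) ∈ P ∧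
      σ ≠ 1 ∧ ∀ x : 𝓞 K, ∃ y ∈ P, (y : K) = σ x - x := by
  let : MulSemiringAction Gal(K/ℚ) (𝓞 K) := IsIntegralClosure.MulSemiringAction ℤ ℚ K (𝓞 K)
  have := IsGaloisGroup.of_isFractionRing Gal(K/ℚ) ℤ (𝓞 K) ℚ K
  obtain ⟨P, hP, hP'⟩ := NumberField.exists_not_isUnramifiedAt_int (𝒪 := 𝓞 K) h.ne'
  have hcard := Ideal.card_inertia_eq_ramificationIdxIn (G := Gal(K/ℚ)) (P.under ℤ) P
  rw [Ideal.ramificationIdxIn_eq_ramificationIdx (P.under ℤ) P Gal(K/ℚ)] at hcard
  rw [← Ideal.ramificationIdx_eq_one_iff] at hP'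
  rw [← hcard] at hP'
  have hne : P.inertia Gal(K/ℚ) ≠ ⊥ := by
    intro hbot
    apply hP'
    rw [hbot]
    simp
  obtain ⟨σ, hσ, hσ1⟩ := (Subgroup.ne_bot_iff_exists_ne_one).mp hne |>.imp (fun a h => h) |> fun ⟨a, ha⟩ => (⟨a.1, a.2, fun h => ha (Subtype.ext h)⟩ : ∃ σ : Gal(K/ℚ), σ ∈ P.inertia Gal(K/ℚ) ∧ σ ≠ 1)
  obtain ⟨p, hp : _ = Ideal.span _⟩ := IsPrincipalIdealRing.principal (P.under ℤ)
  have hp0 : p ≠ 0 := fun hp0 ↦ Ideal.IsMaximal.ne_bot_of_isIntegral_int _
    (Ideal.eq_bot_of_comap_eq_bot (hp.trans (by aesop)))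
  have hpp : Prime p := by rw [← Ideal.span_singleton_prime hp0, ← hp]; infer_instance
  have hpP : (p : 𝓞 K) ∈ P := by
    have h1 : p ∈ P.under ℤ := hp ▸ Ideal.mem_span_singleton_self p
    simpa using h1
  have hqP : ((p.natAbs : ℕ) : 𝓞 K) ∈ P := by
    have h2 : ((p.natAbs : ℕ) : 𝓞 K) = ((p.natAbs : ℤ) : 𝓞 K) := by simp
    rw [h2]
    exact P.mem_of_dvd (map_dvd (Int.castRingHom (𝓞 K)) p.associated_natAbs.dvd) hpP
  refine ⟨P, hP, p.natAbs, σ, Int.prime_iff_natAbs_prime.mp hpp, hqP, hσ1,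
    fun x => ⟨σ • x - x, hσ x, ?_⟩⟩
  simp only [map_sub, sub_left_inj]
  exact algebraMap_galRestrict_apply ℤ σ x

open Fermat.Agent.Frob

local notation "Qbar" => AlgebraicClosure ℚ
local notation "GQ" => (AlgebraicClosure ℚ ≃ₐ[ℚ] AlgebraicClosure ℚ)
local notation "Zbar" => integralClosure ℤ (AlgebraicClosure ℚ)

theorem exists_valuationSubring_primeOf (Q : Ideal Zbar) [hQ : Q.IsPrime] :
    ∃ A : ValuationSubring Qbar, primeOf A = Q := by
  let R := Localization.AtPrime Q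
  let f : R →+* Qbar := IsLocalization.lift (M := Q.primeCompl)
    (g := algebraMap Zbar Qbar) (by
      intro y
      apply IsUnit.mk0
      intro h0
      have : (y : Zbar) = 0 := Subtype.ext h0
      exact y.2 (this ▸ Ideal.zero_mem _))
  obtain ⟨A, h, hloc⟩ := IsLocalRing.exists_factor_valuationRing f
  refine ⟨A, ?_⟩
  have hf : ∀ b : Zbar, f (algebraMap Zbar R b) = (b : Qbar) := by
    intro b
    simp [f]
  ext b
  rw [mem_primeOf]
  have hbA : (b : Qbar) ∈ A := mem_of_isIntegral A b.2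
  have h1 : (b : Qbar) ∈ A.nonunits ↔ ¬ IsUnit (⟨(b : Qbar), hbA⟩ : A) := by
    rw [ValuationSubring.mem_nonunits_iff_exists_mem_maximalIdeal]
    constructor
    · rintro ⟨_, h2⟩
      exact (IsLocalRing.mem_maximalIdeal _).mp h2
    · intro h2
      exact ⟨hbA, (IsLocalRing.mem_maximalIdeal _).mpr h2⟩
  have h2 : (f.codRestrict A.toSubring h (algebraMap Zbar R b)) = (⟨(b : Qbar), hbA⟩ : A) :=
    Subtype.ext (hf b)
  rw [h1, ← h2]
  have h3 : IsUnit (f.codRestrict A.toSubring h (algebraMap Zbar R b)) ↔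
      IsUnit (algebraMap Zbar R b) :=
    ⟨fun hu => hloc.map_nonunit _ hu, fun hu => hu.map _⟩
  rw [h3, IsLocalization.AtPrime.isUnit_to_map_iff R Q b]
  simp [Ideal.primeCompl]

theorem mem_inertiaSubgroupIn (A : ValuationSubring Qbar) {l : ℕ} (hl : l.Prime)
    (hA : A.LiesOverPrime l) {τ : GQ} (hτ : ∀ x : Zbar, τ • x - x ∈ primeOf A) :
    τ ∈ A.inertiaSubgroupIn ℚ := by
  have hstab : τ • primeOf A = primeOf A :=
    Ideal.inertia_le_stabilizer (M := GQ) (primeOf A) hτ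
  have hdec := mem_decompositionSubgroup A hl hA hstab
  refine Subgroup.mem_map.mpr ⟨⟨τ, hdec⟩, ?_, rfl⟩
  let g : A.decompositionSubgroup ℚ := ⟨τ, hdec⟩
  change g ∈ A.inertiaSubgroup ℚ
  rw [ValuationSubring.inertiaSubgroup, MonoidHom.mem_ker]
  ext y
  change g • y = y
  obtain ⟨a, rfl⟩ := IsLocalRing.residue_surjective y
  obtain ⟨s, hs, hsx⟩ := exists_denominator A hl hA a.2
  let sA : A := ⟨(s : Qbar), mem_of_isIntegral A s.2⟩
  let b : Zbar := ⟨(s : Qbar) * (a : Qbar), hsx⟩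
  let bA : A := ⟨(b : Qbar), mem_of_isIntegral A b.2⟩
  have hba : bA = sA * a := rfl
  have key : ∀ c : Zbar, ∀ hc : (c : Qbar) ∈ A,
      g • IsLocalRing.residue A ⟨(c : Qbar), hc⟩ = (IsLocalRing.residue A ⟨(c : Qbar), hc⟩) := by
    intro c hc
    rw [← IsLocalRing.ResidueField.residue_smul, ← sub_eq_zero, ← map_sub,
      IsLocalRing.residue_eq_zero_iff]
    have h1 := hτ c
    rw [mem_primeOf, ValuationSubring.mem_nonunits_iff_exists_mem_maximalIdeal] at h1
    obtain ⟨h2, h3⟩ := h1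
    exact h3
  have hs0 : IsLocalRing.residue A sA ≠ 0 := by
    intro h0
    rw [IsLocalRing.residue_eq_zero_iff] at h0
    apply hs
    rw [ValuationSubring.mem_nonunits_iff_exists_mem_maximalIdeal]
    exact ⟨_, h0⟩
  have h1 := key b (mem_of_isIntegral A b.2)
  have h2 := key s (mem_of_isIntegral A s.2)
  change g • IsLocalRing.residue A bA = (IsLocalRing.residue A bA) at h1
  change g • IsLocalRing.residue A sA = (IsLocalRing.residue A sA) at h2
  rw [hba, map_mul, smul_mul', h2] at h1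
  exact mul_left_cancel₀ hs0 h1


theorem eq_top_of_inertia_le (H : Subgroup GQ) [hn : H.Normal] (hopen : IsOpen (H : Set GQ))
    (hI : ∀ q : ℕ, q.Prime → ∀ A : ValuationSubring Qbar, A.LiesOverPrime q →
      A.inertiaSubgroupIn ℚ ≤ H) : H = ⊤ := by
  have := isGaloisQbar
  have := isAlgebraicQbar
  have hclosed : IsClosed (H : Set GQ) := H.isClosed_of_isOpen hopen
  let M : IntermediateField ℚ Qbar := IntermediateField.fixedField H
  have hfix : M.fixingSubgroup = H := InfiniteGalois.fixingSubgroup_fixedField ⟨H, hclosed⟩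
  have hfd : FiniteDimensional ℚ M := (InfiniteGalois.isOpen_iff_finite M).mp (by
    rw [hfix]; exact hopen)
  have hgal : IsGalois ℚ M := (InfiniteGalois.normal_iff_isGalois M).mp (by rw [hfix]; exact hn)
  have hnf : NumberField M := { to_charZero := inferInstance, to_finiteDimensional := hfd }
  by_contra hne
  have hrank : 1 < Module.finrank ℚ M := by
    by_contra hle
    have h1 : Module.finrank ℚ M = 1 := by
      have : 0 < Module.finrank ℚ M := Module.finrank_pos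
      omega
    have h2 : M = ⊥ := IntermediateField.finrank_eq_one_iff.mp h1
    apply hne
    rw [← hfix, h2]
    exact IntermediateField.fixingSubgroup_bot
  obtain ⟨P, hP, q, σ, hq, hqP, hσ1, hσ⟩ := exists_inertia_ne_one M hrank
  obtain ⟨τ, hτ⟩ := AlgEquiv.restrictNormalHom_surjective Qbar σ
  -- the inclusion of the ring of integers of `M` in `Zbar`
  let φ : 𝓞 M →+* Zbar :=
    { toFun := fun x => ⟨((x : M) : Qbar), (x.isIntegral_coe).map (IsScalarTower.toAlgHom ℤ M Qbar)⟩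
      map_one' := rfl
      map_mul' := fun _ _ => rfl
      map_zero' := rfl
      map_add' := fun _ _ => rfl }
  have hφ : ∀ x : 𝓞 M, ((φ x : Zbar) : Qbar) = ((x : M) : Qbar) := fun _ => rfl
  have hφinj : Function.Injective φ := by
    intro x y hxy
    have := congrArg (fun z : Zbar => (z : Qbar)) hxy
    simp only [hφ] at this
    exact NumberField.RingOfIntegers.ext (Subtype.ext this)
  obtain ⟨Q, hQ, hQP⟩ : ∃ Q : Ideal Zbar, Q.IsPrime ∧ Q.comap φ = P := by
    let := φ.toAlgebra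
    have hint : Algebra.IsIntegral (𝓞 M) Zbar :=
      ⟨fun z => (Algebra.IsIntegral.isIntegral (R := ℤ) z).tower_top⟩
    obtain ⟨Q, hQ, hQP⟩ := Ideal.exists_ideal_over_maximal_of_isIntegral (S := Zbar) P (by
      have : RingHom.ker (algebraMap (𝓞 M) Zbar) = ⊥ :=
        (RingHom.injective_iff_ker_eq_bot _).mp hφinj
      rw [this]; exact bot_le)
    exact ⟨Q, hQ.isPrime, hQP⟩
  let _ : TopologicalSpace Zbar := ⊥
  have : DiscreteTopology Zbar := ⟨rfl⟩
  have := continuousSMul_Zbar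
  obtain ⟨h, hh, hin⟩ := exists_mul_mem_inertia H hclosed Q τ (by
    intro x hx
    have hxM : (x : Qbar) ∈ M := by
      intro g
      exact congrArg Subtype.val (hx g g.2)
    let x' : 𝓞 M := ⟨⟨(x : Qbar), hxM⟩, by
      have h1 : IsIntegral ℤ (x : Qbar) := x.2
      exact (isIntegral_algebraMap_iff (A := M) (B := Qbar) (algebraMap M Qbar).injective).mp h1⟩
    obtain ⟨y, hyP, hy⟩ := hσ x'
    have h2 : τ • x - x = φ y := by
      apply Subtype.ext
      rw [hφ, hy]
      have h3 := AlgEquiv.restrictNormal_commutes τ M ⟨(x : Qbar), hxM⟩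
      have h4 : σ ⟨(x : Qbar), hxM⟩ = τ.restrictNormal M ⟨(x : Qbar), hxM⟩ := by
        rw [← hτ]; rfl
      change τ (x : Qbar) - (x : Qbar) = ((σ ⟨(x : Qbar), hxM⟩ - ⟨(x : Qbar), hxM⟩ : M) : Qbar)
      rw [h4]
      exact congrArg (· - (x : Qbar)) h3.symm
    rw [h2]
    rw [← hQP] at hyP
    exact hyP)
  obtain ⟨A, hA⟩ := exists_valuationSubring_primeOf Q
  have hAq : A.LiesOverPrime q := by
    have h1 : φ (q : 𝓞 M) ∈ Q := by
      rw [← hQP] at hqP
      exact hqP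
    rw [← hA, mem_primeOf] at h1
    have h2 : ((φ (q : 𝓞 M) : Zbar) : Qbar) = (q : Qbar) := by
      rw [map_natCast]; simp
    rw [h2] at h1
    exact h1
  have hmem : h * τ ∈ H := hI q hq A hAq (mem_inertiaSubgroupIn A hq hAq (by rw [hA]; exact hin))
  have hτH : τ ∈ H := by
    have := H.mul_mem (H.inv_mem hh) hmem
    simpa using this
  apply hσ1
  rw [← hτ]
  ext x
  have h3 := AlgEquiv.restrictNormal_commutes τ M x
  have h5 : τ (x : Qbar) = x := x.2 ⟨τ, hτH⟩
  exact h3.trans h5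

/-- a subgroup containing the pointwise stabiliser of a finite set of numbers is open -/
theorem isOpen_of_finset (H : Subgroup GQ) (s : Finset Qbar)
    (hs : ∀ σ : GQ, (∀ x ∈ s, σ x = x) → σ ∈ H) : IsOpen (H : Set GQ) := by
  have := isAlgebraicQbar
  let L : IntermediateField ℚ Qbar := IntermediateField.adjoin ℚ (s : Set Qbar)
  have hfd : FiniteDimensional ℚ L :=
    IntermediateField.finiteDimensional_adjoin (fun x _ => (isAlgebraicQbar.isAlgebraic x).isIntegral)
  have hle : L.fixingSubgroup ≤ H := by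
    intro σ hσ
    apply hs
    intro x hx
    exact (IntermediateField.mem_fixingSubgroup_iff L σ).mp hσ x
      (IntermediateField.subset_adjoin ℚ _ hx)
  exact Subgroup.isOpen_mono hle (IntermediateField.fixingSubgroup_isOpen L)

theorem eq_top_of_finset (H : Subgroup GQ) [H.Normal] (s : Finset Qbar)
    (hs : ∀ σ : GQ, (∀ x ∈ s, σ x = x) → σ ∈ H)
    (hI : ∀ q : ℕ, q.Prime → ∀ A : ValuationSubring Qbar, A.LiesOverPrime q →
      A.inertiaSubgroupIn ℚ ≤ H) : H = ⊤ :=
  eq_top_of_inertia_le H (isOpen_of_finset H s hs) hI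

open WeierstrassCurve WeierstrassCurve.Affine in
/-- a subgroup containing the pointwise stabiliser of a finite set of points is open -/
theorem isOpen_of_points (W : WeierstrassCurve.Affine ℚ) (H : Subgroup GQ)
    (S : Set (W⁄Qbar).Point) (hS : S.Finite)
    (hH : ∀ σ : GQ, (∀ P ∈ S, σ • P = P) → σ ∈ H) : IsOpen (H : Set GQ) := by
  classical
  let c : (W⁄Qbar).Point → Finset Qbar := fun P => match P with
    | .zero => ∅
    | .some x y _ => {x, y}
  refine isOpen_of_finset H (hS.toFinset.biUnion c) (fun σ hσ => hH σ ?_)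
  rintro (_ | ⟨x, y, h⟩) hP
  · rfl
  · have hx : σ x = x := hσ x (by
      rw [Finset.mem_biUnion]
      exact ⟨_, hS.mem_toFinset.mpr hP, by simp [c]⟩)
    have hy : σ y = y := hσ y (by
      rw [Finset.mem_biUnion]
      exact ⟨_, hS.mem_toFinset.mpr hP, by simp [c]⟩)
    rw [Point.algEquiv_smul_def, Point.map_some]
    simp only [Point.some.injEq]
    exact ⟨hx, hy⟩

open WeierstrassCurve WeierstrassCurve.Affine in
theorem eq_top_of_points (W : WeierstrassCurve.Affine ℚ) (H : Subgroup GQ) [H.Normal]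
    (S : Set (W⁄Qbar).Point) (hS : S.Finite)
    (hH : ∀ σ : GQ, (∀ P ∈ S, σ • P = P) → σ ∈ H)
    (hI : ∀ q : ℕ, q.Prime → ∀ A : ValuationSubring Qbar, A.LiesOverPrime q →
      A.inertiaSubgroupIn ℚ ≤ H) : H = ⊤ :=
  eq_top_of_inertia_le H (isOpen_of_points W H S hS hH) hI

end Fermat.Agent.S13.Minkowski
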