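import Fermat.Agent.S13.AtP
import Fermat.Agent.S13.Endgame
import Fermat.Agent.S13.Minkowski

set_option autoImplicit false

/-! # S13 : assembly -/

namespace Fermat.Agent.S13

open Fermat.Agent.S05 Fermat.Agent.DivPoly
open WeierstrassCurve WeierstrassCurve.Affine WeierstrassCurve.Affine.Point

local notation "Qb" => AlgebraicClosure ℚ
local notation "GQ" => (AlgebraicClosure ℚ ≃ₐ[ℚ] AlgebraicClosure ℚ)

section action

variable {E0 : Affine ℚ}

lemma gsmul_add (σ : GQ) (a b : (E0⁄Qb).Point) : σ • (a + b) = σ • a + σ • b :=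
  (Point.map σ.toAlgHom).map_add a b

lemma gsmul_sub (σ : GQ) (a b : (E0⁄Qb).Point) : σ • (a - b) = σ • a - σ • b :=
  (Point.map σ.toAlgHom).map_sub a b

lemma gsmul_neg (σ : GQ) (a : (E0⁄Qb).Point) : σ • (-a) = -(σ • a) :=
  (Point.map σ.toAlgHom).map_neg a

lemma gsmul_zero (σ : GQ) : σ • (0 : (E0⁄Qb).Point) = 0 :=
  (Point.map σ.toAlgHom).map_zero

lemma gsmul_nsmul (σ : GQ) (n : ℕ) (a : (E0⁄Qb).Point) : σ • (n • a) = n • (σ • a) :=
  (Point.map σ.toAlgHom).map_nsmul n a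

lemma gsmul_zsmul (σ : GQ) (n : ℤ) (a : (E0⁄Qb).Point) : σ • (n • a) = n • (σ • a) :=
  (Point.map σ.toAlgHom).map_zsmul n a

lemma gmul_smul (σ ρ : GQ) (a : (E0⁄Qb).Point) : (σ * ρ) • a = σ • (ρ • a) := mul_smul σ ρ a

lemma gone_smul (a : (E0⁄Qb).Point) : (1 : GQ) • a = a := one_smul GQ a

lemma ginv_smul_smul (σ : GQ) (a : (E0⁄Qb).Point) : σ⁻¹ • (σ • a) = a := inv_smul_smul σ a

lemma gsmul_inv_smul (σ : GQ) (a : (E0⁄Qb).Point) : σ • (σ⁻¹ • a) = a := smul_inv_smul σ a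

/-- the subgroup of `GQ` acting trivially on `T / L` -/
def cofixer (L T : AddSubgroup (E0⁄Qb).Point) (hL : ∀ σ : GQ, ∀ x ∈ L, σ • x ∈ L)
    (hT : ∀ σ : GQ, ∀ x ∈ T, σ • x ∈ T) : Subgroup GQ where
  carrier := {σ | ∀ g ∈ T, σ • g - g ∈ L}
  one_mem' := by
    intro g _
    rw [gone_smul, sub_self]
    exact L.zero_mem
  mul_mem' := by
    intro σ ρ hσ hρ g hg
    have h1 : (σ * ρ) • g - g = σ • (ρ • g - g) + (σ • g - g) := by
      rw [gmul_smul, gsmul_sub]; abel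
    rw [h1]
    exact L.add_mem (hL σ _ (hρ g hg)) (hσ g hg)
  inv_mem' := by
    intro σ hσ g hg
    have h1 := hσ (σ⁻¹ • g) (hT _ g hg)
    rw [gsmul_inv_smul] at h1
    have h2 : σ⁻¹ • g - g = -(g - σ⁻¹ • g) := by abel
    rw [h2]
    exact L.neg_mem h1

lemma mem_cofixer {L T : AddSubgroup (E0⁄Qb).Point} {hL : ∀ σ : GQ, ∀ x ∈ L, σ • x ∈ L}
    {hT : ∀ σ : GQ, ∀ x ∈ T, σ • x ∈ T} {σ : GQ} :
    σ ∈ cofixer L T hL hT ↔ ∀ g ∈ T, σ • g - g ∈ L := Iff.rfl

instance cofixer_normal (L T : AddSubgroup (E0⁄Qb).Point) (hL : ∀ σ : GQ, ∀ x ∈ L, σ • x ∈ L)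
    (hT : ∀ σ : GQ, ∀ x ∈ T, σ • x ∈ T) : (cofixer L T hL hT).Normal where
  conj_mem := by
    intro σ hσ ρ g hg
    have h1 := hσ (ρ⁻¹ • g) (hT _ g hg)
    have h2 : (ρ * σ * ρ⁻¹) • g - g = ρ • (σ • (ρ⁻¹ • g) - ρ⁻¹ • g) := by
      rw [gmul_smul, gmul_smul, gsmul_sub, gsmul_inv_smul]
    rw [h2]
    exact hL ρ _ h1

end action

section LA

variable {G : Type*} [AddCommGroup G]

lemma addOrderOf_eq_of_prime {p : ℕ} (hp : p.Prime) {Q : G} (hQ0 : Q ≠ 0) (hQp : p • Q = 0) :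
    addOrderOf Q = p := by
  have := Fact.mk hp
  exact addOrderOf_eq_prime hQp hQ0

lemma LA1 (τ : G →+ G) {p : ℕ} (hp : p.Prime) {Q : G} (hQ0 : Q ≠ 0) (hQp : p • Q = 0)
    (hτQ : τ Q ∈ AddSubgroup.zmultiples Q) (huni : τ (τ Q - Q) = τ Q - Q) : τ Q = Q := by
  obtain ⟨k, hk⟩ := AddSubgroup.mem_zmultiples_iff.mp hτQ
  have ho := addOrderOf_eq_of_prime hp hQ0 hQp
  have h1 : ((k - 1) * (k - 1)) • Q = 0 := by
    have h2 : τ Q - Q = (k - 1) • Q := by rw [← hk, sub_smul, one_smul]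
    rw [h2, map_zsmul, ← hk, smul_smul] at huni
    have : ((k - 1) * (k - 1)) • Q = ((k - 1) * k) • Q - (k - 1) • Q := by
      rw [← sub_smul]; congr 1; ring
    rw [this, huni, sub_self]
  rw [← addOrderOf_dvd_iff_zsmul_eq_zero, ho] at h1
  have hpZ : Prime (p : ℤ) := Nat.prime_iff_prime_int.mp hp
  have h3 : (p : ℤ) ∣ k - 1 := by
    rcases hpZ.dvd_or_dvd h1 with h | h <;> exact h
  rw [← ho, addOrderOf_dvd_iff_zsmul_eq_zero, sub_smul, one_smul, hk] at h3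
  exact sub_eq_zero.mp h3

lemma LA2 (τ : G →+ G) {p : ℕ} (hp : p.Prime) {Q : G} (hQ0 : Q ≠ 0) (hQp : p • Q = 0)
    (T : AddSubgroup G) (hT : Nat.card T = p ^ 2) (hQT : Q ∈ T) (hfixQ : τ Q = Q) {g : G}
    (hg : g ∈ T) (hτg : τ g ∈ T) (huni : τ (τ g - g) = τ g - g) :
    τ g - g ∈ AddSubgroup.zmultiples Q := by
  by_contra hy
  have ho := addOrderOf_eq_of_prime hp hQ0 hQp
  have hTfin : Finite T := Nat.finite_of_card_ne_zero (by rw [hT]; exact pow_ne_zero _ hp.ne_zero)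
  set F : AddSubgroup G := T ⊓ (τ - AddMonoidHom.id G).ker with hF
  have hmemF : ∀ z, z ∈ F ↔ z ∈ T ∧ τ z = z := by
    intro z
    rw [hF, AddSubgroup.mem_inf, AddMonoidHom.mem_ker, AddMonoidHom.sub_apply,
      AddMonoidHom.id_apply, sub_eq_zero]
  have hFT : F ≤ T := inf_le_left
  have hFfin : Finite F := Finite.of_injective (AddSubgroup.inclusion hFT)
    (AddSubgroup.inclusion_injective hFT)
  have hLF : AddSubgroup.zmultiples Q ≤ F := by
    rw [AddSubgroup.zmultiples_le]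
    exact (hmemF Q).mpr ⟨hQT, hfixQ⟩
  have hyF : τ g - g ∈ F := (hmemF _).mpr ⟨T.sub_mem hτg hg, huni⟩
  have hcL : Nat.card (AddSubgroup.zmultiples Q) = p := by rw [Nat.card_zmultiples, ho]
  have hd1 : Nat.card F ∣ p ^ 2 := hT ▸ AddSubgroup.card_dvd_of_le hFT
  obtain ⟨i, hi, hci⟩ := (Nat.dvd_prime_pow hp).mp hd1
  have hd2 : p ∣ Nat.card F := hcL ▸ AddSubgroup.card_dvd_of_le hLF
  have hi2 : i = 2 := by
    interval_cases i
    · rw [hci, pow_zero] at hd2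
      exact absurd (Nat.dvd_one.mp hd2) hp.ne_one
    · exfalso
      apply hy
      have : AddSubgroup.zmultiples Q = F :=
        AddSubgroup.eq_of_le_of_card_ge hLF (by rw [hcL, hci, pow_one])
      rw [this]; exact hyF
    · rfl
  have hFeq : F = T := AddSubgroup.eq_of_le_of_card_ge hFT (by rw [hT, hci, hi2])
  have hgF : g ∈ F := hFeq ▸ hg
  apply hy
  rw [((hmemF g).mp hgF).2, sub_self]
  exact AddSubgroup.zero_mem _

end LA

section wrappers

variable {K : Type*} [Field K] [DecidableEq K]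

theorem mem_multiples_of_InE1' [IsAlgClosed K] (W : Affine K) (h2 : (2 : K) ≠ 0)
    (he : 4 * (0 : K) ^ 3 + W.b₂ * (0 : K) ^ 2 + 2 * W.b₄ * (0 : K) + W.b₆ = 0) (v : RVal K)
    {p b : ℕ} (hpb : p = 2 * b + 1) (hp : p.Prime)
    (hpK : (p : K) ≠ 0) (hpv : 0 < v.w (p : K))
    (hcard : Nat.card (Submodule.torsionBy ℤ W.Point (p : ℤ)) = p ^ 2)
    (hint : ∀ i, v.GE ((half W b).coeff i) 0)
    (hβ : v.GE (kummerOf W 0 h2 he).β 0) (hκ : v.GE (kummerOf W 0 h2 he).κ 0)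
    {Q : W.Point} (hQ0 : Q ≠ 0) (hQ : p • Q = 0)
    (hX : v.LE (∏ x ∈ xsOf p Q, x) (- v.w (p : K)))
    {g : W.Point} (hg : p • g = 0) (hg1 : InE1 (kummerOf W 0 h2 he) v g) :
    ∃ k : ℕ, g = k • Q := by
  subst hpb
  exact mem_multiples_of_InE1 W h2 he v hp (by simpa using hpK) hpv hcard hint hβ hκ hQ0 hQ hX hg hg1

end wrappers

section core

variable (P : FreyPackage)

/-- the `p`-torsion as an additive subgroup -/
noncomputable def Tp : AddSubgroup (P.freyCurve⁄Qb).Point :=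
  (Submodule.torsionBy ℤ (P.freyCurve⁄Qb).Point (P.p : ℤ)).toAddSubgroup

lemma mem_Tp {g : (P.freyCurve⁄Qb).Point} : g ∈ Tp P ↔ P.p • g = 0 := by
  rw [Tp, Submodule.mem_toAddSubgroup, Submodule.mem_torsionBy_iff, natCast_zsmul]

lemma Tp_stable (σ : GQ) (g : (P.freyCurve⁄Qb).Point) (hg : g ∈ Tp P) : σ • g ∈ Tp P := by
  rw [mem_Tp] at hg ⊢
  rw [← gsmul_nsmul, hg, gsmul_zero]

lemma exists_nsmul_of_mem_zmultiples {G : Type*} [AddCommGroup G] {p : ℕ} (hp : 0 < p) {Q x : G}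
    (hQp : p • Q = 0) (hx : x ∈ AddSubgroup.zmultiples Q) : ∃ k : ℕ, x = k • Q := by
  have hfin : IsOfFinAddOrder Q := isOfFinAddOrder_iff_nsmul_eq_zero.mpr ⟨p, hp, hQp⟩
  rw [← hfin.mem_multiples_iff_mem_zmultiples, AddSubmonoid.mem_multiples_iff] at hx
  obtain ⟨k, hk⟩ := hx
  exact ⟨k, hk.symm⟩

lemma half_integral (v : RVal Qb) (b i : ℕ) : v.GE ((half (P.freyCurve⁄Qb) b).coeff i) 0 := by
  have h : half (P.freyCurve⁄Qb) b = (half P.freyCurveInt b).map (Int.castRingHom Qb) := by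
    rw [map_half, frey_map_int]
  rw [h, Polynomial.coeff_map]
  exact RVal.GE_intCast _

theorem core {Q : (P.freyCurve⁄Qb).Point} (hQ0 : Q ≠ 0) (hQp : P.p • Q = 0)
    (hst : ∀ σ : GQ, ∀ x ∈ AddSubgroup.zmultiples Q, σ • x ∈ AddSubgroup.zmultiples Q)
    (hcard : Nat.card (Submodule.torsionBy ℤ (P.freyCurve⁄Qb).Point (P.p : ℤ)) = P.p ^ 2) :
    ∀ σ : GQ, ∀ g ∈ Tp P, σ • g - g ∈ AddSubgroup.zmultiples Q := by
  have hp := P.pp
  have hQL : Q ∈ AddSubgroup.zmultiples Q := AddSubgroup.mem_zmultiples Q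
  have hQT : Q ∈ Tp P := (mem_Tp P).mpr hQp
  have hLT : AddSubgroup.zmultiples Q ≤ Tp P := by
    rw [AddSubgroup.zmultiples_le]; exact hQT
  have hcardT : Nat.card (Tp P) = P.p ^ 2 := hcard
  have hTfin : (Tp P : Set (P.freyCurve⁄Qb).Point).Finite := by
    have : Finite (Tp P) := Nat.finite_of_card_ne_zero (by rw [hcardT]; exact pow_ne_zero _ hp.ne_zero)
    exact Set.toFinite _
  have hstk : ∀ σ : GQ, ∃ k : ℕ, σ • Q = k • Q :=
    fun σ => exists_nsmul_of_mem_zmultiples hp.pos hQp (hst σ Q hQL)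
  obtain ⟨r, hr⟩ := prod_xsOf_rational P.freyCurve hp hQ0 hQp hstk
  -- local facts
  have hunr : ∀ q : ℕ, q.Prime → q ≠ 2 → q ≠ P.p → ∀ A : ValuationSubring Qb, A.LiesOverPrime q →
      ∀ σ ∈ A.inertiaSubgroupIn ℚ, ∀ g ∈ Tp P, σ • g = g := by
    intro q hq hq2 hqp A hA σ hσ g hg
    have := frey_unramified P hq hq2 hqp A hA σ hσ ⟨g, hg⟩
    exact congrArg Subtype.val this
  have huni : ∀ A : ValuationSubring Qb, A.LiesOverPrime 2 →
      ∀ σ ∈ A.inertiaSubgroupIn ℚ, ∀ g ∈ Tp P, σ • (σ • g - g) = σ • g - g := by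
    intro A hA σ hσ g hg
    exact frey_unipotent_two P hA hσ ((mem_Tp P).mp hg)
  have hfix2 : ∀ A : ValuationSubring Qb, A.LiesOverPrime 2 →
      ∀ σ ∈ A.inertiaSubgroupIn ℚ, σ • Q = Q := by
    intro A hA σ hσ
    exact LA1 (Point.map σ.toAlgHom) hp hQ0 hQp (hst σ Q hQL) (huni A hA σ hσ Q hQT)
  have hβ : ∀ v : RVal Qb, v.GE (D0 P).β 0 := fun v => by rw [D0_β]; exact RVal.GE_intCast _
  have hκ : ∀ v : RVal Qb, v.GE (D0 P).κ 0 := fun v => by rw [D0_κ_int]; exact RVal.GE_intCast _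
  by_cases hC : P.p ∣ r.den
  · -- inertia at `p` acts trivially on the quotient
    have htop : cofixer (AddSubgroup.zmultiples Q) (Tp P) hst (Tp_stable P) = ⊤ := by
      refine Minkowski.eq_top_of_points P.freyCurve _ (Tp P : Set _) hTfin ?_ ?_
      · intro σ hσ g hg
        rw [hσ g hg, sub_self]
        exact AddSubgroup.zero_mem _
      · intro q hq A hA σ hσ g hg
        by_cases hq2 : q = 2
        · subst hq2
          exact LA2 (Point.map σ.toAlgHom) hp hQ0 hQp (Tp P) hcardT hQT (hfix2 A hA σ hσ) hg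
            (Tp_stable P σ g hg) (huni A hA σ hσ g hg)
        by_cases hqp : q = P.p
        · subst hqp
          obtain ⟨v, hv⟩ := exists_rval A hp hA
          have h1 := frey_sub_mem_E1 P hA hv hσ ((mem_Tp P).mp hg)
          have hX : v.LE (∏ x ∈ xsOf P.p Q, x) (- v.w (P.p : Qb)) := by
            rw [hr]; exact ratCast_LE hp hA hv hC
          obtain ⟨b, hb⟩ := P.hp_odd
          obtain ⟨k, hk⟩ := mem_multiples_of_InE1' (P.freyCurve⁄Qb) two_ne (he0 P) v hb hp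
            (by exact_mod_cast P.hp0) (w_prime_pos hp hA hv) hcard (half_integral P v b) (hβ v) (hκ v)
            hQ0 hQp hX
            ((mem_Tp P).mp ((Tp P).sub_mem (Tp_stable P σ g hg) hg)) h1
          rw [hk]
          exact AddSubgroup.nsmul_mem _ hQL k
        · rw [hunr q hq hq2 hqp A hA σ hσ g hg, sub_self]
          exact AddSubgroup.zero_mem _
    intro σ g hg
    have : σ ∈ cofixer (AddSubgroup.zmultiples Q) (Tp P) hst (Tp_stable P) := by
      rw [htop]; exact Subgroup.mem_top σ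
    exact this g hg
  · -- inertia at `p` acts trivially on the line: contradiction
    exfalso
    have hbot : ∀ σ : GQ, ∀ x ∈ (⊥ : AddSubgroup (P.freyCurve⁄Qb).Point),
        σ • x ∈ (⊥ : AddSubgroup (P.freyCurve⁄Qb).Point) := by
      intro σ x hx
      rw [AddSubgroup.mem_bot] at hx ⊢
      rw [hx, gsmul_zero]
    have htop : cofixer ⊥ (AddSubgroup.zmultiples Q) hbot hst = ⊤ := by
      refine Minkowski.eq_top_of_points P.freyCurve _ (Tp P : Set _) hTfin ?_ ?_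
      · intro σ hσ g hg
        rw [hσ g (hLT hg), sub_self]
        exact AddSubgroup.zero_mem _
      · intro q hq A hA σ hσ g hg
        rw [AddSubgroup.mem_bot]
        by_cases hq2 : q = 2
        · subst hq2
          obtain ⟨k, rfl⟩ := exists_nsmul_of_mem_zmultiples hp.pos hQp hg
          rw [gsmul_nsmul, hfix2 A hA σ hσ, sub_self]
        by_cases hqp : q = P.p
        · subst hqp
          obtain ⟨v, hv⟩ := exists_rval A hp hA
          have h1 := frey_sub_mem_E1 P hA hv hσ ((mem_Tp P).mp (hLT hg))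
          have hX : v.GE (∏ x ∈ xsOf P.p Q, x) 0 := by
            rw [hr]; exact ratCast_GE hp hA hv hC
          obtain ⟨k, hk⟩ := exists_nsmul_of_mem_zmultiples hp.pos hQp
            ((AddSubgroup.zmultiples Q).sub_mem (hst σ g hg) hg)
          rw [hk]
          refine eq_zero_of_InE1_multiple (P.freyCurve⁄Qb) two_ne (he0 P) v hp (hβ v) (hκ v)
            hQ0 hQp hX ?_
          rw [← hk]
          exact h1
        · rw [hunr q hq hq2 hqp A hA σ hσ g (hLT hg), sub_self]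
    refine no_fixed_torsion P Q hQ0 hQp (fun σ => ?_)
    have : σ ∈ cofixer ⊥ (AddSubgroup.zmultiples Q) hbot hst := by
      rw [htop]; exact Subgroup.mem_top σ
    have h := this Q hQL
    rw [AddSubgroup.mem_bot] at h
    exact sub_eq_zero.mp h

end core

end Fermat.Agent.S13
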