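import Fermat.Agent.S05.TropicalA

set_option autoImplicit false

/-!
# S13/B : Gauss' lemma / Newton polygon, in the form needed

If `f = c ∏_{ξ ∈ Ξ} (X - ξ)` has integral coefficients then `w c + ∑_{ξ ∈ Ξ, w ξ < 0} w ξ ≥ 0`.

Proof.  Let `Ξ⁺` be the set of integral `ξ ∈ Ξ` and `u` a root of `1 + X ∏_{ξ ∈ Ξ⁺} (X - ξ)`.
If `w u < 0` then `w (u - ξ) = w u < 0` for all `ξ ∈ Ξ⁺`, so `u ∏ (u - ξ) = -1` has negative valuation: absurd.
So `u` and all `u - ξ` (`ξ ∈ Ξ⁺`) are integral with product `-1`, hence units.  For `ξ ∉ Ξ⁺`: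
`w (u - ξ) = w ξ`.  So `w (f u) = w c + ∑_{ξ ∉ Ξ⁺} w ξ`, and `f u = ∑ coeff_i u^i` is integral.
-/

namespace Fermat.Agent.S13

open Fermat.Agent.S05 Polynomial

section Aux

variable {K : Type*} [Field K]

theorem budget_w_prod (v : RVal K) {ι : Type*} (s : Finset ι) (g : ι → K)
    (hg : ∀ i ∈ s, g i ≠ 0) : v.w (∏ i ∈ s, g i) = ∑ i ∈ s, v.w (g i) := by
  classical
  induction s using Finset.induction_on with
  | empty => simp [RVal.w_one]
  | insert a s ha ih =>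
    rw [Finset.prod_insert ha, Finset.sum_insert ha,
      v.map_mul _ _ (hg a (Finset.mem_insert_self a s))
        (Finset.prod_ne_zero_iff.mpr fun i hi => hg i (Finset.mem_insert_of_mem hi)),
      ih fun i hi => hg i (Finset.mem_insert_of_mem hi)]

theorem budget_GE_sum (v : RVal K) {ι : Type*} (s : Finset ι) (g : ι → K) (a : ℝ)
    (hg : ∀ i ∈ s, v.GE (g i) a) : v.GE (∑ i ∈ s, g i) a := by
  classical
  induction s using Finset.induction_on with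
  | empty => simpa using RVal.GE_zero (v := v) a
  | insert b s hb ih =>
    rw [Finset.sum_insert hb]
    exact (hg b (Finset.mem_insert_self b s)).add
      (ih fun i hi => hg i (Finset.mem_insert_of_mem hi))

end Aux

variable {K : Type*} [Field K] [IsAlgClosed K] [DecidableEq K]

open Classical in
theorem budget (v : RVal K) {c : K} (hc : c ≠ 0) (Ξ : Finset K)
    (hint : ∀ i, v.GE ((C c * ∏ ξ ∈ Ξ, (X - C ξ)).coeff i) 0) :
    0 ≤ v.w c + ∑ ξ ∈ Ξ.filter (fun ξ => ξ ≠ 0 ∧ v.w ξ < 0), v.w ξ := by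
  set Ξm := Ξ.filter (fun ξ => ξ ≠ 0 ∧ v.w ξ < 0) with hΞm
  set Ξp := Ξ.filter (fun ξ => ¬ (ξ ≠ 0 ∧ v.w ξ < 0)) with hΞp
  have hp_int : ∀ ξ ∈ Ξp, v.GE ξ 0 := by
    intro ξ hξ
    have h := (Finset.mem_filter.mp hξ).2
    by_cases h0 : ξ = 0
    · exact Or.inl h0
    · exact Or.inr (not_lt.mp fun hlt => h ⟨h0, hlt⟩)
  have hm_neg : ∀ ξ ∈ Ξm, ξ ≠ 0 ∧ v.w ξ < 0 := fun ξ hξ => (Finset.mem_filter.mp hξ).2
  -- the auxiliary root
  set P : K[X] := ∏ ξ ∈ Ξp, (X - C ξ) with hP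
  have hPmonic : P.Monic := monic_prod_of_monic _ _ fun ξ _ => monic_X_sub_C ξ
  have hdeg : (1 + X * P).degree ≠ 0 := by
    have h1 : (X * P).Monic := monic_X.mul hPmonic
    have h2 : 0 < (X * P).degree := by
      rw [degree_mul, degree_X]
      have : 0 ≤ P.degree := by
        rw [degree_eq_natDegree hPmonic.ne_zero]
        exact_mod_cast Nat.zero_le _
      calc (0 : WithBot ℕ) < 1 + 0 := by norm_num
        _ ≤ 1 + P.degree := by gcongr
    rw [add_comm, degree_add_eq_left_of_degree_lt (by rwa [degree_one])]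
    exact h2.ne'
  obtain ⟨u, hu⟩ := IsAlgClosed.exists_root (1 + X * P) hdeg
  have hu' : u * ∏ ξ ∈ Ξp, (u - ξ) = -1 := by
    have : 1 + u * P.eval u = 0 := by simpa [IsRoot] using hu
    rw [hP, eval_prod] at this
    simp only [eval_sub, eval_X, eval_C] at this
    linear_combination this
  have hu0 : u ≠ 0 := by
    rintro rfl
    rw [zero_mul] at hu'
    exact one_ne_zero (neg_eq_zero.mp hu'.symm)
  have hprod0 : ∏ ξ ∈ Ξp, (u - ξ) ≠ 0 := by
    intro h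
    rw [h, mul_zero] at hu'
    exact one_ne_zero (neg_eq_zero.mp hu'.symm)
  have hfac0 : ∀ ξ ∈ Ξp, u - ξ ≠ 0 := fun ξ hξ => Finset.prod_ne_zero_iff.mp hprod0 ξ hξ
  have hsum : v.w u + ∑ ξ ∈ Ξp, v.w (u - ξ) = 0 := by
    rw [← budget_w_prod v Ξp _ hfac0, ← v.map_mul _ _ hu0 hprod0, hu', RVal.w_neg_one]
  have hu_int : 0 ≤ v.w u := by
    by_contra hneg
    push Not at hneg
    have h1 : ∀ ξ ∈ Ξp, v.w (u - ξ) = v.w u := by
      intro ξ hξ
      exact ((RVal.EQ_self (v := v) hu0).sub_GT ((hp_int ξ hξ).GT hneg)).2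
    rw [Finset.sum_congr rfl h1, Finset.sum_const, nsmul_eq_mul] at hsum
    have h2 : (0 : ℝ) ≤ (Ξp.card : ℝ) := Nat.cast_nonneg _
    nlinarith
  have hm_val : ∀ ξ ∈ Ξm, u - ξ ≠ 0 ∧ v.w (u - ξ) = v.w ξ := by
    intro ξ hξ
    obtain ⟨h0, hlt⟩ := hm_neg ξ hξ
    have := (RVal.EQ_self (v := v) h0).GT_sub (y := u) (Or.inr (lt_of_lt_of_le hlt hu_int))
    exact ⟨this.1, this.2⟩
  -- evaluate `f` at `u`
  set f : K[X] := C c * ∏ ξ ∈ Ξ, (X - C ξ) with hf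
  have hfu : f.eval u = c * ((∏ ξ ∈ Ξm, (u - ξ)) * ∏ ξ ∈ Ξp, (u - ξ)) := by
    rw [hf, eval_mul, eval_C, eval_prod, hΞm, hΞp, Finset.prod_filter_mul_prod_filter_not]
    simp
  have hprodm0 : ∏ ξ ∈ Ξm, (u - ξ) ≠ 0 :=
    Finset.prod_ne_zero_iff.mpr fun ξ hξ => (hm_val ξ hξ).1
  have hfu0 : f.eval u ≠ 0 := by
    rw [hfu]
    exact mul_ne_zero hc (mul_ne_zero hprodm0 hprod0)
  have hw : v.w (f.eval u) = v.w c + ((∑ ξ ∈ Ξm, v.w ξ) + ∑ ξ ∈ Ξp, v.w (u - ξ)) := by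
    rw [hfu, v.map_mul _ _ hc (mul_ne_zero hprodm0 hprod0), v.map_mul _ _ hprodm0 hprod0,
      budget_w_prod v Ξm _ fun ξ hξ => (hm_val ξ hξ).1, budget_w_prod v Ξp _ hfac0,
      Finset.sum_congr rfl fun ξ hξ => (hm_val ξ hξ).2]
  have hGE : v.GE (f.eval u) 0 := by
    rw [eval_eq_sum_range]
    refine budget_GE_sum v _ _ 0 fun i _ => ?_
    have h1 : v.GE (u ^ i) 0 := by
      have := (RVal.GE.pow (v := v) (x := u) (a := 0) (Or.inr hu_int) i)
      simpa using this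
    simpa using (hint i).mul h1
  have h0 := hGE.le_w hfu0
  rw [hw] at h0
  linarith

end Fermat.Agent.S13
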