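import Fermat.Agent.S13.Local
import Fermat.Agent.S13.Budget
import Fermat.Agent.Lib.DivPoly
import Fermat.Agent.S51.Galois

set_option autoImplicit false

/-!
# S13/P : the dichotomy at `p`

`W` a Weierstrass curve over an algebraically closed field `K` with `(0,0)`-type origin `e = 0`
(so `ξ = x`), `v` a valuation with `w p > 0`, `Q` a point of order `p = 2 b + 1`,
`X_N := ∏ x` over the set `xsOf p Q` of abscissae of the nonzero multiples of `Q`.

* (PC) if one nonzero multiple of `Q` is in `E₁` then all multiples are (`InE1.nsmul`; `k` is invertible mod `p`).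
* (PB) if `X_N` is integral then no nonzero multiple of `Q` is in `E₁`
  (otherwise all factors have negative valuation).
* (PA) if `w X_N ≤ - w p` then every `p`-torsion point in `E₁` is a multiple of `Q`:
  some factor of `X_N` is not integral, so by (PC) all of them have negative valuation, and `∑_{xsOf} w x = w X_N ≤ - w p`.
  `DivPoly.half_eq_prod'` + `budget`: `0 ≤ w p + ∑_{x ∈ Ξ, w x < 0} w x`, `Ξ = (half W b).roots.toFinset ⊇ xsOf p Q`
  (`DivPoly.odd_nsmul_eq_zero_iff`).  So there is no `x ∈ Ξ \ xsOf p Q` with `w x < 0`.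
  If `g = (x, y)` is a `p`-torsion point in `E₁` then `x ∈ Ξ`, `w x < 0`, so `x = xc (k • Q)`, `g = ± k • Q`
  (`Point.X_eq_iff` or `KummerData.eq_or_eq_neg`), and `- k • Q = (p - k) • Q`.
* (PR) `X_N` is rational if the line generated by `Q` is Galois stable.
-/

namespace Fermat.Agent.S13

open Fermat.Agent.S05 Fermat.Agent.DivPoly WeierstrassCurve WeierstrassCurve.Affine

section general

variable {K : Type*} [Field K] [DecidableEq K]

/-- abscissa (junk value `0` at the origin) -/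
def xc {W : Affine K} : W.Point → K
  | .zero => 0
  | .some x _ _ => x

/-- the abscissae of the nonzero multiples of `Q` (`Q` of order `p`) -/
def xsOf {W : Affine K} (p : ℕ) (Q : W.Point) : Finset K :=
  (Finset.Icc 1 (p - 1)).image (fun k => xc (k • Q))

variable (W : Affine K) (h2 : (2 : K) ≠ 0)
  (he : 4 * (0 : K) ^ 3 + W.b₂ * (0 : K) ^ 2 + 2 * W.b₄ * (0 : K) + W.b₆ = 0) (v : RVal K)

omit [DecidableEq K] in
lemma nsmul_eq_of_mul_mod {G : Type*} [AddCommGroup G] {p : ℕ} {Q : G} (hQ : p • Q = 0) (a : ℕ) :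
    (a % p) • Q = a • Q := by
  conv_rhs => rw [← Nat.div_add_mod a p, add_smul, mul_comm, mul_smul, hQ, smul_zero, zero_add]

/-- (PC) -/
theorem InE1_multiples {p : ℕ} (hp : p.Prime)
    (hβ : v.GE (kummerOf W 0 h2 he).β 0) (hκ : v.GE (kummerOf W 0 h2 he).κ 0)
    {Q : W.Point} (hQ : p • Q = 0) {k : ℕ} (hk0 : k • Q ≠ 0)
    (hk : InE1 (kummerOf W 0 h2 he) v (k • Q)) (j : ℕ) : InE1 (kummerOf W 0 h2 he) v (j • Q) := by
  have hpk : ¬ p ∣ k := by
    rintro ⟨c, rfl⟩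
    exact hk0 (by rw [mul_comm, mul_smul, hQ, smul_zero])
  have hcop : Nat.Coprime k p := ((Nat.Prime.coprime_iff_not_dvd hp).mpr hpk).symm
  obtain ⟨m, -, hm⟩ := Nat.exists_mul_mod_eq_one_of_coprime hcop hp.one_lt
  have h1 : j • Q = (j * m) • (k • Q) := by
    rw [← mul_smul, mul_assoc, mul_comm m k, mul_smul, ← nsmul_eq_of_mul_mod hQ (k * m), hm,
      one_smul]
  rw [h1]
  exact hk.nsmul hβ hκ _

/-- the abscissae of the multiples of a point in `E₁` -/
lemma xsOf_neg {p : ℕ} (hp : p.Prime) {Q : W.Point} (hQ0 : Q ≠ 0) (hQ : p • Q = 0)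
    (hall : ∀ j : ℕ, InE1 (kummerOf W 0 h2 he) v (j • Q)) :
    ∀ x ∈ xsOf p Q, x ≠ 0 ∧ v.w x < 0 := by
  intro x hx
  obtain ⟨i, hi, rfl⟩ := Finset.mem_image.mp hx
  rw [Finset.mem_Icc] at hi
  have hall_i := hall i
  have hne : i • Q ≠ 0 := by
    intro h0
    have := Fact.mk hp
    have ho : addOrderOf Q = p := addOrderOf_eq_prime hQ hQ0
    have hd := addOrderOf_dvd_of_nsmul_eq_zero h0
    rw [ho] at hd
    have := Nat.le_of_dvd (by omega) hd
    have := hp.two_le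
    omega
  generalize i • Q = R at hall_i hne
  rcases R with _ | ⟨x', y', h'⟩
  · exact absurd rfl hne
  · have := hall_i (x' - 0) rfl
    rw [sub_zero] at this
    exact this

/-- (PB) -/
theorem eq_zero_of_InE1_multiple {p : ℕ} (hp : p.Prime)
    (hβ : v.GE (kummerOf W 0 h2 he).β 0) (hκ : v.GE (kummerOf W 0 h2 he).κ 0)
    {Q : W.Point} (hQ0 : Q ≠ 0) (hQ : p • Q = 0) (hX : v.GE (∏ x ∈ xsOf p Q, x) 0) {k : ℕ}
    (hk : InE1 (kummerOf W 0 h2 he) v (k • Q)) : k • Q = 0 := by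
  by_contra hk0
  have hall := InE1_multiples W h2 he v hp hβ hκ hQ hk0 hk
  have hneg := xsOf_neg W h2 he v hp hQ0 hQ hall
  have hne : (∏ x ∈ xsOf p Q, x) ≠ 0 := Finset.prod_ne_zero_iff.mpr (fun x hx => (hneg x hx).1)
  have hw := budget_w_prod v (xsOf p Q) (fun x => x) (fun x hx => (hneg x hx).1)
  have hnonempty : (xsOf p Q).Nonempty := by
    refine ⟨xc (1 • Q), Finset.mem_image.mpr ⟨1, ?_, rfl⟩⟩
    rw [Finset.mem_Icc]
    have := hp.two_le
    omega
  have hlt : ∑ x ∈ xsOf p Q, v.w x < 0 :=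
    Finset.sum_neg (fun x hx => (hneg x hx).2) hnonempty
  have := hX.le_w hne
  rw [hw] at this
  linarith

/-- (PA) -/
theorem mem_multiples_of_InE1 [IsAlgClosed K] {b : ℕ} (hp : (2 * b + 1).Prime)
    (hpK : (2 * (b : K) + 1) ≠ 0) (hpv : 0 < v.w ((2 * b + 1 : ℕ) : K))
    (hcard : Nat.card (Submodule.torsionBy ℤ W.Point ((2 * b + 1 : ℕ) : ℤ)) = (2 * b + 1) ^ 2)
    (hint : ∀ i, v.GE ((half W b).coeff i) 0)
    (hβ : v.GE (kummerOf W 0 h2 he).β 0) (hκ : v.GE (kummerOf W 0 h2 he).κ 0)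
    {Q : W.Point} (hQ0 : Q ≠ 0) (hQ : (2 * b + 1) • Q = 0)
    (hX : v.LE (∏ x ∈ xsOf (2 * b + 1) Q, x) (- v.w ((2 * b + 1 : ℕ) : K)))
    {g : W.Point} (hg : (2 * b + 1) • g = 0) (hg1 : InE1 (kummerOf W 0 h2 he) v g) :
    ∃ k : ℕ, g = k • Q := by
  classical
  set p := 2 * b + 1 with hpdef
  set D := kummerOf W 0 h2 he with hD
  -- nonzero multiples
  have hne : ∀ j : ℕ, 1 ≤ j → j ≤ p - 1 → j • Q ≠ 0 := by
    intro j hj1 hj2 h0
    have h1 := addOrderOf_dvd_of_nsmul_eq_zero h0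
    have h2' := addOrderOf_dvd_of_nsmul_eq_zero hQ
    rcases (Nat.dvd_prime hp).mp h2' with h3 | h3
    · exact hQ0 (AddMonoid.addOrderOf_eq_one_iff.mp h3)
    · rw [h3] at h1
      have := Nat.le_of_dvd (by omega) h1
      omega
  have hξ : ∀ {x y : K} (h : W.Nonsingular x y), D.ξ (Point.some x y h) = Option.some x := by
    intro x y h
    show Option.some (x - 0) = Option.some x
    rw [sub_zero]
  obtain ⟨-, hprod⟩ := half_eq_prod' W hpK hcard
  set Ξ := (half W b).roots.toFinset with hΞ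
  have hroot : ∀ {x y : K} (h : W.Nonsingular x y), p • Point.some x y h = 0 → x ∈ Ξ := by
    intro x y h h0
    rw [hΞ, Multiset.mem_toFinset, Polynomial.mem_roots (half_ne_zero W hpK), Polynomial.IsRoot]
    exact (odd_nsmul_eq_zero_iff W h b).mp h0
  have hc0 : (-(2 * (b : K) + 1)) ≠ 0 := neg_ne_zero.mpr hpK
  have hbud := budget v hc0 Ξ (by rw [← hprod]; exact hint)
  have hwc : v.w (-(2 * (b : K) + 1)) = v.w ((p : ℕ) : K) := by
    rw [RVal.w_neg, hpdef]; push_cast; rfl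
  rw [hwc] at hbud
  set S := xsOf p Q with hS
  -- elements of `S`
  have hSmem : ∀ x ∈ S, ∃ j : ℕ, 1 ≤ j ∧ j ≤ p - 1 ∧ ∃ (y : K) (h : W.Nonsingular x y),
      j • Q = Point.some x y h := by
    intro x hx
    obtain ⟨j, hj, rfl⟩ := Finset.mem_image.mp hx
    rw [Finset.mem_Icc] at hj
    refine ⟨j, hj.1, hj.2, ?_⟩
    rcases hjQ : j • Q with _ | ⟨x, y, h⟩
    · exact absurd hjQ (hne j hj.1 hj.2)
    · exact ⟨y, h, rfl⟩
  have hS0 : ∀ x ∈ S, x ≠ 0 := fun x hx => Finset.prod_ne_zero_iff.mp hX.1 x hx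
  have hsum : ∑ x ∈ S, v.w x ≤ - v.w ((p : ℕ) : K) := by
    rw [← budget_w_prod v S (fun x => x) hS0]
    exact hX.2
  -- some factor is not integral
  obtain ⟨x₀, hx₀S, hx₀⟩ : ∃ x ∈ S, v.w x < 0 := by
    by_contra hcon
    push Not at hcon
    have : 0 ≤ ∑ x ∈ S, v.w x := Finset.sum_nonneg hcon
    linarith
  obtain ⟨k, hk1, hk2, y₀, h₀, hkQ⟩ := hSmem x₀ hx₀S
  have hkE : InE1 D v (k • Q) := by
    intro x hx
    rw [hkQ, hξ] at hx
    obtain rfl := Option.some.inj hx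
    exact ⟨hS0 _ hx₀S, hx₀⟩
  have hall : ∀ j : ℕ, InE1 D v (j • Q) :=
    fun j => InE1_multiples W h2 he v hp hβ hκ hQ (hne k hk1 hk2) hkE j
  have hSneg : ∀ x ∈ S, v.w x < 0 := by
    intro x hx
    obtain ⟨j, -, -, y, h, hjQ⟩ := hSmem x hx
    have := hall j x (by rw [hjQ, hξ])
    exact this.2
  set Ξm := Ξ.filter (fun ξ => ξ ≠ 0 ∧ v.w ξ < 0) with hΞm
  have hSsub : S ⊆ Ξm := by
    intro x hx
    obtain ⟨j, -, -, y, h, hjQ⟩ := hSmem x hx
    rw [hΞm, Finset.mem_filter]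
    refine ⟨hroot h ?_, hS0 x hx, hSneg x hx⟩
    rw [← hjQ, smul_comm, hQ, nsmul_zero]
  rcases g with _ | ⟨x, y, h⟩
  · exact ⟨0, by rw [zero_smul]; rfl⟩
  have hxE := hg1 x (hξ h)
  have hxm : x ∈ Ξm := by
    rw [hΞm, Finset.mem_filter]
    exact ⟨hroot h hg, hxE⟩
  have hxS : x ∈ S := by
    by_contra hxS
    have h1 : insert x S ⊆ Ξm := Finset.insert_subset hxm hSsub
    have h2' : ∑ ξ ∈ Ξm, v.w ξ ≤ ∑ ξ ∈ insert x S, v.w ξ := by
      have h3 := Finset.sum_le_sum_of_subset_of_nonneg (f := fun ξ => - v.w ξ) h1 (by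
        intro ξ hξm _
        have := (Finset.mem_filter.mp hξm).2.2
        linarith)
      rw [Finset.sum_neg_distrib, Finset.sum_neg_distrib] at h3
      linarith
    rw [Finset.sum_insert hxS] at h2'
    linarith [hxE.2]
  obtain ⟨j, hj1, hj2, y', h', hjQ⟩ := hSmem x hxS
  rcases (Point.X_eq_iff (h₁ := h) (h₂ := h')).mp rfl with he' | he'
  · exact ⟨j, by rw [he', hjQ]⟩
  · refine ⟨p - j, ?_⟩
    rw [he', ← hjQ]
    have h3 : (p - j) • Q + j • Q = 0 := by
      rw [← add_smul, Nat.sub_add_cancel (by omega), hQ]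
    exact (eq_neg_of_add_eq_zero_left h3).symm

end general

section rational

local notation "Qb" => AlgebraicClosure ℚ

open WeierstrassCurve.Affine.Point

/-- (PR) -/
theorem prod_xsOf_rational (E0 : Affine ℚ) {p : ℕ} (hp : p.Prime) {Q : (E0⁄Qb).Point}
    (hQ0 : Q ≠ 0) (hQ : p • Q = 0) (hst : ∀ σ : Qb ≃ₐ[ℚ] Qb, ∃ k : ℕ, σ • Q = k • Q) :
    ∃ r : ℚ, ∏ x ∈ xsOf p Q, x = (r : Qb) := by
  classical
  have hxc : ∀ (σ : Qb ≃ₐ[ℚ] Qb) (R : (E0⁄Qb).Point), σ (xc R) = xc (σ • R) := by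
    intro σ R
    rcases R with _ | ⟨x, y, h⟩
    · exact _root_.map_zero σ
    · obtain ⟨h', hs⟩ := Fermat.Agent.S51.smul_some E0 σ h
      rw [hs]
      rfl
  have hmod : ∀ m : ℕ, m • Q = (m % p) • Q := by
    intro m
    conv_lhs => rw [← Nat.div_add_mod m p, add_smul, mul_comm, mul_smul, hQ, nsmul_zero, zero_add]
  have hsub : ∀ σ : Qb ≃ₐ[ℚ] Qb, (xsOf p Q).image σ ⊆ xsOf p Q := by
    intro σ z hz
    obtain ⟨x, hx, rfl⟩ := Finset.mem_image.mp hz
    obtain ⟨j, hj, rfl⟩ := Finset.mem_image.mp hx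
    rw [Finset.mem_Icc] at hj
    obtain ⟨k, hk⟩ := hst σ
    have hpk : ¬ p ∣ k := by
      rintro ⟨c, rfl⟩
      rw [mul_comm, mul_smul, hQ, nsmul_zero] at hk
      have h0 : σ • Q = 0 := hk
      apply hQ0
      have h1 := congrArg (fun R => σ⁻¹ • R) h0
      simp only [inv_smul_smul] at h1
      rw [h1]
      exact smul_zero (A := (E0⁄Qb).Point) σ⁻¹
    have hpj : ¬ p ∣ j := fun h => by
      have := Nat.le_of_dvd (by omega) h
      omega
    have hpjk : ¬ p ∣ j * k := fun h => (hp.dvd_mul.mp h).elim hpj hpk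
    rw [hxc, algEquiv_smul_def, map_nsmul, ← algEquiv_smul_def, hk, ← mul_smul, hmod]
    refine Finset.mem_image.mpr ⟨j * k % p, ?_, rfl⟩
    rw [Finset.mem_Icc]
    have h1 : j * k % p < p := Nat.mod_lt _ hp.pos
    have h2 : j * k % p ≠ 0 := fun h => hpjk (Nat.dvd_of_mod_eq_zero h)
    omega
  have himg : ∀ σ : Qb ≃ₐ[ℚ] Qb, (xsOf p Q).image σ = xsOf p Q := by
    intro σ
    refine Finset.eq_of_subset_of_card_le (hsub σ) ?_
    rw [Finset.card_image_of_injective _ σ.injective]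
  have hfix : ∀ σ : Qb ≃ₐ[ℚ] Qb, σ (∏ x ∈ xsOf p Q, x) = ∏ x ∈ xsOf p Q, x := by
    intro σ
    rw [map_prod]
    conv_rhs => rw [← himg σ]
    rw [Finset.prod_image (fun a _ b _ h => σ.injective h)]
  obtain ⟨r, hr⟩ := Fermat.Agent.S51.mem_range_of_fixed _ hfix
  exact ⟨r, by rw [← hr]; exact eq_ratCast (algebraMap ℚ Qb) r⟩

end rational

end Fermat.Agent.S13
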