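import Fermat.Agent.S05.Kummer

set_option autoImplicit false

/-!
# S13/K : the ordinate on the Kummer data (needed to determine signs, also in residue char. 2)

In the coordinates `ξ = x - e`, `υ = y + (a₁ e + a₃)/2` the curve is
`υ² + α₁ ξ υ = ξ³ + α₂ ξ² + κ ξ`, `α₁ = a₁`, `α₂ = a₂ + 3 e`.
-/

namespace Fermat.Agent.S13

open Fermat.Agent.S05

structure SlopeData {K : Type*} [Field K] {G : Type*} [AddCommGroup G] (D : KummerData K G) where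
  υ : G → K
  α₁ : K
  α₂ : K
  β_eq : D.β = α₁ ^ 2 + 4 * α₂
  η_eq : ∀ g x, D.ξ g = some x → D.η g = 2 * υ g + α₁ * x
  υ_eq : ∀ g x, D.ξ g = some x → υ g ^ 2 + α₁ * x * υ g = x ^ 3 + α₂ * x ^ 2 + D.κ * x
  υ_neg : ∀ g x, D.ξ g = some x → υ (-g) = - υ g - α₁ * x
  sub : ∀ g₁ g₂ x₁ x₂ Y, D.ξ g₁ = some x₁ → D.ξ g₂ = some x₂ → x₁ ≠ x₂ →
    D.ξ (g₁ - g₂) = some Y →
    Y * (x₁ - x₂) ^ 2 = (υ g₁ + υ g₂ + α₁ * x₂) ^ 2
      + α₁ * (υ g₁ + υ g₂ + α₁ * x₂) * (x₁ - x₂) - (α₂ + x₁ + x₂) * (x₁ - x₂) ^ 2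

open WeierstrassCurve WeierstrassCurve.Affine

variable {F : Type*} [Field F] [DecidableEq F]

noncomputable def slopeOf (W : WeierstrassCurve.Affine F) (e : F) (h2 : (2 : F) ≠ 0)
    (he : 4 * e ^ 3 + W.b₂ * e ^ 2 + 2 * W.b₄ * e + W.b₆ = 0) :
    SlopeData (kummerOf W e h2 he) where
  υ := fun P => match P with
    | .zero => 0
    | .some _ y _ => y + (W.a₁ * e + W.a₃) / 2
  α₁ := W.a₁
  α₂ := W.a₂ + 3 * e
  β_eq := by
    change W.b₂ + 12 * e = W.a₁ ^ 2 + 4 * (W.a₂ + 3 * e)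
    rw [WeierstrassCurve.b₂]; ring
  η_eq := by
    rintro (_ | ⟨u, y, h⟩) x hx
    · simp [kummerOf] at hx
    · have hx' : u - e = x := Option.some.inj hx
      subst hx'
      change 2 * y + W.a₁ * u + W.a₃ = 2 * (y + (W.a₁ * e + W.a₃) / 2) + W.a₁ * (u - e)
      field_simp
      ring
  υ_eq := by
    rintro (_ | ⟨u, y, h⟩) x hx
    · simp [kummerOf] at hx
    · have hx' : u - e = x := Option.some.inj hx
      subst hx'
      have h1 := (Affine.equation_iff ..).mp h.1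
      change (y + (W.a₁ * e + W.a₃) / 2) ^ 2 + W.a₁ * (u - e) * (y + (W.a₁ * e + W.a₃) / 2)
        = (u - e) ^ 3 + (W.a₂ + 3 * e) * (u - e) ^ 2
          + (W.b₄ + W.b₂ * e + 6 * e ^ 2) / 2 * (u - e)
      simp only [WeierstrassCurve.b₂, WeierstrassCurve.b₄, WeierstrassCurve.b₆] at he ⊢
      field_simp
      linear_combination 4 * h1 + he
  υ_neg := by
    rintro (_ | ⟨u, y, h⟩) x hx
    · simp [kummerOf] at hx
    · have hx' : u - e = x := Option.some.inj hx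
      subst hx'
      change W.negY u y + (W.a₁ * e + W.a₃) / 2
        = -(y + (W.a₁ * e + W.a₃) / 2) - W.a₁ * (u - e)
      rw [Affine.negY]
      field_simp
      ring
  sub := by
    rintro (_ | ⟨u₁, y₁, h₁⟩) (_ | ⟨u₂, y₂, h₂⟩) x₁ x₂ Y hx₁ hx₂ hne hY
    · simp [kummerOf] at hx₁
    · simp [kummerOf] at hx₁
    · simp [kummerOf] at hx₂
    · have hx₁' : u₁ - e = x₁ := Option.some.inj hx₁
      have hx₂' : u₂ - e = x₂ := Option.some.inj hx₂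
      subst hx₁' hx₂'
      have hu : u₁ ≠ u₂ := fun h => hne (by rw [h])
      have hd : u₁ - u₂ ≠ 0 := sub_ne_zero.mpr hu
      rw [sub_eq_add_neg, Point.neg_some, Point.add_of_X_ne hu] at hY
      have hY' : W.addX u₁ u₂ (W.slope u₁ u₂ y₁ (W.negY u₂ y₂)) - e = Y := Option.some.inj hY
      subst hY'
      change (W.addX u₁ u₂ (W.slope u₁ u₂ y₁ (W.negY u₂ y₂)) - e) * ((u₁ - e) - (u₂ - e)) ^ 2
        = ((y₁ + (W.a₁ * e + W.a₃) / 2) + (y₂ + (W.a₁ * e + W.a₃) / 2) + W.a₁ * (u₂ - e)) ^ 2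
          + W.a₁ * ((y₁ + (W.a₁ * e + W.a₃) / 2) + (y₂ + (W.a₁ * e + W.a₃) / 2)
            + W.a₁ * (u₂ - e)) * ((u₁ - e) - (u₂ - e))
          - ((W.a₂ + 3 * e) + (u₁ - e) + (u₂ - e)) * ((u₁ - e) - (u₂ - e)) ^ 2
      rw [Affine.slope_of_X_ne hu, Affine.addX, Affine.negY]
      field_simp
      ring

end Fermat.Agent.S13
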