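import Fermat.Agent.S05.Frey
import Fermat.Agent.S13.Slope
import Fermat.Agent.Lib.DivPoly

set_option autoImplicit false

/-! # S13 : arithmetic facts on the Frey curve -/

namespace Fermat.Agent.S13

open Fermat.Agent.S05 WeierstrassCurve WeierstrassCurve.Affine WeierstrassCurve.Affine.Point

local notation "Qb" => AlgebraicClosure ℚ

variable (P : FreyPackage)

lemma two_dvd_b : (2 : ℤ) ∣ P.b := (ZMod.intCast_zmod_eq_zero_iff_dvd P.b 2).1 P.hb2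

lemma four_dvd_a_add_one : (4 : ℤ) ∣ P.a + 1 := by
  have h : ((P.a + 1 : ℤ) : ZMod 4) = 0 := by
    push_cast
    rw [P.ha4]
    decide
  exact (ZMod.intCast_zmod_eq_zero_iff_dvd _ 4).1 h

lemma not_two_dvd_a : ¬ (2 : ℤ) ∣ P.a := by
  have := four_dvd_a_add_one P
  omega

lemma thirtytwo_dvd_b_pow : (32 : ℤ) ∣ P.b ^ P.p := by
  obtain ⟨m, hm⟩ := two_dvd_b P
  obtain ⟨k, hk⟩ : ∃ k, P.p = k + 5 := ⟨P.p - 5, by have := P.hp5; omega⟩
  rw [hm, hk, mul_pow, pow_add]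
  exact Dvd.intro (2 ^ k * (m ^ k * m ^ 5)) (by ring)

lemma four_dvd_a₂ : (4 : ℤ) ∣ P.b ^ P.p - 1 - P.a ^ P.p := by
  have h1 := thirtytwo_dvd_b_pow P
  have h2 : (4 : ℤ) ∣ P.a ^ P.p + 1 := by
    have := Odd.add_dvd_pow_add_pow P.a 1 P.hp_odd
    rw [one_pow] at this
    exact (four_dvd_a_add_one P).trans this
  omega

lemma sixteen_dvd_a₄ : (16 : ℤ) ∣ -(P.a ^ P.p) * (P.b ^ P.p) := by
  have h1 := thirtytwo_dvd_b_pow P
  exact Dvd.dvd.mul_left (by omega) _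

/-- the Frey curve over `Qbar` comes from the integral model -/
lemma frey_map_int : P.freyCurveInt.map (Int.castRingHom Qb) = (P.freyCurve⁄Qb) := by
  have h4 : (4 : Qb) ≠ 0 := by norm_num
  have h16 : (16 : Qb) ≠ 0 := by norm_num
  ext
  · rw [frey_a₁]; simp [FreyPackage.freyCurveInt]
  · rw [frey_a₂]
    simp only [FreyPackage.freyCurveInt, WeierstrassCurve.map_a₂, eq_intCast]
    rw [Int.cast_div (four_dvd_a₂ P) (by exact_mod_cast h4)]
    push_cast; ring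
  · rw [frey_a₃]; simp [FreyPackage.freyCurveInt]
  · rw [frey_a₄]
    simp only [FreyPackage.freyCurveInt, WeierstrassCurve.map_a₄, eq_intCast]
    rw [Int.cast_div (sixteen_dvd_a₄ P) (by exact_mod_cast h16)]
    push_cast; ring
  · rw [frey_a₆]; simp [FreyPackage.freyCurveInt]

lemma hFLT_Qb : (P.a : Qb) ^ P.p + (P.b : Qb) ^ P.p = (P.c : Qb) ^ P.p := by
  have := congrArg (Int.cast : ℤ → Qb) P.hFLT
  push_cast at this
  exact this

lemma frey_b₈ : (P.freyCurve⁄Qb).b₈ = -((P.freyCurve⁄Qb).a₄) ^ 2 := by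
  rw [WeierstrassCurve.b₈, frey_a₁, frey_a₃, frey_a₆]; ring

lemma frey_Δ : (P.freyCurve⁄Qb).Δ =
    ((P.a : Qb) ^ P.p * (P.b : Qb) ^ P.p * (P.c : Qb) ^ P.p) ^ 2 / 256 := by
  rw [WeierstrassCurve.Δ, frey_b₂, frey_b₄, frey_b₆, frey_b₈, frey_a₄, ← hFLT_Qb]; ring

lemma frey_Δ_ne_zero : (P.freyCurve⁄Qb).Δ ≠ 0 := by
  rw [frey_Δ]
  have ha : (P.a : Qb) ≠ 0 := by exact_mod_cast P.ha0
  have hb : (P.b : Qb) ≠ 0 := by exact_mod_cast P.hb0
  have hc : (P.c : Qb) ≠ 0 := by exact_mod_cast P.hc0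
  exact div_ne_zero (pow_ne_zero _ (mul_ne_zero (mul_ne_zero (pow_ne_zero _ ha) (pow_ne_zero _ hb))
    (pow_ne_zero _ hc))) (by norm_num)

end Fermat.Agent.S13
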