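import Fermat.Agent.S05.LemmaT

set_option autoImplicit false
set_option linter.unusedVariables false

/-!
# S13/T : the tropical group law without the hypothesis `v.EQ 2 0`
(copies of `S05/TropicalB.lean` and `S05/LemmaT.lean`; needed at the prime 2)
-/

namespace Fermat.Agent.S05

variable {K : Type*} [Field K] {v : RVal K} {h : ℝ} {β κ x₁ x₂ X Y : K}

namespace TropicalB

/-- valuation of the right hand side of the sum formula -/
theorem sum_EQ' (hβ : v.EQ β 0) (hκ : v.EQ κ h) {a b m : ℝ}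
    (h₁ : v.EQ x₁ a) (h₂ : v.EQ x₂ b) (hab : a ≤ b) (hm1 : m ≤ a + b) (hm2 : m ≤ h)
    (hm : b < m) :
    v.EQ ((x₁ + x₂) * (2 * x₁ * x₂ + 2 * κ) + β * x₁ * x₂) (a + b) := by
  have e1 : v.EQ (β * x₁ * x₂) (a + b) := ((hβ.mul h₁).mul h₂).of_eq (by ring)
  have e2 : v.GE (x₁ + x₂) a := (h₁.GE le_rfl).add (h₂.GE hab)
  have e3 : v.GE (2 * x₁ * x₂ + 2 * κ) m :=
    (((RVal.GE_two.mul (h₁.GE le_rfl)).mul (h₂.GE le_rfl)).mono (by linarith)).add
      ((RVal.GE_two.mul (hκ.GE le_rfl)).mono (by linarith))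
  have e4 : v.GT ((x₁ + x₂) * (2 * x₁ * x₂ + 2 * κ)) (a + b) := (e2.mul e3).GT (by linarith)
  exact e1.GT_add e4

end TropicalB

open TropicalB

/-! Valuation case analysis for the add/sub law, part B: `0 < w x₁ ≤ w x₂ < h`. -/

/-- `0 < a < b`, `a + b < h` -/
theorem trop_mid_mid_lt' (hh : 0 < h) (hβ : v.EQ β 0) (hκ : v.EQ κ h)
    (hprod : X * Y * (x₁ - x₂) ^ 2 = (x₁ * x₂ - κ) ^ 2)
    (hsum : (X + Y) * (x₁ - x₂) ^ 2 = (x₁ + x₂) * (2 * x₁ * x₂ + 2 * κ) + β * x₁ * x₂)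
    {a b : ℝ} (h₁ : v.EQ x₁ a) (h₂ : v.EQ x₂ b) (ha0 : 0 < a) (hab : a < b) (habh : a + b < h) :
    (v.EQ X (b - a) ∧ v.EQ Y (a + b)) ∨ (v.EQ Y (b - a) ∧ v.EQ X (a + b)) := by
  have hD : v.EQ ((x₁ - x₂) ^ 2) (2 * a) := (h₁.sub_GT (h₂.GT hab)).sq
  have hP : v.EQ ((x₁ * x₂ - κ) ^ 2) (2 * (a + b)) := ((h₁.mul h₂).sub_GT (hκ.GT habh)).sq
  have hS := sum_EQ' (m := a + b) hβ hκ h₁ h₂ hab.le le_rfl habh.le (by linarith)
  rcases core_EQ hprod hsum hD hS hP (by linarith) with ⟨p, q⟩ | ⟨p, q⟩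
  · exact Or.inl ⟨p.of_eq (by ring), q.of_eq (by ring)⟩
  · exact Or.inr ⟨p.of_eq (by ring), q.of_eq (by ring)⟩

/-- `0 < a < b < h`, `a + b > h` -/
theorem trop_mid_mid_gt' (hh : 0 < h) (hβ : v.EQ β 0) (hκ : v.EQ κ h)
    (hprod : X * Y * (x₁ - x₂) ^ 2 = (x₁ * x₂ - κ) ^ 2)
    (hsum : (X + Y) * (x₁ - x₂) ^ 2 = (x₁ + x₂) * (2 * x₁ * x₂ + 2 * κ) + β * x₁ * x₂)
    {a b : ℝ} (h₁ : v.EQ x₁ a) (h₂ : v.EQ x₂ b) (ha0 : 0 < a) (hab : a < b) (hbh : b < h)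
    (habh : h < a + b) :
    (v.EQ X (b - a) ∧ v.EQ Y (2 * h - a - b)) ∨ (v.EQ Y (b - a) ∧ v.EQ X (2 * h - a - b)) := by
  have hD : v.EQ ((x₁ - x₂) ^ 2) (2 * a) := (h₁.sub_GT (h₂.GT hab)).sq
  have hP : v.EQ ((x₁ * x₂ - κ) ^ 2) (2 * h) := (hκ.GT_sub ((h₁.mul h₂).GT habh)).sq
  have hS := sum_EQ' (m := h) hβ hκ h₁ h₂ hab.le habh.le le_rfl hbh
  rcases core_EQ hprod hsum hD hS hP (by linarith) with ⟨p, q⟩ | ⟨p, q⟩
  · exact Or.inl ⟨p.of_eq (by ring), q.of_eq (by ring)⟩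
  · exact Or.inr ⟨p.of_eq (by ring), q.of_eq (by ring)⟩

/-- `0 < a < b`, `a + b = h` -/
theorem trop_mid_mid_eq' (hh : 0 < h) (hβ : v.EQ β 0) (hκ : v.EQ κ h)
    (hprod : X * Y * (x₁ - x₂) ^ 2 = (x₁ * x₂ - κ) ^ 2)
    (hsum : (X + Y) * (x₁ - x₂) ^ 2 = (x₁ + x₂) * (2 * x₁ * x₂ + 2 * κ) + β * x₁ * x₂)
    {a b : ℝ} (h₁ : v.EQ x₁ a) (h₂ : v.EQ x₂ b) (ha0 : 0 < a) (hab : a < b) (habh : a + b = h) :
    (v.EQ X (b - a) ∧ v.GE Y h) ∨ (v.EQ Y (b - a) ∧ v.GE X h) := by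
  have hD : v.EQ ((x₁ - x₂) ^ 2) (2 * a) := (h₁.sub_GT (h₂.GT hab)).sq
  have hP : v.GE ((x₁ * x₂ - κ) ^ 2) (2 * h) :=
    (((h₁.mul h₂).GE habh.ge).sub (hκ.GE le_rfl)).sq
  have hS := sum_EQ' (m := h) hβ hκ h₁ h₂ hab.le habh.ge le_rfl (by linarith)
  rcases core_GE hprod hsum hD hS hP (by linarith) with ⟨p, q⟩ | ⟨p, q⟩
  · exact Or.inl ⟨p.of_eq (by ring), q.mono (by linarith)⟩
  · exact Or.inr ⟨p.of_eq (by ring), q.mono (by linarith)⟩

/-- `w x₁ = w x₂ = a`, `0 < 2 a < h` -/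
theorem trop_same_lt' (hh : 0 < h) (hβ : v.EQ β 0) (hκ : v.EQ κ h)
    (hne : x₁ ≠ x₂)
    (hprod : X * Y * (x₁ - x₂) ^ 2 = (x₁ * x₂ - κ) ^ 2)
    (hsum : (X + Y) * (x₁ - x₂) ^ 2 = (x₁ + x₂) * (2 * x₁ * x₂ + 2 * κ) + β * x₁ * x₂)
    {a : ℝ} (h₁ : v.EQ x₁ a) (h₂ : v.EQ x₂ a) (ha0 : 0 < a) (hah : 2 * a < h) :
    (v.LE X 0 ∧ v.EQ Y (2 * a)) ∨ (v.LE Y 0 ∧ v.EQ X (2 * a)) := by
  have hne' : x₁ - x₂ ≠ 0 := sub_ne_zero.mpr hne
  have hδ : a ≤ v.w (x₁ - x₂) := ((h₁.GE le_rfl).sub (h₂.GE le_rfl)).le_w hne'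
  have hD : v.EQ ((x₁ - x₂) ^ 2) (2 * v.w (x₁ - x₂)) := (RVal.EQ_self hne').sq
  have hP : v.EQ ((x₁ * x₂ - κ) ^ 2) (2 * (a + a)) :=
    ((h₁.mul h₂).sub_GT (hκ.GT (by linarith))).sq
  have hS := sum_EQ' (m := a + a) hβ hκ h₁ h₂ le_rfl le_rfl (by linarith) (by linarith)
  rcases core_EQ hprod hsum hD hS hP (by linarith) with ⟨p, q⟩ | ⟨p, q⟩
  · exact Or.inl ⟨p.LE (by linarith), q.of_eq (by ring)⟩
  · exact Or.inr ⟨p.LE (by linarith), q.of_eq (by ring)⟩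

/-- `w x₁ = w x₂ = a < h < 2 a` -/
theorem trop_same_gt' (hh : 0 < h) (hβ : v.EQ β 0) (hκ : v.EQ κ h)
    (hne : x₁ ≠ x₂)
    (hprod : X * Y * (x₁ - x₂) ^ 2 = (x₁ * x₂ - κ) ^ 2)
    (hsum : (X + Y) * (x₁ - x₂) ^ 2 = (x₁ + x₂) * (2 * x₁ * x₂ + 2 * κ) + β * x₁ * x₂)
    {a : ℝ} (h₁ : v.EQ x₁ a) (h₂ : v.EQ x₂ a) (hah : a < h) (hah2 : h < 2 * a) :
    (v.LE X 0 ∧ v.EQ Y (2 * h - 2 * a)) ∨ (v.LE Y 0 ∧ v.EQ X (2 * h - 2 * a)) := by
  have hne' : x₁ - x₂ ≠ 0 := sub_ne_zero.mpr hne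
  have hδ : a ≤ v.w (x₁ - x₂) := ((h₁.GE le_rfl).sub (h₂.GE le_rfl)).le_w hne'
  have hD : v.EQ ((x₁ - x₂) ^ 2) (2 * v.w (x₁ - x₂)) := (RVal.EQ_self hne').sq
  have hP : v.EQ ((x₁ * x₂ - κ) ^ 2) (2 * h) :=
    (hκ.GT_sub ((h₁.mul h₂).GT (by linarith))).sq
  have hS := sum_EQ' (m := h) hβ hκ h₁ h₂ le_rfl (by linarith) le_rfl hah
  rcases core_EQ hprod hsum hD hS hP (by linarith) with ⟨p, q⟩ | ⟨p, q⟩
  · exact Or.inl ⟨p.LE (by linarith), q.of_eq (by ring)⟩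
  · exact Or.inr ⟨p.LE (by linarith), q.of_eq (by ring)⟩

/-- `w x₁ = w x₂ = a`, `2 a = h` -/
theorem trop_same_eq' (hh : 0 < h) (hβ : v.EQ β 0) (hκ : v.EQ κ h)
    (hne : x₁ ≠ x₂)
    (hprod : X * Y * (x₁ - x₂) ^ 2 = (x₁ * x₂ - κ) ^ 2)
    (hsum : (X + Y) * (x₁ - x₂) ^ 2 = (x₁ + x₂) * (2 * x₁ * x₂ + 2 * κ) + β * x₁ * x₂)
    {a : ℝ} (h₁ : v.EQ x₁ a) (h₂ : v.EQ x₂ a) (hah2 : 2 * a = h) :
    (v.LE X 0 ∧ v.GE Y h) ∨ (v.LE Y 0 ∧ v.GE X h) := by
  have hne' : x₁ - x₂ ≠ 0 := sub_ne_zero.mpr hne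
  have hδ : a ≤ v.w (x₁ - x₂) := ((h₁.GE le_rfl).sub (h₂.GE le_rfl)).le_w hne'
  have hD : v.EQ ((x₁ - x₂) ^ 2) (2 * v.w (x₁ - x₂)) := (RVal.EQ_self hne').sq
  have hP : v.GE ((x₁ * x₂ - κ) ^ 2) (2 * h) :=
    (((h₁.mul h₂).GE (by linarith)).sub (hκ.GE le_rfl)).sq
  have hS := sum_EQ' (m := h) hβ hκ h₁ h₂ le_rfl (by linarith) le_rfl (by linarith)
  rcases core_GE hprod hsum hD hS hP (by linarith) with ⟨p, q⟩ | ⟨p, q⟩
  · exact Or.inl ⟨p.LE (by linarith), q.mono (by linarith)⟩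
  · exact Or.inr ⟨p.LE (by linarith), q.mono (by linarith)⟩



variable {β κ x₁ x₂ X Y : K}

/-- ordered version: class of `x₁` is at most the class of `x₂` -/
private lemma lemmaT_field_aux' (hh : 0 < h) (hβ : v.EQ β 0) (hκ : v.EQ κ h)
    (hne : x₁ ≠ x₂)
    (hprod : X * Y * (x₁ - x₂) ^ 2 = (x₁ * x₂ - κ) ^ 2)
    (hsum : (X + Y) * (x₁ - x₂) ^ 2 = (x₁ + x₂) * (2 * x₁ * x₂ + 2 * κ) + β * x₁ * x₂)
    (hle : muK v h x₁ ≤ muK v h x₂) :
    TropPair h (muK v h x₁) (muK v h x₂) (muK v h X) (muK v h Y) := by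
  rcases muK_cases (v := v) hh x₁ with ⟨c1, e1⟩ | ⟨a, c1, ha0, hah, e1⟩ | ⟨c1, e1⟩ <;>
  rcases muK_cases (v := v) hh x₂ with ⟨c2, e2⟩ | ⟨b, c2, hb0, hbh, e2⟩ | ⟨c2, e2⟩ <;>
  rw [e1, e2] at hle ⊢
  · obtain ⟨hX, hY⟩ := trop_zero_zero' hh hβ hκ hne hprod hsum c1 c2
    rw [muK_of_LE hh hX, muK_of_LE hh hY]
    refine TropPair.mk' (A := 0) (B := 0) (by simp) (by simp [hh.le]) (Or.inl ⟨rfl, rfl⟩)
  · obtain ⟨hX, hY⟩ := trop_zero_mid' hh hβ hκ hprod hsum c1 c2 hb0 hbh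
    rw [muK_of_EQ hX hb0.le hbh.le, muK_of_EQ hY hb0.le hbh.le]
    refine TropPair.mk' (A := b) (B := b) ?_ ?_ (Or.inl ⟨rfl, rfl⟩)
    · rw [zero_sub, abs_neg, abs_of_pos hb0]
    · rw [min_eq_left (by linarith)]; ring
  · obtain ⟨hX, hY⟩ := trop_zero_top' hh hβ hκ hprod hsum c1 c2
    rw [muK_of_GE hh hX, muK_of_GE hh hY]
    refine TropPair.mk' (A := h) (B := h) ?_ ?_ (Or.inl ⟨rfl, rfl⟩)
    · rw [zero_sub, abs_neg, abs_of_pos hh]
    · rw [min_eq_left (by linarith)]; ring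
  · exact absurd hle (by linarith)
  · -- mid mid
    rcases lt_or_eq_of_le hle with hab | hab
    · rcases lt_trichotomy (a + b) h with habh | habh | habh
      · have := trop_mid_mid_lt' hh hβ hκ hprod hsum c1 c2 ha0 hab habh
        refine TropPair.mk' (A := b - a) (B := a + b) ?_ ?_ ?_
        · rw [abs_sub_comm, abs_of_pos (by linarith)]
        · rw [min_eq_left (by linarith)]
        · rcases this with ⟨hX, hY⟩ | ⟨hY, hX⟩
          · exact Or.inl ⟨muK_of_EQ hX (by linarith) (by linarith),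
              muK_of_EQ hY (by linarith) (by linarith)⟩
          · exact Or.inr ⟨muK_of_EQ hY (by linarith) (by linarith),
              muK_of_EQ hX (by linarith) (by linarith)⟩
      · have := trop_mid_mid_eq' hh hβ hκ hprod hsum c1 c2 ha0 hab habh
        refine TropPair.mk' (A := b - a) (B := h) ?_ ?_ ?_
        · rw [abs_sub_comm, abs_of_pos (by linarith)]
        · rw [min_eq_left (by linarith)]; exact habh
        · rcases this with ⟨hX, hY⟩ | ⟨hY, hX⟩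
          · exact Or.inl ⟨muK_of_EQ hX (by linarith) (by linarith), muK_of_GE hh hY⟩
          · exact Or.inr ⟨muK_of_EQ hY (by linarith) (by linarith), muK_of_GE hh hX⟩
      · have := trop_mid_mid_gt' hh hβ hκ hprod hsum c1 c2 ha0 hab hbh habh
        refine TropPair.mk' (A := b - a) (B := 2 * h - a - b) ?_ ?_ ?_
        · rw [abs_sub_comm, abs_of_pos (by linarith)]
        · rw [min_eq_right (by linarith)]
        · rcases this with ⟨hX, hY⟩ | ⟨hY, hX⟩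
          · exact Or.inl ⟨muK_of_EQ hX (by linarith) (by linarith),
              muK_of_EQ hY (by linarith) (by linarith)⟩
          · exact Or.inr ⟨muK_of_EQ hY (by linarith) (by linarith),
              muK_of_EQ hX (by linarith) (by linarith)⟩
    · subst hab
      rcases lt_trichotomy (2 * a) h with habh | habh | habh
      · have := trop_same_lt' hh hβ hκ hne hprod hsum c1 c2 ha0 habh
        refine TropPair.mk' (A := 0) (B := 2 * a) (by simp) ?_ ?_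
        · rw [min_eq_left (by linarith)]; ring
        · rcases this with ⟨hX, hY⟩ | ⟨hY, hX⟩
          · exact Or.inl ⟨muK_of_LE hh hX, muK_of_EQ hY (by linarith) (by linarith)⟩
          · exact Or.inr ⟨muK_of_LE hh hY, muK_of_EQ hX (by linarith) (by linarith)⟩
      · have := trop_same_eq' hh hβ hκ hne hprod hsum c1 c2 habh
        refine TropPair.mk' (A := 0) (B := h) (by simp) ?_ ?_
        · rw [min_eq_left (by linarith)]; linarith
        · rcases this with ⟨hX, hY⟩ | ⟨hY, hX⟩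
          · exact Or.inl ⟨muK_of_LE hh hX, muK_of_GE hh hY⟩
          · exact Or.inr ⟨muK_of_LE hh hY, muK_of_GE hh hX⟩
      · have := trop_same_gt' hh hβ hκ hne hprod hsum c1 c2 hah habh
        refine TropPair.mk' (A := 0) (B := 2 * h - 2 * a) (by simp) ?_ ?_
        · rw [min_eq_right (by linarith)]; ring
        · rcases this with ⟨hX, hY⟩ | ⟨hY, hX⟩
          · exact Or.inl ⟨muK_of_LE hh hX, muK_of_EQ hY (by linarith) (by linarith)⟩
          · exact Or.inr ⟨muK_of_LE hh hY, muK_of_EQ hX (by linarith) (by linarith)⟩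
  · obtain ⟨hX, hY⟩ := trop_mid_top' hh hβ hκ hprod hsum c1 ha0 hah c2
    rw [muK_of_EQ hX (by linarith) (by linarith), muK_of_EQ hY (by linarith) (by linarith)]
    refine TropPair.mk' (A := h - a) (B := h - a) ?_ ?_ (Or.inl ⟨rfl, rfl⟩)
    · rw [abs_sub_comm, abs_of_pos (by linarith)]
    · rw [min_eq_right (by linarith)]; ring
  · exact absurd hle (by linarith)
  · exact absurd hle (by linarith)
  · obtain ⟨hX, hY⟩ := trop_top_top' hh hβ hκ hne hprod hsum c1 c2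
    rw [muK_of_LE hh hX, muK_of_LE hh hY]
    refine TropPair.mk' (A := 0) (B := 0) (by simp) ?_ (Or.inl ⟨rfl, rfl⟩)
    rw [min_eq_right (by linarith)]; ring

theorem lemmaT_field' (hh : 0 < h) (hβ : v.EQ β 0) (hκ : v.EQ κ h)
    (hne : x₁ ≠ x₂)
    (hprod : X * Y * (x₁ - x₂) ^ 2 = (x₁ * x₂ - κ) ^ 2)
    (hsum : (X + Y) * (x₁ - x₂) ^ 2 = (x₁ + x₂) * (2 * x₁ * x₂ + 2 * κ) + β * x₁ * x₂) :
    TropPair h (muK v h x₁) (muK v h x₂) (muK v h X) (muK v h Y) := by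
  rcases le_total (muK v h x₁) (muK v h x₂) with hle | hle
  · exact lemmaT_field_aux' hh hβ hκ hne hprod hsum hle
  · refine (lemmaT_field_aux' hh hβ hκ hne.symm ?_ ?_ hle).comm
    · linear_combination hprod
    · linear_combination hsum

theorem lemmaT_dbl' (hh : 0 < h) (hβ : v.EQ β 0) (hκ : v.EQ κ h) {x : K}
    (hX : X * (x * (4 * x ^ 2 + β * x + 4 * κ)) = (x ^ 2 - κ) ^ 2) :
    muK v h X = min (muK v h x + muK v h x) (2 * h - muK v h x - muK v h x) := by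
  rcases muK_cases (v := v) hh x with ⟨c1, e1⟩ | ⟨a, c1, ha0, hah, e1⟩ | ⟨c1, e1⟩ <;> rw [e1]
  · rw [muK_of_LE hh (trop_dbl_zero' hh hβ hκ hX c1), min_eq_left (by linarith)]; ring
  · rcases lt_trichotomy (2 * a) h with habh | habh | habh
    · rw [muK_of_EQ (trop_dbl_mid_lt' hh hβ hκ hX c1 ha0 habh) (by linarith) (by linarith),
        min_eq_left (by linarith)]; ring
    · rw [muK_of_GE hh (trop_dbl_mid_eq' hh hβ hκ hX c1 habh), min_eq_left (by linarith)]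
      linarith
    · rw [muK_of_EQ (trop_dbl_mid_gt' hh hβ hκ hX c1 hah habh) (by linarith) (by linarith),
        min_eq_right (by linarith)]; ring
  · rw [muK_of_LE hh (trop_dbl_top' hh hβ hκ hX c1), min_eq_right (by linarith)]; ring

theorem lemmaT_two_torsion' (hh : 0 < h) (hβ : v.EQ β 0) (hκ : v.EQ κ h) {x : K}
    (hx : x * (4 * x ^ 2 + β * x + 4 * κ) = 0) :
    0 = min (muK v h x + muK v h x) (2 * h - muK v h x - muK v h x) := by
  rcases trop_two_torsion' hβ hκ hx with c | c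
  · rw [muK_of_LE hh c, min_eq_left (by linarith)]; ring
  · rw [muK_of_GE hh c, min_eq_right (by linarith)]; ring

/-! ### group level -/

variable {G : Type*} [AddCommGroup G] (D : KummerData K G)

lemma mu_dbl' (hh : 0 < h) (hβ : v.EQ D.β 0) (hκ : v.EQ D.κ h) (g : G) :
    mu D v h (g + g) = min (mu D v h g + mu D v h g) (2 * h - mu D v h g - mu D v h g) := by
  cases hx : D.ξ g with
  | none =>
    have hg : g = 0 := (D.ξ_eq_none g).mp hx
    subst hg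
    rw [add_zero, mu_zero, min_eq_left (by linarith)]; ring
  | some x =>
    rw [mu_some D hx]
    by_cases hη : D.η g = 0
    · rw [D.dbl_zero g hη, mu_zero]
      refine lemmaT_two_torsion' hh hβ hκ ?_
      rw [← D.η_sq g x hx, hη]; ring
    · obtain ⟨X, hX, hXe⟩ := D.dbl g x hx hη
      rw [mu_some D hX]
      exact lemmaT_dbl' hh hβ hκ hXe

theorem lemmaT' (hh : 0 < h) (hβ : v.EQ D.β 0) (hκ : v.EQ D.κ h) (g₁ g₂ : G) :
    TropPair h (mu D v h g₁) (mu D v h g₂) (mu D v h (g₁ + g₂)) (mu D v h (g₁ - g₂)) := by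
  cases hx₁ : D.ξ g₁ with
  | none =>
    have hg : g₁ = 0 := (D.ξ_eq_none g₁).mp hx₁
    subst hg
    rw [zero_add, zero_sub, mu_neg, mu_zero]
    have h0 := mu_nonneg D (v := v) hh g₂
    have h1 := mu_le D (v := v) hh g₂
    refine TropPair.mk' (A := mu D v h g₂) (B := mu D v h g₂) ?_ ?_ (Or.inl ⟨rfl, rfl⟩)
    · rw [zero_sub, abs_neg, abs_of_nonneg h0]
    · rw [min_eq_left (by linarith)]; ring
  | some x₁ =>
    cases hx₂ : D.ξ g₂ with
    | none =>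
      have hg : g₂ = 0 := (D.ξ_eq_none g₂).mp hx₂
      subst hg
      rw [add_zero, sub_zero, mu_zero]
      have h0 := mu_nonneg D (v := v) hh g₁
      have h1 := mu_le D (v := v) hh g₁
      refine TropPair.mk' (A := mu D v h g₁) (B := mu D v h g₁) ?_ ?_ (Or.inl ⟨rfl, rfl⟩)
      · rw [sub_zero, abs_of_nonneg h0]
      · rw [min_eq_left (by linarith)]; ring
    | some x₂ =>
      by_cases hne : x₁ = x₂
      · subst hne
        rcases D.eq_or_eq_neg g₁ g₂ (hx₁.trans hx₂.symm) with hg | hg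
        · subst hg
          rw [sub_self, mu_zero, mu_dbl' D hh hβ hκ]
          exact Or.inr ⟨rfl, by simp⟩
        · subst hg
          rw [neg_add_cancel, mu_zero, mu_neg, show -g₂ - g₂ = -(g₂ + g₂) by abel, mu_neg,
            mu_dbl' D hh hβ hκ]
          exact Or.inl ⟨by simp, rfl⟩
      · obtain ⟨X, Y, hX, hY, hprod, hsum⟩ := D.addsub g₁ g₂ x₁ x₂ hx₁ hx₂ hne
        rw [mu_some D hx₁, mu_some D hx₂, mu_some D hX, mu_some D hY]
        exact lemmaT_field' hh hβ hκ hne hprod hsum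

/-- torsion points outside the identity component have constrained valuation -/
theorem val_of_torsion' (hh : 0 < h) (hβ : v.EQ D.β 0) (hκ : v.EQ D.κ h)
    {g : G} {x : K} (hx : D.ξ g = some x) (hxpos : v.GT x 0) {n : ℕ} (hn : Odd n)
    (hg : n • g = 0) :
    x ≠ 0 ∧ v.w x < h ∧ ∃ j : ℤ, (n : ℝ) * v.w x = 2 * h * j := by
  set r := mu D v h g with hr
  have hr0 := mu_nonneg D (v := v) hh g
  have hrh := mu_le D (v := v) hh g
  obtain ⟨j, hj⟩ := sawtooth hh hr0 hrh (fun k => mu D v h (k • g)) (by simp [mu_zero])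
    (by simp) (fun k => by
      have := lemmaT' D (v := v) hh hβ hκ ((k + 1) • g) g
      rw [show (k + 1) • g + g = (k + 2) • g by
          rw [add_smul, add_smul, one_smul, two_smul]; abel,
        show (k + 1) • g - g = k • g by rw [add_smul, one_smul]; abel] at this
      exact this) (n := n) (by simp [hg, mu_zero])
  have hrne : r ≠ h := by
    intro hrh'
    rw [← hr, hrh'] at hj
    have h3 : (n : ℝ) = 2 * j := by
      have : h * ((n : ℝ) - 2 * j) = 0 := by linarith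
      rcases mul_eq_zero.mp this with h4 | h4
      · exact absurd h4 hh.ne'
      · linarith
    have h4 : (n : ℤ) = 2 * j := by exact_mod_cast h3
    obtain ⟨m, hm⟩ := hn
    rw [hm] at h4
    push_cast at h4
    omega
  rw [hr, mu_some D hx] at hrne
  rcases muK_cases (v := v) hh x with ⟨c1, e1⟩ | ⟨a, c1, ha0, hah, e1⟩ | ⟨c1, e1⟩
  · exact absurd c1 (fun c => hxpos.not_LE c le_rfl)
  · refine ⟨c1.1, by rw [c1.2]; exact hah, j, ?_⟩
    rw [← hr, hr, mu_some D hx, e1] at hj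
    rw [c1.2]; exact hj
  · exact absurd e1 hrne



end Fermat.Agent.S05
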