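import Fermat.Agent.S05.Defs

set_option autoImplicit false

namespace Fermat.Agent.S13.LocalAux1

open Fermat.Agent.S05

variable {K : Type*} [Field K] {v : RVal K}

/-- a root of a monic quadratic with integral coefficients is integral -/
lemma GE_of_monic_quadratic {t a c : K} (ha : v.GE a 0) (hc : v.GE c 0) (h : t ^ 2 + a * t = c) :
    v.GE t 0 := by
  by_contra hcon
  have ht0 : t ≠ 0 := fun h0 => hcon (Or.inl h0)
  have htlt : v.w t < 0 := by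
    by_contra h1
    exact hcon (Or.inr (not_lt.mp h1))
  have h1 : v.EQ (t ^ 2) (2 * v.w t) := (RVal.EQ_self ht0).sq
  have h2 : v.GT (a * t) (2 * v.w t) :=
    ((ha.mul ((RVal.EQ_self ht0).GE le_rfl))).GT (by linarith)
  have h3 := h1.add_GT h2
  rw [h] at h3
  have := hc.le_w h3.1
  rw [h3.2] at this
  linarith

lemma add_aux {β κ x₁ x₂ X Y : K} (hβ : v.GE β 0) (hκ : v.GE κ 0)
    (h₁0 : x₁ ≠ 0) (h₁ : v.w x₁ < 0) (h₂0 : x₂ ≠ 0) (h₂ : v.w x₂ < 0) (hne : x₁ ≠ x₂)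
    (hprod : X * Y * (x₁ - x₂) ^ 2 = (x₁ * x₂ - κ) ^ 2)
    (hsum : (X + Y) * (x₁ - x₂) ^ 2 = (x₁ + x₂) * (2 * x₁ * x₂ + 2 * κ) + β * x₁ * x₂) :
    X ≠ 0 ∧ v.w X < 0 := by
  set m₁ := v.w x₁ with hm₁
  set m₂ := v.w x₂ with hm₂
  have e₁ : v.EQ x₁ m₁ := RVal.EQ_self h₁0
  have e₂ : v.EQ x₂ m₂ := RVal.EQ_self h₂0
  have hδ0 : x₁ - x₂ ≠ 0 := sub_ne_zero.mpr hne
  set d := v.w (x₁ - x₂) with hd
  have eδ : v.EQ (x₁ - x₂) d := RVal.EQ_self hδ0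
  set m := min m₁ m₂ with hm
  have hmle₁ : m ≤ m₁ := min_le_left _ _
  have hmle₂ : m ≤ m₂ := min_le_right _ _
  have hmlt : m < 0 := lt_of_le_of_lt hmle₁ h₁
  have hmsum : m₁ + m₂ < m := by
    rcases min_choice m₁ m₂ with h | h <;> rw [← hm] at h <;> linarith
  have hdm : m ≤ d := ((e₁.GE hmle₁).sub (e₂.GE hmle₂)).le_w hδ0
  have e12 : v.EQ (x₁ * x₂) (m₁ + m₂) := e₁.mul e₂
  have eN : v.EQ ((x₁ * x₂ - κ) ^ 2) (2 * (m₁ + m₂)) :=
    (e12.sub_GT (hκ.GT (by linarith))).sq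
  rw [← hprod] at eN
  have hXY0 : X * Y ≠ 0 := left_ne_zero_of_mul eN.1
  have hX0 : X ≠ 0 := left_ne_zero_of_mul hXY0
  have hY0 : Y ≠ 0 := right_ne_zero_of_mul hXY0
  refine ⟨hX0, ?_⟩
  by_contra hXge
  push Not at hXge
  have hw : v.w X + v.w Y + 2 * d = 2 * (m₁ + m₂) := by
    have := eN.2
    rw [v.map_mul _ _ hXY0 (pow_ne_zero 2 hδ0), v.map_mul _ _ hX0 hY0, RVal.w_pow hδ0] at this
    push_cast at this
    linarith
  have hYlt : v.w Y < 0 := by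
    rcases min_choice m₁ m₂ with h | h <;> rw [← hm] at h <;> linarith
  have eS : v.EQ (Y + X) (v.w Y) := (RVal.EQ_self hY0).add_GT (Or.inr (by linarith))
  rw [add_comm] at eS
  have eL : v.EQ ((X + Y) * (x₁ - x₂) ^ 2) (v.w Y + 2 * d) := eS.mul eδ.sq
  have h2 : v.GE (2 : K) 0 := RVal.GE_ofNat 2
  have hR : v.GE ((x₁ + x₂) * (2 * x₁ * x₂ + 2 * κ) + β * x₁ * x₂) (m + (m₁ + m₂)) := by
    apply RVal.GE.add
    · apply RVal.GE.mul
      · exact (e₁.GE hmle₁).add (e₂.GE hmle₂)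
      · apply RVal.GE.add
        · rw [mul_assoc]
          exact (h2.mul (e12.GE le_rfl)).mono (by linarith)
        · exact (h2.mul hκ).mono (by linarith)
    · rw [mul_assoc]
      exact (hβ.mul (e12.GE le_rfl)).mono (by linarith)
  rw [← hsum] at hR
  have := hR.le_w eL.1
  rw [eL.2] at this
  linarith

lemma dbl_aux {β κ x X : K} (hβ : v.GE β 0) (hκ : v.GE κ 0) (h0 : x ≠ 0) (h : v.w x < 0)
    (hX : X * (x * (4 * x ^ 2 + β * x + 4 * κ)) = (x ^ 2 - κ) ^ 2) : X ≠ 0 ∧ v.w X < 0 := by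
  set m := v.w x with hm
  have e : v.EQ x m := RVal.EQ_self h0
  have eN : v.EQ ((x ^ 2 - κ) ^ 2) (2 * (2 * m)) := (e.sq.sub_GT (hκ.GT (by linarith))).sq
  rw [← hX] at eN
  have hX0 : X ≠ 0 := left_ne_zero_of_mul eN.1
  have hP0 : x * (4 * x ^ 2 + β * x + 4 * κ) ≠ 0 := right_ne_zero_of_mul eN.1
  refine ⟨hX0, ?_⟩
  have h4 : v.GE (4 : K) 0 := RVal.GE_ofNat 4
  have hP : v.GE (x * (4 * x ^ 2 + β * x + 4 * κ)) (m + 2 * m) := by
    apply RVal.GE.mul (e.GE le_rfl)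
    apply RVal.GE.add
    · apply RVal.GE.add
      · exact (h4.mul (e.sq.GE le_rfl)).mono (by linarith)
      · exact (hβ.mul (e.GE le_rfl)).mono (by linarith)
    · exact (h4.mul hκ).mono (by linarith)
  have h1 := hP.le_w hP0
  have h2 := eN.2
  rw [v.map_mul _ _ hX0 hP0] at h2
  linarith

end Fermat.Agent.S13.LocalAux1
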