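import Fermat.Agent.S13.Slope
import Fermat.Agent.S13.LemmaT2
import Fermat.Agent.S05.Abstract
import Fermat.Agent.S13.LocalAux1

set_option autoImplicit false

/-!
# S13/L : local lemmas (valuation theory of pairs of congruent points)

All proofs are short computations with the `RVal` calculus of `S05/Defs.lean`
(see `S05/Abstract.lean`, `S05/TropicalA.lean` for the style).
-/

namespace Fermat.Agent.S13

open Fermat.Agent.S05

variable {K : Type*} [Field K] {G : Type*} [AddCommGroup G]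

/-- the kernel of reduction: `g = 0` or `ξ g` is not integral -/
def InE1 (D : KummerData K G) (v : RVal K) (g : G) : Prop :=
  ∀ x, D.ξ g = some x → x ≠ 0 ∧ v.w x < 0

variable {D : KummerData K G} {v : RVal K}

/-! ## L1 : the kernel of reduction is a subgroup

`X Y (x₁-x₂)² = (x₁x₂-κ)²`, `(X+Y)(x₁-x₂)² = (x₁+x₂)(2x₁x₂+2κ)+βx₁x₂`.
Let `m₁ = w x₁ ≤ m₂ = w x₂ < 0`, `d = w (x₁ - x₂) ≥ m₁`.  Then `w (XY) = 2 m₁ + 2 m₂ - 2 d` and
`w (X+Y) ≥ 2 m₁ + m₂ - 2 d`.  If `w X ≥ 0` (or `X = 0`, impossible) then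
`w Y = w(XY) - w X ≤ 2 m₁ + 2 m₂ - 2d < 2 m₁ + m₂ - 2 d ≤ w (X + Y)`, and `w Y ≤ 2 m₂ < 0 ≤ w X` gives `w (X+Y) = w Y`:
contradiction.  Doubling: `X x (4x²+βx+4κ) = (x²-κ)²`: `w (rhs) = 4 m`, `w (x (..)) ≥ 3 m`, so `w X ≤ m`. -/

lemma InE1.zero : InE1 D v 0 := by
  intro x hx
  rw [(D.ξ_eq_none 0).mpr rfl] at hx
  cases hx

lemma InE1.neg {g : G} (h : InE1 D v g) : InE1 D v (-g) := by
  intro x hx
  rw [D.ξ_neg] at hx
  exact h x hx

theorem InE1.add (hβ : v.GE D.β 0) (hκ : v.GE D.κ 0) {g₁ g₂ : G} (h₁ : InE1 D v g₁)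
    (h₂ : InE1 D v g₂) : InE1 D v (g₁ + g₂) := by
  intro X hX
  rcases h1 : D.ξ g₁ with _ | x₁
  · rw [(D.ξ_eq_none g₁).mp h1, zero_add] at hX
    exact h₂ X hX
  rcases h2 : D.ξ g₂ with _ | x₂
  · rw [(D.ξ_eq_none g₂).mp h2, add_zero] at hX
    exact h₁ X hX
  obtain ⟨h₁0, h₁'⟩ := h₁ x₁ h1
  obtain ⟨h₂0, h₂'⟩ := h₂ x₂ h2
  by_cases hne : x₁ = x₂
  · subst hne
    rcases D.eq_or_eq_neg g₁ g₂ (h1.trans h2.symm) with h | h
    · subst h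
      by_cases hη : D.η g₁ = 0
      · rw [D.dbl_zero g₁ hη, (D.ξ_eq_none 0).mpr rfl] at hX
        cases hX
      · obtain ⟨X', hX', hd⟩ := D.dbl g₁ x₁ h1 hη
        rw [hX] at hX'
        cases hX'
        exact LocalAux1.dbl_aux hβ hκ h₁0 h₁' hd
    · rw [h, neg_add_cancel, (D.ξ_eq_none 0).mpr rfl] at hX
      cases hX
  · obtain ⟨X', Y, hX', -, hprod, hsum⟩ := D.addsub g₁ g₂ x₁ x₂ h1 h2 hne
    rw [hX] at hX'
    cases hX'
    exact LocalAux1.add_aux hβ hκ h₁0 h₁' h₂0 h₂' hne hprod hsum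

theorem InE1.sub (hβ : v.GE D.β 0) (hκ : v.GE D.κ 0) {g₁ g₂ : G} (h₁ : InE1 D v g₁)
    (h₂ : InE1 D v g₂) : InE1 D v (g₁ - g₂) := by
  rw [sub_eq_add_neg]
  exact h₁.add hβ hκ h₂.neg

theorem InE1.nsmul (hβ : v.GE D.β 0) (hκ : v.GE D.κ 0) {g : G} (h : InE1 D v g) (n : ℕ) :
    InE1 D v (n • g) := by
  induction n with
  | zero => rw [zero_smul]; exact InE1.zero
  | succ n ih => rw [succ_nsmul]; exact ih.add hβ hκ h

/-! ## L2 : integrality of the ordinate -/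

/-- if `w υ < 0` the left side of `υ² + α₁ x υ = x³ + α₂ x² + κ x` has valuation `2 w υ < 0`. -/
theorem υ_integral (S : SlopeData D) (hα₁ : v.GE S.α₁ 0) (hα₂ : v.GE S.α₂ 0) (hκ : v.GE D.κ 0)
    {g : G} {x : K} (hx : D.ξ g = some x) (hi : v.GE x 0) : v.GE (S.υ g) 0 := by
  refine LocalAux1.GE_of_monic_quadratic (a := S.α₁ * x) (c := x ^ 3 + S.α₂ * x ^ 2 + D.κ * x)
    ((hα₁.mul hi).mono (by linarith)) ?_ (S.υ_eq g x hx)
  refine RVal.GE.add (RVal.GE.add ((hi.pow 3).mono (by simp)) ?_) ((hκ.mul hi).mono (by linarith))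
  exact (hα₂.mul hi.sq).mono (by linarith)

/-- `w = υ / x` satisfies `w² + α₁ w = x + α₂ + κ / x`. -/
theorem w_integral (S : SlopeData D) (hα₁ : v.GE S.α₁ 0) (hα₂ : v.GE S.α₂ 0)
    {g : G} {x : K} (hx : D.ξ g = some x) (hx0 : x ≠ 0) (hi : v.GE x 0) (hκx : v.GE (D.κ / x) 0) :
    v.GE (S.υ g / x) 0 := by
  refine LocalAux1.GE_of_monic_quadratic (a := S.α₁) (c := x + S.α₂ + D.κ / x) hα₁
    ((hi.add hα₂).add hκx) ?_
  have h := S.υ_eq g x hx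
  field_simp
  linear_combination h

/-! ## L3 : two congruent points with nonsingular reduction differ by an element of `E₁`

Notation `δ = x₁ - x₂`, `N = υ₁ + υ₂ + α₁ x₂`.
* `x₁ ≠ x₂`, `w η₁ = 0`: `N = η₁ + (υ₂ - υ₁) + α₁ (x₂ - x₁)` is a unit,
  `Y δ² = N² + α₁ N δ - (α₂ + x₁ + x₂) δ²` has valuation `0`, so `w Y = - 2 w δ < 0`.
* `x₁ ≠ x₂`, `w η₁ > 0` (so `w (x₁² - κ) = 0`): `w (X Y δ²) = 0`, `w ((X+Y) δ²) > 0`
  (the right side is `≡ η₁²`); if `w Y ≥ 0` then `w X ≤ - 2 w δ`, `w (X + Y) = w X`: contradiction.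
* `x₁ = x₂`: `g₁ = g₂` (fine) or `g₁ = - g₂`; then `η₁ = υ₁ - υ₂` is small, `g₁ - g₂ = 2 g₁`,
  `ξ(2 g₁) η₁² = (x₁² - κ)²`. -/
theorem pair_nonsing (S : SlopeData D) (hα₁ : v.GE S.α₁ 0) (hα₂ : v.GE S.α₂ 0) (hκ : v.GE D.κ 0)
    {g₁ g₂ : G} {x₁ x₂ : K} (hx₁ : D.ξ g₁ = some x₁) (hx₂ : D.ξ g₂ = some x₂) (hi : v.GE x₁ 0)
    (hx : v.GT (x₁ - x₂) 0) (hυ : v.GT (S.υ g₁ - S.υ g₂) 0)
    (hns : v.EQ (x₁ ^ 2 - D.κ) 0 ∨ v.EQ (D.η g₁) 0) : InE1 D v (g₁ - g₂) := by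
  intro Y hY
  have hβ : v.GE D.β 0 := by
    rw [S.β_eq]
    have h1 : v.GE (S.α₁ ^ 2) 0 := by simpa using hα₁.sq
    have h2 : v.GE (4 * S.α₂) 0 := by simpa using (RVal.GE_ofNat (v := v) 4).mul hα₂
    exact h1.add h2
  have hx₂i : v.GE x₂ 0 := by
    have := hi.sub (hx.GE le_rfl)
    simpa using this
  have hυ₁ : v.GE (S.υ g₁) 0 := υ_integral S hα₁ hα₂ hκ hx₁ hi
  have hη₁ : D.η g₁ = 2 * S.υ g₁ + S.α₁ * x₁ := S.η_eq g₁ x₁ hx₁
  have hηi : v.GE (D.η g₁) 0 := by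
    rw [hη₁]
    have h1 : v.GE (2 * S.υ g₁) 0 := by simpa using (RVal.GE_ofNat (v := v) 2).mul hυ₁
    have h2 : v.GE (S.α₁ * x₁) 0 := by simpa using hα₁.mul hi
    exact h1.add h2
  by_cases hne : x₁ = x₂
  · subst hne
    rcases D.eq_or_eq_neg g₁ g₂ (hx₁.trans hx₂.symm) with h | h
    · subst h
      rw [sub_self, (D.ξ_eq_none 0).mpr rfl] at hY
      cases hY
    · have hg₂ : g₂ = -g₁ := by rw [h, neg_neg]
      have hυ₂ : S.υ g₂ = - S.υ g₁ - S.α₁ * x₁ := by rw [hg₂]; exact S.υ_neg g₁ x₁ hx₁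
      have hηGT : v.GT (D.η g₁) 0 := by
        have : D.η g₁ = S.υ g₁ - S.υ g₂ := by rw [hη₁, hυ₂]; ring
        rw [this]; exact hυ
      have hns' : v.EQ (x₁ ^ 2 - D.κ) 0 := by
        rcases hns with h | h
        · exact h
        · exact (hηGT.not_LE (h.LE le_rfl) le_rfl).elim
      have hsub : g₁ - g₂ = g₁ + g₁ := by rw [hg₂, sub_neg_eq_add]
      rw [hsub] at hY
      by_cases hη0 : D.η g₁ = 0
      · rw [D.dbl_zero g₁ hη0, (D.ξ_eq_none 0).mpr rfl] at hY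
        cases hY
      · obtain ⟨X, hX, hXeq⟩ := D.dbl g₁ x₁ hx₁ hη0
        have hXY : X = Y := by rw [hX] at hY; exact Option.some.inj hY
        subst hXY
        rw [← D.η_sq g₁ x₁ hx₁] at hXeq
        have h1 : v.EQ ((x₁ ^ 2 - D.κ) ^ 2) 0 := by simpa using hns'.sq
        have h2 : v.EQ (D.η g₁ ^ 2) (2 * v.w (D.η g₁)) := (RVal.EQ_self hη0).sq
        have h3 := RVal.EQ.of_mul_eq_left hXeq h2 h1
        refine ⟨h3.1, ?_⟩
        rw [h3.2]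
        have := hηGT.lt_w hη0
        linarith
  · have hδ0 : x₁ - x₂ ≠ 0 := sub_ne_zero.mpr hne
    have hd : 0 < v.w (x₁ - x₂) := hx.lt_w hδ0
    have hδ2 : v.EQ ((x₁ - x₂) ^ 2) (2 * v.w (x₁ - x₂)) := (RVal.EQ_self hδ0).sq
    by_cases hηu : v.EQ (D.η g₁) 0
    · -- unit ordinate
      have hN : v.EQ (S.υ g₁ + S.υ g₂ + S.α₁ * x₂) 0 := by
        have h1 : S.υ g₁ + S.υ g₂ + S.α₁ * x₂ =
            D.η g₁ - ((S.υ g₁ - S.υ g₂) + S.α₁ * (x₁ - x₂)) := by rw [hη₁]; ring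
        rw [h1]
        refine hηu.sub_GT (hυ.add ?_)
        simpa using hα₁.mul_GT hx
      have hYeq := S.sub g₁ g₂ x₁ x₂ Y hx₁ hx₂ hne hY
      have hR : v.EQ ((S.υ g₁ + S.υ g₂ + S.α₁ * x₂) ^ 2
          + S.α₁ * (S.υ g₁ + S.υ g₂ + S.α₁ * x₂) * (x₁ - x₂)
          - (S.α₂ + x₁ + x₂) * (x₁ - x₂) ^ 2) 0 := by
        have h1 : v.EQ ((S.υ g₁ + S.υ g₂ + S.α₁ * x₂) ^ 2) 0 := by simpa using hN.sq
        have h2 : v.GT (S.α₁ * (S.υ g₁ + S.υ g₂ + S.α₁ * x₂) * (x₁ - x₂)) 0 := by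
          simpa using (hα₁.mul (hN.GE le_rfl)).mul_GT hx
        have h3 : v.GT ((S.α₂ + x₁ + x₂) * (x₁ - x₂) ^ 2) 0 := by
          have h4 : v.GT ((x₁ - x₂) ^ 2) 0 := by simpa using hx.sq
          simpa using ((hα₂.add hi).add hx₂i).mul_GT h4
        exact (h1.add_GT h2).sub_GT h3
      have h3 := RVal.EQ.of_mul_eq_left hYeq hδ2 hR
      exact ⟨h3.1, by rw [h3.2]; linarith⟩
    · have hηGT : v.GT (D.η g₁) 0 := by
        rcases hηi with h | h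
        · exact Or.inl h
        · by_cases h0 : D.η g₁ = 0
          · exact Or.inl h0
          · exact Or.inr (lt_of_le_of_ne h fun h' => hηu ⟨h0, h'.symm⟩)
      have hns' : v.EQ (x₁ ^ 2 - D.κ) 0 := hns.resolve_right hηu
      obtain ⟨X, Y', hX, hY', hprod, hsum⟩ := D.addsub g₁ g₂ x₁ x₂ hx₁ hx₂ hne
      have hYY : Y' = Y := by rw [hY'] at hY; exact Option.some.inj hY
      subst hYY
      have h1 : v.EQ (x₁ * x₂ - D.κ) 0 := by
        have : x₁ * x₂ - D.κ = (x₁ ^ 2 - D.κ) - x₁ * (x₁ - x₂) := by ring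
        rw [this]
        refine hns'.sub_GT ?_
        simpa using hi.mul_GT hx
      have h2 : v.EQ ((x₁ * x₂ - D.κ) ^ 2) 0 := by simpa using h1.sq
      have hXY : v.EQ (X * Y') (0 - 2 * v.w (x₁ - x₂)) := RVal.EQ.of_mul_eq_left hprod hδ2 h2
      have hR : v.GT ((x₁ + x₂) * (2 * x₁ * x₂ + 2 * D.κ) + D.β * x₁ * x₂) 0 := by
        have h3 : (x₁ + x₂) * (2 * x₁ * x₂ + 2 * D.κ) + D.β * x₁ * x₂ =
            D.η g₁ ^ 2 + (x₁ - x₂) * (-6 * x₁ ^ 2 + 2 * x₁ * (x₁ - x₂) - 2 * D.κ - D.β * x₁) := by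
          rw [D.η_sq g₁ x₁ hx₁]; ring
        rw [h3]
        have h4 : v.GT (D.η g₁ ^ 2) 0 := by simpa using hηGT.sq
        have h5 : v.GE (-6 * x₁ ^ 2 + 2 * x₁ * (x₁ - x₂) - 2 * D.κ - D.β * x₁) 0 := by
          have a1 : v.GE (-6 * x₁ ^ 2) 0 := by
            have : v.GE (6 * x₁ ^ 2) 0 := by
              simpa using (RVal.GE_ofNat (v := v) 6).mul hi.sq
            simpa using this.neg
          have a2 : v.GE (2 * x₁ * (x₁ - x₂)) 0 := by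
            simpa using ((RVal.GE_ofNat (v := v) 2).mul hi).mul (hx.GE le_rfl)
          have a3 : v.GE (2 * D.κ) 0 := by simpa using (RVal.GE_ofNat (v := v) 2).mul hκ
          have a4 : v.GE (D.β * x₁) 0 := by simpa using hβ.mul hi
          exact ((a1.add a2).sub a3).sub a4
        refine h4.add ?_
        simpa using hx.mul_GE h5
      have hS : v.GT (X + Y') (0 - 2 * v.w (x₁ - x₂)) := RVal.GT.of_mul_eq_left hsum hδ2 hR
      have hX0 : X ≠ 0 := left_ne_zero_of_mul hXY.1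
      have hY0 : Y' ≠ 0 := right_ne_zero_of_mul hXY.1
      refine ⟨hY0, ?_⟩
      by_contra hcon
      push Not at hcon
      have hw := hXY.2
      rw [v.map_mul _ _ hX0 hY0] at hw
      have h6 : v.EQ (X + Y') (v.w X) :=
        (RVal.EQ_self (v := v) hX0).add_GT (Or.inr (by linarith))
      have h7 := hS.lt_w h6.1
      rw [h6.2] at h7
      linarith

/-! ## L4 : two points near the node, on the same branch, at the same distance: the difference is in `E₀`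

`w_i = υ_i / x_i`, `δ = x₁ - x₂`, `N = υ₁ + υ₂ + α₁ x₂`.
`(2 w₁ + α₁)² = β + 4 x₁ + 4 κ / x₁` is a unit.
`A₁ := N - w₁ δ = (w₁ + w₂ + α₁) x₂`, `A₂ := N + (w₁ + α₁) δ = (2 w₁ + α₁) x₁ + (w₂ - w₁) x₂` have valuation `r`,
`A₁ A₂ = N² + α₁ N δ - (x₁ + α₂ + κ / x₁) δ²`, so `Y δ² = A₁ A₂ + (κ / x₁ - x₂) δ²` has valuation `2 r`
and `w Y = 2 r - 2 w δ ≤ 0`.
If `x₁ = x₂`: `g₁ = g₂` (nothing to prove) or `g₁ = - g₂`, then `w₁ - w₂ = 2 w₁ + α₁` is a unit: contradiction. -/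
theorem pair_branch (S : SlopeData D) {h r : ℝ} (hα₁ : v.GE S.α₁ 0) (hα₂ : v.GE S.α₂ 0)
    (hβ : v.EQ D.β 0) (hκ : v.EQ D.κ h)
    {g₁ g₂ : G} {x₁ x₂ : K} (hx₁ : D.ξ g₁ = some x₁) (hx₂ : D.ξ g₂ = some x₂)
    (hr : 0 < r) (hrh : r < h) (h₁ : v.EQ x₁ r) (h₂ : v.EQ x₂ r)
    (hw : v.GT (S.υ g₁ / x₁ - S.υ g₂ / x₂) 0) :
    ∀ Y, D.ξ (g₁ - g₂) = some Y → v.LE Y 0 := by
  intro Y hY
  have hx₁0 : x₁ ≠ 0 := h₁.1
  have hx₂0 : x₂ ≠ 0 := h₂.1
  obtain ⟨w₁, hw₁⟩ : ∃ w₁ : K, w₁ = S.υ g₁ / x₁ := ⟨_, rfl⟩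
  obtain ⟨w₂, hw₂⟩ : ∃ w₂ : K, w₂ = S.υ g₂ / x₂ := ⟨_, rfl⟩
  rw [← hw₁, ← hw₂] at hw
  have hυ₁ : S.υ g₁ = w₁ * x₁ := by rw [hw₁]; field_simp
  have hυ₂ : S.υ g₂ = w₂ * x₂ := by rw [hw₂]; field_simp
  have hκx₁ : v.EQ (D.κ / x₁) (h - r) := hκ.div h₁
  have hrel₁ : w₁ ^ 2 + S.α₁ * w₁ = x₁ + S.α₂ + D.κ / x₁ := by
    have := S.υ_eq g₁ x₁ hx₁
    rw [hυ₁] at this
    have hk : D.κ = D.κ / x₁ * x₁ := by field_simp
    have h3 : x₁ ^ 2 * (w₁ ^ 2 + S.α₁ * w₁) = x₁ ^ 2 * (x₁ + S.α₂ + D.κ / x₁) := by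
      linear_combination this + x₁ * hk
    exact mul_left_cancel₀ (pow_ne_zero 2 hx₁0) h3
  have hunit2 : v.EQ ((2 * w₁ + S.α₁) ^ 2) 0 := by
    have h3 : (2 * w₁ + S.α₁) ^ 2 = D.β + (4 * x₁ + 4 * (D.κ / x₁)) := by
      rw [S.β_eq]; linear_combination 4 * hrel₁
    rw [h3]
    refine hβ.add_GT (RVal.GT.add ?_ ?_)
    · simpa using (RVal.GE_ofNat (v := v) 4).mul_GT (h₁.GT hr)
    · simpa using (RVal.GE_ofNat (v := v) 4).mul_GT (hκx₁.GT (by linarith))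
  have hunit : v.EQ (2 * w₁ + S.α₁) 0 := by
    have h0 : 2 * w₁ + S.α₁ ≠ 0 := by
      intro h0
      rw [h0] at hunit2
      exact hunit2.1 (by simp)
    refine ⟨h0, ?_⟩
    have := hunit2.2
    rw [RVal.w_pow h0] at this
    push_cast at this
    linarith
  by_cases hne : x₁ = x₂
  · subst hne
    rcases D.eq_or_eq_neg g₁ g₂ (hx₁.trans hx₂.symm) with hg | hg
    · subst hg
      rw [sub_self, (D.ξ_eq_none 0).mpr rfl] at hY
      cases hY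
    · exfalso
      have hg₂ : g₂ = -g₁ := by rw [hg, neg_neg]
      have hυ₂' : S.υ g₂ = - S.υ g₁ - S.α₁ * x₁ := by rw [hg₂]; exact S.υ_neg g₁ x₁ hx₁
      have h3 : w₁ - w₂ = 2 * w₁ + S.α₁ := by
        rw [hw₂, hυ₂', hυ₁]
        field_simp
        ring
      rw [h3] at hw
      exact hw.not_LE (hunit.LE le_rfl) le_rfl
  · have hδ0 : x₁ - x₂ ≠ 0 := sub_ne_zero.mpr hne
    have hδr : v.GE (x₁ - x₂) r := (h₁.GE le_rfl).sub (h₂.GE le_rfl)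
    have hd : r ≤ v.w (x₁ - x₂) := hδr.le_w hδ0
    have hδ2 : v.EQ ((x₁ - x₂) ^ 2) (2 * v.w (x₁ - x₂)) := (RVal.EQ_self hδ0).sq
    have hYeq := S.sub g₁ g₂ x₁ x₂ Y hx₁ hx₂ hne hY
    have hA₁ : v.EQ ((w₁ + w₂ + S.α₁) * x₂) r := by
      have h3 : w₁ + w₂ + S.α₁ = (2 * w₁ + S.α₁) - (w₁ - w₂) := by ring
      have h4 : v.EQ (w₁ + w₂ + S.α₁) 0 := by rw [h3]; exact hunit.sub_GT hw
      simpa using h4.mul h₂
    have hA₂ : v.EQ ((2 * w₁ + S.α₁) * x₁ - (w₁ - w₂) * x₂) r := by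
      have h3 : v.EQ ((2 * w₁ + S.α₁) * x₁) r := by simpa using hunit.mul h₁
      refine h3.sub_GT ?_
      simpa using hw.mul_GE (h₂.GE le_rfl)
    have hR : Y * (x₁ - x₂) ^ 2 = ((w₁ + w₂ + S.α₁) * x₂) *
        ((2 * w₁ + S.α₁) * x₁ - (w₁ - w₂) * x₂) + (D.κ / x₁ - x₂) * (x₁ - x₂) ^ 2 := by
      rw [hYeq, hυ₁, hυ₂]
      linear_combination ((x₁ - x₂) ^ 2) * hrel₁
    have hRv : v.EQ (Y * (x₁ - x₂) ^ 2) (2 * r) := by
      rw [hR]
      have h3 : v.EQ (((w₁ + w₂ + S.α₁) * x₂) *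
        ((2 * w₁ + S.α₁) * x₁ - (w₁ - w₂) * x₂)) (2 * r) := (hA₁.mul hA₂).of_eq (by ring)
      refine h3.add_GT ?_
      have h4 : v.GT (D.κ / x₁ - x₂) 0 := (hκx₁.GT (by linarith)).sub (h₂.GT hr)
      have h5 : v.GE ((x₁ - x₂) ^ 2) (2 * r) := hδr.sq
      simpa using h4.mul_GE h5
    have h3 := RVal.EQ.of_mul_eq_left rfl hδ2 hRv
    exact ⟨h3.1, by rw [h3.2]; linarith⟩

/-! ## L5 : consequences for "inertia" -/

/-- `(σ, τ)` behaves like an element of the inertia group. -/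
structure Inert (D : KummerData K G) (S : SlopeData D) (v : RVal K) (σ : K →+* K) (τ : G →+ G) :
    Prop where
  hξ : ∀ g, D.ξ (τ g) = (D.ξ g).map σ
  hυ : ∀ g, S.υ (τ g) = σ (S.υ g)
  hw : ∀ x, v.w (σ x) = v.w x
  hs : ∀ x, v.GE x 0 → v.GT (σ x - x) 0

variable {S : SlopeData D} {σ : K →+* K} {τ : G →+ G}

namespace Inert

lemma ξ_some (I : Inert D S v σ τ) {g : G} {x : K} (hx : D.ξ g = some x) :
    D.ξ (τ g) = some (σ x) := by rw [I.hξ, hx]; rfl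

lemma σ_ne_zero {x : K} (hx : x ≠ 0) : σ x ≠ 0 := fun h => hx ((map_eq_zero σ).mp h)

lemma GE_σ (I : Inert D S v σ τ) {x : K} {a : ℝ} (h : v.GE x a) : v.GE (σ x) a := by
  rcases h with h | h
  · exact Or.inl (by rw [h, map_zero])
  · exact Or.inr (by rwa [I.hw])

lemma EQ_σ (I : Inert D S v σ τ) {x : K} {a : ℝ} (h : v.EQ x a) : v.EQ (σ x) a :=
  ⟨σ_ne_zero h.1, by rw [I.hw, h.2]⟩

lemma inE1 (I : Inert D S v σ τ) {g : G} (h : InE1 D v g) : InE1 D v (τ g) := by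
  intro y hy
  rcases hx : D.ξ g with _ | x
  · rw [I.hξ, hx] at hy
    cases hy
  · rw [I.ξ_some hx] at hy
    cases hy
    obtain ⟨h0, h1⟩ := h x hx
    exact ⟨σ_ne_zero h0, by rwa [I.hw]⟩

end Inert

lemma GE_β (S : SlopeData D) (hα₁ : v.GE S.α₁ 0) (hα₂ : v.GE S.α₂ 0) : v.GE D.β 0 := by
  rw [S.β_eq]
  exact (hα₁.sq.mono (by linarith)).add (((RVal.GE_ofNat 4).mul hα₂).mono (by linarith))

lemma inE1_of_lt {g : G} {x : K} (hx : D.ξ g = some x) (h0 : x ≠ 0) (h : v.w x < 0) :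
    InE1 D v g := by
  intro y hy
  rw [hx] at hy
  cases hy
  exact ⟨h0, h⟩

/-- the common part: an integral point with nonsingular reduction -/
lemma sub_mem_E1_of_nonsing (I : Inert D S v σ τ) (hα₁ : v.GE S.α₁ 0) (hα₂ : v.GE S.α₂ 0)
    (hκ : v.GE D.κ 0) {g : G} {x : K} (hx : D.ξ g = some x) (hi : v.GE x 0)
    (hns : v.EQ (x ^ 2 - D.κ) 0 ∨ v.EQ (D.η g) 0) : InE1 D v (τ g - g) := by
  have hυi := υ_integral S hα₁ hα₂ hκ hx hi
  have hδ := I.hs x hi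
  have hυδ : v.GT (S.υ (τ g) - S.υ g) 0 := by
    rw [I.hυ]
    exact I.hs _ hυi
  refine pair_nonsing S hα₁ hα₂ hκ (I.ξ_some hx) hx (I.GE_σ hi) hδ hυδ ?_
  rcases hns with h | h
  · left
    have : σ x ^ 2 - D.κ = (x ^ 2 - D.κ) + (σ x - x) * (σ x + x) := by ring
    rw [this]
    exact h.add_GT ((hδ.mul_GE ((I.GE_σ hi).add hi)).mono (by linarith))
  · right
    have e1 := S.η_eq g x hx
    have e2 := S.η_eq (τ g) (σ x) (I.ξ_some hx)
    have : D.η (τ g) = D.η g + (2 * (S.υ (τ g) - S.υ g) + S.α₁ * (σ x - x)) := by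
      rw [e1, e2]; ring
    rw [this]
    refine h.add_GT (RVal.GT.add ?_ ?_)
    · exact ((RVal.GE_ofNat 2).mul_GT hυδ).mono (by linarith)
    · exact (hα₁.mul_GT hδ).mono (by linarith)

/-- good reduction: `τ g - g ∈ E₁` for every point `g`.
(`ξ g` not integral: `g, τ g ∈ E₁`.  Otherwise `pair_nonsing`; the alternative `hns` is proved as in
`S05.fixed_of_torsion`, "good reduction".) -/
theorem sub_mem_E1_of_good (I : Inert D S v σ τ) (hα₁ : v.GE S.α₁ 0) (hα₂ : v.GE S.α₂ 0)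
    (hκ : v.EQ D.κ 0) (hdisc : v.EQ (D.β ^ 2 - 64 * D.κ) 0) (g : G) : InE1 D v (τ g - g) := by
  have hβ := GE_β S hα₁ hα₂
  have hκ' : v.GE D.κ 0 := hκ.GE le_rfl
  rcases hx : D.ξ g with _ | x
  · rw [(D.ξ_eq_none g).mp hx, map_zero, sub_zero]
    exact InE1.zero
  rcases RVal.GE_or_LE (v := v) x 0 with hpos | hle
  swap
  · rcases lt_or_eq_of_le hle.2 with hlt | heq
    · have h1 := inE1_of_lt hx hle.1 hlt
      exact (I.inE1 h1).sub hβ hκ' h1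
    · -- unit abscissa
      have hx0 : v.EQ x 0 := ⟨hle.1, heq⟩
      refine sub_mem_E1_of_nonsing I hα₁ hα₂ hκ' hx (hx0.GE le_rfl) ?_
      by_contra hcon
      push Not at hcon
      obtain ⟨hc1, hc2⟩ := hcon
      have hi : v.GE x 0 := hx0.GE le_rfl
      have g1 : v.GT (x ^ 2 - D.κ) 0 := by
        rcases RVal.GE_or_LE (v := v) (x ^ 2 - D.κ) 0 with h | h
        · exact h
        · exfalso
          apply hc1
          refine ⟨h.1, le_antisymm h.2 ?_⟩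
          exact ((hi.sq.mono (by linarith)).sub hκ').le_w h.1
      have hηsq := D.η_sq g x hx
      have hf : v.GE (x * (4 * x ^ 2 + D.β * x + 4 * D.κ)) 0 := by
        refine (hi.mul (a := 0) (b := 0) ?_).mono (by linarith)
        exact ((((RVal.GE_ofNat 4).mul hi.sq).mono (by linarith)).add
          ((hβ.mul hi).mono (by linarith))).add (((RVal.GE_ofNat 4).mul hκ').mono (by linarith))
      have g2 : v.GT (D.η g) 0 := by
        rcases RVal.GE_or_LE (v := v) (D.η g) 0 with h | h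
        · exact h
        · exfalso
          apply hc2
          refine ⟨h.1, le_antisymm h.2 ?_⟩
          have : v.GE (D.η g ^ 2) (2 * 0) := by rw [hηsq]; simpa using hf
          exact (RVal.GE_of_sq this).le_w h.1
      have g3 : v.GT (x * (4 * x ^ 2 + D.β * x + 4 * D.κ)) 0 := by
        rw [← hηsq]
        exact g2.sq.mono (by linarith)
      have g4 : v.GT (4 * x ^ 2 + D.β * x + 4 * D.κ) 0 := by
        have := RVal.GT.of_mul_eq_left (v := v) (x := 4 * x ^ 2 + D.β * x + 4 * D.κ) (y := x)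
          (z := x * (4 * x ^ 2 + D.β * x + 4 * D.κ)) (a := 0) (b := 0) (by ring) hx0 g3
        simpa using this
      -- β x ≡ - 8 κ
      have g5 : v.GT (D.β * x + 8 * D.κ) 0 := by
        have : D.β * x + 8 * D.κ = (4 * x ^ 2 + D.β * x + 4 * D.κ) - 4 * (x ^ 2 - D.κ) := by ring
        rw [this]
        exact g4.sub (((RVal.GE_ofNat 4).mul_GT g1).mono (by linarith))
      have g6 : v.GT ((D.β ^ 2 - 64 * D.κ) * D.κ) 0 := by
        have : (D.β ^ 2 - 64 * D.κ) * D.κ =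
            (D.β * x + 8 * D.κ) * (D.β * x - 8 * D.κ) - D.β ^ 2 * (x ^ 2 - D.κ) := by ring
        rw [this]
        refine RVal.GT.sub ?_ ?_
        · refine (g5.mul_GE (b := 0) ?_).mono (by linarith)
          exact ((hβ.mul hi).mono (by linarith)).sub
            (((RVal.GE_ofNat 8).mul hκ').mono (by linarith))
        · exact (hβ.sq.mul_GT g1).mono (by linarith)
      exact (hdisc.mul hκ).not_GT g6 (by linarith)
  · -- `w x > 0` : `x² - κ` is a unit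
    refine sub_mem_E1_of_nonsing I hα₁ hα₂ hκ' hx (hpos.GE le_rfl) (Or.inl ?_)
    exact hκ.GT_sub (hpos.sq.mono (by linarith))

/-- multiplicative reduction: `τ g - g ∈ E₀` for odd torsion points `g`
(`val_of_torsion'` gives `0 < w x < h` if `w x > 0`, then `pair_branch`; if `w x = 0` use `pair_nonsing`;
if `w x < 0` use `InE1.sub`). -/
theorem sub_mem_E0_of_mult (I : Inert D S v σ τ) {h : ℝ} (hh : 0 < h) (hα₁ : v.GE S.α₁ 0)
    (hα₂ : v.GE S.α₂ 0) (hβ : v.EQ D.β 0) (hκ : v.EQ D.κ h) {p : ℕ} (hp : Odd p) {g : G}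
    (hg : p • g = 0) : ∀ Y, D.ξ (τ g - g) = some Y → v.LE Y 0 := by
  have hβ' := hβ.GE le_rfl
  have hκ' : v.GE D.κ 0 := hκ.GE hh.le
  have ofE1 : InE1 D v (τ g - g) → ∀ Y, D.ξ (τ g - g) = some Y → v.LE Y 0 := by
    intro h Y hY
    obtain ⟨h0, h1⟩ := h Y hY
    exact ⟨h0, h1.le⟩
  rcases hx : D.ξ g with _ | x
  · rw [(D.ξ_eq_none g).mp hx, map_zero, sub_zero]
    intro Y hY
    rw [(D.ξ_eq_none 0).mpr rfl] at hY
    cases hY
  rcases RVal.GE_or_LE (v := v) x 0 with hpos | hle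
  · obtain ⟨hx0, hxh, -⟩ := val_of_torsion' D hh hβ hκ hx hpos hp hg
    have hr : 0 < v.w x := hpos.lt_w hx0
    have ex : v.EQ x (v.w x) := RVal.EQ_self hx0
    have hi : v.GE x 0 := hpos.GE le_rfl
    have hκx : v.GE (D.κ / x) 0 := (hκ.div ex).GE (by linarith)
    have hwi := w_integral S hα₁ hα₂ hx hx0 hi hκx
    refine pair_branch S hα₁ hα₂ hβ hκ (I.ξ_some hx) hx hr hxh (I.EQ_σ ex) ex ?_
    have := I.hs _ hwi
    rwa [map_div₀, ← I.hυ] at this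
  · rcases lt_or_eq_of_le hle.2 with hlt | heq
    · have h1 := inE1_of_lt hx hle.1 hlt
      exact ofE1 ((I.inE1 h1).sub hβ' hκ' h1)
    · have hx0 : v.EQ x 0 := ⟨hle.1, heq⟩
      refine ofE1 (sub_mem_E1_of_nonsing I hα₁ hα₂ hκ' hx (hx0.GE le_rfl) (Or.inl ?_))
      exact (hx0.sq.of_eq (by ring)).sub_GT (hκ.GT hh)

/-- multiplicative reduction: `τ g - g ∈ E₁` for `g ∈ E₀`. -/
theorem sub_mem_E1_of_mult_E0 (I : Inert D S v σ τ) {h : ℝ} (hh : 0 < h) (hα₁ : v.GE S.α₁ 0)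
    (hα₂ : v.GE S.α₂ 0) (hβ : v.EQ D.β 0) (hκ : v.EQ D.κ h) {g : G}
    (hg : ∀ Y, D.ξ g = some Y → v.LE Y 0) : InE1 D v (τ g - g) := by
  have hβ' := hβ.GE le_rfl
  have hκ' : v.GE D.κ 0 := hκ.GE hh.le
  rcases hx : D.ξ g with _ | x
  · rw [(D.ξ_eq_none g).mp hx, map_zero, sub_zero]
    exact InE1.zero
  have hle := hg x hx
  rcases lt_or_eq_of_le hle.2 with hlt | heq
  · have h1 := inE1_of_lt hx hle.1 hlt
    exact (I.inE1 h1).sub hβ' hκ' h1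
  · have hx0 : v.EQ x 0 := ⟨hle.1, heq⟩
    refine sub_mem_E1_of_nonsing I hα₁ hα₂ hκ' hx (hx0.GE le_rfl) (Or.inl ?_)
    exact (hx0.sq.of_eq (by ring)).sub_GT (hκ.GT hh)

/-- multiplicative reduction, residue characteristic prime to `p` (used at the prime 2):
inertia acts unipotently on the `p`-torsion (`sub_mem_E0_of_mult`, `sub_mem_E1_of_mult_E0`, `no_torsion`). -/
theorem unipotent_of_mult (I : Inert D S v σ τ) {h : ℝ} (hh : 0 < h) (hα₁ : v.GE S.α₁ 0)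
    (hα₂ : v.GE S.α₂ 0) (hβ : v.EQ D.β 0) (hκ : v.EQ D.κ h) {p : ℕ} (hp : Odd p)
    (hpv : v.EQ (p : K) 0) {g : G} (hg : p • g = 0) : τ (τ g - g) = τ g - g := by
  have hβ' := hβ.GE le_rfl
  have hκ' : v.GE D.κ 0 := hκ.GE hh.le
  have h0 := sub_mem_E0_of_mult I hh hα₁ hα₂ hβ hκ hp hg
  have h1 := sub_mem_E1_of_mult_E0 I hh hα₁ hα₂ hβ hκ h0
  have hτg : p • τ g = 0 := by rw [← map_nsmul, hg, map_zero]
  have hu : p • (τ g - g) = 0 := by rw [smul_sub, hτg, hg, sub_zero]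
  have hτu : p • τ (τ g - g) = 0 := by rw [← map_nsmul, hu, map_zero]
  have hz : p • (τ (τ g - g) - (τ g - g)) = 0 := by rw [smul_sub, hτu, hu, sub_zero]
  rcases hx : D.ξ (τ (τ g - g) - (τ g - g)) with _ | x
  · exact sub_eq_zero.mp ((D.ξ_eq_none _).mp hx)
  · obtain ⟨hx0, hlt⟩ := h1 x hx
    exact absurd hz (no_torsion D v hβ' hκ' hx hx0 hlt hpv)

/-- multiplicative reduction in residue characteristic `p`
(`sub_mem_E0_of_mult`; `hM3` is `no_unit_torsion` of `S13/Nodal.lean`). -/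
theorem sub_mem_E1_of_mult (I : Inert D S v σ τ) {h : ℝ} (hh : 0 < h) (hα₁ : v.GE S.α₁ 0)
    (hα₂ : v.GE S.α₂ 0) (hβ : v.EQ D.β 0) (hκ : v.EQ D.κ h)
    {p : ℕ} (hp2 : Odd p) (hM3 : ∀ g x, D.ξ g = some x → v.EQ x 0 → p • g ≠ 0)
    {g : G} (hg : p • g = 0) : InE1 D v (τ g - g) := by
  have h0 := sub_mem_E0_of_mult I hh hα₁ hα₂ hβ hκ hp2 hg
  have hτg : p • τ g = 0 := by rw [← map_nsmul, hg, map_zero]
  have hu : p • (τ g - g) = 0 := by rw [smul_sub, hτg, hg, sub_zero]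
  intro Y hY
  have hle := h0 Y hY
  refine ⟨hle.1, lt_of_le_of_ne hle.2 fun heq => ?_⟩
  exact hM3 _ Y hY ⟨hle.1, heq⟩ hu

end Fermat.Agent.S13
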