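import Fermat.Agent.Lib.DivPoly
import Fermat.Agent.S05.Kummer

set_option autoImplicit false

/-!
# S13/N : the nodal cubic has no `p`-torsion in characteristic `p`

`pq_nodal_ne_zero`: the curve with node at `x = e` and `b₂ + 12 e = β` has
`b₂ = β - 12 e`, `b₄ = 6 e² - β e`, `b₆ = β e² - 4 e³`, `b₈ = 3 e⁴ - β e³`.
WLOG `k` algebraically closed (`map_pq_snd` along `k → AlgebraicClosure k`).
Pick `u` with `(x - e) (1-u)² = β u`; then `u ≠ 0, 1`.  By `pq_induction`, for all `n` there is `F ≠ 0` with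
`(pq .. x n).1 = F (e (1 - uⁿ)² + β uⁿ)`, `(pq .. x n).2 = F (1 - uⁿ)²`
 (for `e = 0`: `F₀ = 1/β`, `F₁ = 1/(1-u)²`, `F_{2b} = F_b⁴ β³ u^{2b}`,
  `F_{2b+1} = F_{b+1}² F_b² β² u^{2b} (u-1)²`; the same `F` should work for all `e`).
In characteristic `p`: `1 - u^p = (1-u)^p ≠ 0`.

`no_unit_torsion`: `O = {x | v.GE x 0}` is a subring of `K`, `m = {x | v.GT x 0}` a prime ideal of it containing
`p` and `2 κ = b₄ + b₂ e + 6 e²`; map `O → O/m → FractionRing (O/m)`, use `map_pq_snd` twice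
(for `O → K` and for `O → k`), `DivPoly.nsmul_eq_zero_iff`, `DivPoly.eval_den`; `b₆` is given by `he`, `b₈` by
`WeierstrassCurve.b_relation` (`4` is invertible in `k` because `p` is odd).
-/

namespace Fermat.Agent.S13

open Fermat.Agent.S05 Fermat.Agent.DivPoly

namespace Nodal

/-- explicit form of `pq` on the nodal cubic, in terms of the multiplicative parameter `u` -/
theorem pq_nodal {k : Type*} [Field k] {β e x u : k} (hβ : β ≠ 0) (hu0 : u ≠ 0) (hu1 : u ≠ 1)
    (hx : (x - e) * (1 - u) ^ 2 = β * u) (n : ℕ) :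
    ∃ F : k, F ≠ 0 ∧
      (pq (β - 12 * e) (6 * e ^ 2 - β * e) (β * e ^ 2 - 4 * e ^ 3) (3 * e ^ 4 - β * e ^ 3) x n).1
        = F * (e * (1 - u ^ n) ^ 2 + β * u ^ n) ∧
      (pq (β - 12 * e) (6 * e ^ 2 - β * e) (β * e ^ 2 - 4 * e ^ 3) (3 * e ^ 4 - β * e ^ 3) x n).2
        = F * (1 - u ^ n) ^ 2 := by
  have h1u : (1 - u) ≠ 0 := sub_ne_zero.mpr (Ne.symm hu1)
  induction n using pq_induction with
  | h0 =>
    refine ⟨β⁻¹, inv_ne_zero hβ, ?_, ?_⟩
    · simp [hβ]
    · simp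
  | h1 =>
    refine ⟨((1 - u) ^ 2)⁻¹, inv_ne_zero (pow_ne_zero _ h1u), ?_, ?_⟩
    · simp only [pq_one, pow_one]
      field_simp
      linear_combination hx
    · simp only [pq_one, pow_one]
      field_simp
  | heven b _ ih =>
    obtain ⟨F, hF, e1, e2⟩ := ih
    refine ⟨F ^ 4 * β ^ 3 * (u ^ b) ^ 2, by positivity, ?_, ?_⟩
    · rw [pq_even, e1, e2, mul_comm 2 b, pow_mul]
      simp only [dupN]
      ring
    · rw [pq_even, e1, e2, mul_comm 2 b, pow_mul]
      simp only [dupD]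
      ring
  | hodd b _ ih ih' =>
    obtain ⟨F₂, hF₂, e1, e2⟩ := ih
    obtain ⟨F₁, hF₁, e3, e4⟩ := ih'
    have hw1 : u ^ (b + 1) = u ^ b * u := pow_succ _ _
    have hw2 : u ^ (2 * b + 1) = (u ^ b) ^ 2 * u := by ring
    refine ⟨F₁ ^ 2 * F₂ ^ 2 * β ^ 2 * (u ^ b) ^ 2 * (1 - u) ^ 2, by positivity, ?_, ?_⟩
    · rw [pq_odd, e1, e2, e3, e4, hw1, hw2]
      simp only [sumN, hlf]
      generalize u ^ b = w
      linear_combination (-(F₁ ^ 2 * F₂ ^ 2 * β ^ 2 * w ^ 2 * (1 - w ^ 2 * u) ^ 2)) * hx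
    · rw [pq_odd, e1, e2, e3, e4, hw1, hw2]
      simp only [hlf]
      ring

end Nodal

theorem pq_nodal_ne_zero {k : Type*} [Field k] {p : ℕ} (hp : p.Prime) (hpk : (p : k) = 0)
    {β e x : k} (hβ : β ≠ 0) (hx : x ≠ e) :
    (pq (β - 12 * e) (6 * e ^ 2 - β * e) (β * e ^ 2 - 4 * e ^ 3) (3 * e ^ 4 - β * e ^ 3) x p).2
      ≠ 0 := by
  set L := AlgebraicClosure k
  set f : k →+* L := algebraMap k L
  have hinj : Function.Injective f := f.injective
  intro h0
  have h1 := map_pq_snd (β - 12 * e) (6 * e ^ 2 - β * e) (β * e ^ 2 - 4 * e ^ 3)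
    (3 * e ^ 4 - β * e ^ 3) x f p
  rw [h0, map_zero] at h1
  simp only [map_sub, map_mul, map_pow, map_ofNat] at h1
  have hβ' : f β ≠ 0 := (map_ne_zero f).mpr hβ
  have hx' : f x - f e ≠ 0 := sub_ne_zero.mpr (fun h => hx (hinj h))
  -- the parameter `u`
  obtain ⟨u, hu⟩ := IsAlgClosed.exists_root
    (Polynomial.C (f x - f e) * (1 - Polynomial.X) ^ 2 - Polynomial.C (f β) * Polynomial.X : Polynomial L)
    (by
      have : (Polynomial.C (f x - f e) * (1 - Polynomial.X) ^ 2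
          - Polynomial.C (f β) * Polynomial.X : Polynomial L)
          = Polynomial.C (f x - f e) * Polynomial.X ^ 2
            + Polynomial.C (-(2 * (f x - f e) + f β)) * Polynomial.X
            + Polynomial.C (f x - f e) := by
        simp only [map_neg, map_add, map_mul, map_sub, Polynomial.C_ofNat]
        ring
      rw [this, Polynomial.degree_quadratic hx']
      norm_num)
  simp only [Polynomial.IsRoot, Polynomial.eval_sub, Polynomial.eval_mul, Polynomial.eval_C,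
    Polynomial.eval_pow, Polynomial.eval_one, Polynomial.eval_X] at hu
  have hu' : (f x - f e) * (1 - u) ^ 2 = f β * u := by linear_combination hu
  have hu0 : u ≠ 0 := by
    rintro rfl
    apply hx'
    simpa using hu'
  have hu1 : u ≠ 1 := by
    rintro rfl
    apply hβ'
    simpa using hu'.symm
  obtain ⟨F, hF, -, e2⟩ := Nodal.pq_nodal hβ' hu0 hu1 hu' p
  rw [e2] at h1
  have hpL : (p : L) = 0 := by
    have := congrArg f hpk
    simpa using this
  have : Fact p.Prime := ⟨hp⟩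
  have : CharP L p := ringChar.of_eq (CharP.ringChar_of_prime_eq_zero hp hpL)
  have h2 : (1 - u) ^ p = 1 - u ^ p := by
    rw [sub_pow_char, one_pow]
  rw [← h2] at h1
  have h3 : (1 - u) ≠ 0 := sub_ne_zero.mpr (Ne.symm hu1)
  exact (mul_ne_zero hF (pow_ne_zero _ (pow_ne_zero _ h3))) h1.symm

namespace Nodal

variable {K : Type*} [Field K]

/-- the valuation ring of an `RVal` -/
def ringOf (v : RVal K) : ValuationSubring K where
  carrier := {x | v.GE x 0}
  mul_mem' := fun ha hb => (RVal.GE.mul ha hb).mono (by norm_num)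
  one_mem' := RVal.EQ_one.GE le_rfl
  add_mem' := fun ha hb => RVal.GE.add ha hb
  zero_mem' := RVal.GE_zero 0
  neg_mem' := fun ha => RVal.GE.neg ha
  mem_or_inv_mem' := fun x => by
    rcases RVal.GE_or_LE (v := v) x 0 with h | h
    · left; exact h.GE le_rfl
    · right
      exact Or.inr (by rw [RVal.w_inv h.1]; linarith [h.2])

lemma mem_ringOf {v : RVal K} {x : K} : x ∈ ringOf v ↔ v.GE x 0 := Iff.rfl

@[simp] lemma coe_ofNat {v : RVal K} (n : ℕ) [n.AtLeastTwo] :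
    ((OfNat.ofNat n : ringOf v) : K) = OfNat.ofNat n :=
  map_ofNat (ringOf v).subtype n

lemma isUnit_iff {v : RVal K} (x : ringOf v) : IsUnit x ↔ v.EQ (x : K) 0 := by
  constructor
  · intro h
    obtain ⟨y, hxy⟩ := isUnit_iff_exists_inv.mp h
    have hxy' : (x : K) * (y : K) = 1 := by
      have := congrArg Subtype.val hxy
      simpa using this
    have hx0 : (x : K) ≠ 0 := left_ne_zero_of_mul_eq_one hxy'
    have hy0 : (y : K) ≠ 0 := right_ne_zero_of_mul_eq_one hxy'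
    have h1 := v.map_mul _ _ hx0 hy0
    rw [hxy', RVal.w_one] at h1
    have h2 : 0 ≤ v.w (x : K) := RVal.GE.le_w x.2 hx0
    have h3 : 0 ≤ v.w (y : K) := RVal.GE.le_w y.2 hy0
    exact ⟨hx0, by linarith⟩
  · intro h
    refine isUnit_iff_exists_inv.mpr ⟨⟨(x : K)⁻¹, (h.inv.GE (by norm_num) : v.GE _ 0)⟩, ?_⟩
    apply Subtype.ext
    simpa using mul_inv_cancel₀ h.1

lemma residue_eq_zero_iff {v : RVal K} (x : ringOf v) :
    IsLocalRing.residue (ringOf v) x = 0 ↔ v.GT (x : K) 0 := by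
  rw [IsLocalRing.residue_eq_zero_iff, IsLocalRing.mem_maximalIdeal, mem_nonunits_iff, isUnit_iff]
  constructor
  · intro h
    rcases RVal.GE_or_LE (v := v) (x : K) 0 with h' | h'
    · exact h'
    · exact absurd ⟨h'.1, le_antisymm h'.2 (RVal.GE.le_w x.2 h'.1)⟩ h
  · intro h h'
    exact h.not_LE (h'.LE le_rfl) le_rfl

end Nodal

variable {K : Type*} [Field K] [DecidableEq K]

/-- multiplicative reduction in residue characteristic `p` (odd), node at `x = e`: no point of order `p`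
reduces to a nonsingular point different from the origin. -/
theorem no_unit_torsion (W : WeierstrassCurve.Affine K) (e : K) (h2 : (2 : K) ≠ 0)
    (he : 4 * e ^ 3 + W.b₂ * e ^ 2 + 2 * W.b₄ * e + W.b₆ = 0) (v : RVal K)
    {p : ℕ} (hp : p.Prime) (hp2 : p ≠ 2) (hpv : v.GT (p : K) 0)
    (hb₂ : v.GE W.b₂ 0) (hb₄ : v.GE W.b₄ 0) (hei : v.GE e 0)
    (hβ : v.EQ (kummerOf W e h2 he).β 0) (hκ : v.GT (kummerOf W e h2 he).κ 0)
    {g : W.Point} {x : K} (hx : (kummerOf W e h2 he).ξ g = some x) (hx0 : v.EQ x 0) :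
    p • g ≠ 0 := by
  rcases g with _ | ⟨X, Y, hXY⟩
  · simp [kummerOf] at hx
  have hxX : X - e = x := Option.some.inj hx
  have hβ' : v.EQ (W.b₂ + 12 * e) 0 := hβ
  have hκ' : v.GT ((W.b₄ + W.b₂ * e + 6 * e ^ 2) / 2) 0 := hκ
  -- `2` is a unit
  have two : v.GE (2 : K) 0 := RVal.GE_ofNat 2
  have h2u : v.EQ (2 : K) 0 := by
    refine ⟨h2, le_antisymm ?_ (two.le_w h2)⟩
    by_contra hlt
    rw [not_le] at hlt
    obtain ⟨m, hm⟩ := hp.odd_of_ne_two hp2
    have h1 : (1 : K) = (p : K) - 2 * (m : K) := by rw [hm]; push_cast; ring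
    have h3 : v.GT (2 * (m : K)) 0 :=
      (RVal.GT.mul_GE (Or.inr hlt : v.GT (2 : K) 0) (RVal.GE_natCast m)).mono (by norm_num)
    have h4 : v.GT (1 : K) 0 := by rw [h1]; exact hpv.sub h3
    exact h4.not_LE (RVal.EQ_one.LE le_rfl) le_rfl
  have h4u : v.EQ (4 : K) 0 := by
    have : (4 : K) = 2 * 2 := by norm_num
    rw [this]; exact (h2u.mul h2u).of_eq (by norm_num)
  have hXi : v.GE X 0 := by
    have : X = x + e := by rw [← hxX]; ring
    rw [this]; exact (hx0.GE le_rfl).add hei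
  have hb₆ : v.GE W.b₆ 0 := by
    have : W.b₆ = -(4 * e ^ 3 + W.b₂ * e ^ 2 + 2 * W.b₄ * e) := by linear_combination he
    rw [this]
    refine RVal.GE.neg ?_
    refine ((((h4u.GE le_rfl).mul (hei.pow 3)).mono (by norm_num)).add
      ((hb₂.mul (hei.pow 2)).mono (by norm_num))).add (((two.mul hb₄).mul hei).mono (by norm_num))
  have hb₈ : v.GE W.b₈ 0 := by
    have h4 : (4 : K) ≠ 0 := h4u.1
    have : W.b₈ = (W.b₂ * W.b₆ - W.b₄ ^ 2) * (4 : K)⁻¹ := by
      have := W.b_relation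
      field_simp
      linear_combination this
    rw [this]
    refine (RVal.GE.mul (a := 0) (b := 0) ?_ (h4u.inv.GE (by norm_num))).mono (by norm_num)
    exact ((hb₂.mul hb₆).mono (by norm_num)).sub ((hb₄.pow 2).mono (by norm_num))
  -- reduction
  set O := Nodal.ringOf v
  set r := IsLocalRing.residue O
  let B₂ : O := ⟨W.b₂, hb₂⟩
  let B₄ : O := ⟨W.b₄, hb₄⟩
  let B₆ : O := ⟨W.b₆, hb₆⟩
  let B₈ : O := ⟨W.b₈, hb₈⟩
  let E : O := ⟨e, hei⟩
  let XX : O := ⟨X, hXi⟩
  have c2 : ((2 : O) : K) = 2 := Nodal.coe_ofNat 2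
  have c4 : ((4 : O) : K) = 4 := Nodal.coe_ofNat 4
  have c6 : ((6 : O) : K) = 6 := Nodal.coe_ofNat 6
  have c12 : ((12 : O) : K) = 12 := Nodal.coe_ofNat 12
  have key : ∀ z : O, v.GT (z : K) 0 → r z = 0 := fun z hz => (Nodal.residue_eq_zero_iff z).mpr hz
  have key' : ∀ z : O, v.EQ (z : K) 0 → r z ≠ 0 := fun z hz h =>
    ((Nodal.residue_eq_zero_iff z).mp h).not_LE (hz.LE le_rfl) le_rfl
  have rp : ((p : ℕ) : IsLocalRing.ResidueField O) = 0 := by
    have := key (p : O) (by simpa using hpv)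
    simpa using this
  have r4 : (4 : IsLocalRing.ResidueField O) ≠ 0 := by
    have := key' (4 : O) (by rw [c4]; exact h4u)
    simpa [map_ofNat] using this
  have rβ : r B₂ + 12 * r E ≠ 0 := by
    have := key' (B₂ + 12 * E) (by simpa [B₂, E, c12] using hβ')
    simpa [map_ofNat] using this
  have rκ : r B₄ + r B₂ * r E + 6 * r E ^ 2 = 0 := by
    have := key (B₄ + B₂ * E + 6 * E ^ 2) (by
      have h5 : ((B₄ + B₂ * E + 6 * E ^ 2 : O) : K)
          = 2 * ((W.b₄ + W.b₂ * e + 6 * e ^ 2) / 2) := by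
        simp only [B₂, B₄, E]
        push_cast
        rw [c6]
        field_simp
      rw [h5]
      exact (two.mul_GT hκ').mono (by norm_num))
    simpa [map_ofNat] using this
  have re : 4 * r E ^ 3 + r B₂ * r E ^ 2 + 2 * r B₄ * r E + r B₆ = 0 := by
    have h5 : (4 * E ^ 3 + B₂ * E ^ 2 + 2 * B₄ * E + B₆ : O) = 0 := by
      apply Subtype.ext
      simpa [B₂, B₄, B₆, E, c2, c4] using he
    have := congrArg r h5
    simpa [map_ofNat] using this
  have r8 : 4 * r B₈ = r B₂ * r B₆ - r B₄ ^ 2 := by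
    have h5 : (4 * B₈ : O) = B₂ * B₆ - B₄ ^ 2 := by
      apply Subtype.ext
      simpa [B₂, B₄, B₆, B₈, c4] using W.b_relation
    have := congrArg r h5
    simpa [map_ofNat] using this
  have rx : r XX ≠ r E := by
    have := key' (XX - E) (by simpa [XX, E, hxX] using hx0)
    rw [map_sub] at this
    exact sub_ne_zero.mp this
  have main := pq_nodal_ne_zero hp rp rβ rx
  have e2 : r B₂ + 12 * r E - 12 * r E = r B₂ := by ring
  have e4 : 6 * r E ^ 2 - (r B₂ + 12 * r E) * r E = r B₄ := by linear_combination -rκ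
  have e6 : (r B₂ + 12 * r E) * r E ^ 2 - 4 * r E ^ 3 = r B₆ := by
    linear_combination -re + 2 * r E * rκ
  have e8 : 3 * r E ^ 4 - (r B₂ + 12 * r E) * r E ^ 3 = r B₈ := by
    apply mul_left_cancel₀ r4
    rw [r8, ← e6, ← e4]
    ring
  rw [e2, e4, e6, e8, ← map_pq_snd] at main
  have main' : (pq B₂ B₄ B₆ B₈ XX p).2 ≠ 0 := fun h => main (by rw [h, map_zero])
  have main'' : (pq W.b₂ W.b₄ W.b₆ W.b₈ X p).2 ≠ 0 := by
    have h5 := map_pq_snd B₂ B₄ B₆ B₈ XX O.subtype p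
    intro h6
    apply main'
    apply Subtype.ext
    have h7 : (O.subtype (pq B₂ B₄ B₆ B₈ XX p).2 : K) = 0 := by rw [h5]; exact h6
    exact h7
  intro h0
  rw [DivPoly.nsmul_eq_zero_iff, eval_den] at h0
  exact main'' h0

end Fermat.Agent.S13
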