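import Fermat.Agent.S13.FreyFacts
import Fermat.Agent.S13.Local
import Fermat.Agent.S13.Nodal

set_option autoImplicit false
set_option linter.unusedSectionVars false
set_option linter.unusedVariables false

/-! # S13 : the local lemmas applied to the Frey curve -/

namespace Fermat.Agent.S13

open Fermat.Agent.S05 WeierstrassCurve WeierstrassCurve.Affine WeierstrassCurve.Affine.Point

local notation "Qb" => AlgebraicClosure ℚ

variable (P : FreyPackage)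

lemma two_ne : (2 : Qb) ≠ 0 := two_ne_zero

lemma he0 : 4 * (0 : Qb) ^ 3 + (P.freyCurve⁄Qb).b₂ * (0 : Qb) ^ 2 +
    2 * (P.freyCurve⁄Qb).b₄ * (0 : Qb) + (P.freyCurve⁄Qb).b₆ = 0 := by
  rw [frey_b₆]; ring

lemma hec : 4 * ((P.a : Qb) ^ P.p / 4) ^ 3 + (P.freyCurve⁄Qb).b₂ * ((P.a : Qb) ^ P.p / 4) ^ 2 +
    2 * (P.freyCurve⁄Qb).b₄ * ((P.a : Qb) ^ P.p / 4) + (P.freyCurve⁄Qb).b₆ = 0 := by
  rw [frey_b₂, frey_b₄, frey_b₆]; ring

/-- Kummer data with origin at the 2-torsion point `(0,0)` -/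
noncomputable def D0 : KummerData Qb (P.freyCurve⁄Qb).Point :=
  kummerOf (P.freyCurve⁄Qb) 0 two_ne (he0 P)

noncomputable def S0 : SlopeData (D0 P) := slopeOf (P.freyCurve⁄Qb) 0 two_ne (he0 P)

/-- Kummer data with origin at the 2-torsion point with `x = a^p/4` -/
noncomputable def Dc : KummerData Qb (P.freyCurve⁄Qb).Point :=
  kummerOf (P.freyCurve⁄Qb) ((P.a : Qb) ^ P.p / 4) two_ne (hec P)

noncomputable def Sc : SlopeData (Dc P) :=
  slopeOf (P.freyCurve⁄Qb) ((P.a : Qb) ^ P.p / 4) two_ne (hec P)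

lemma D0_ξ_some {x y : Qb} (h : (P.freyCurve⁄Qb).Nonsingular x y) :
    (D0 P).ξ (Point.some x y h) = Option.some x := by
  show Option.some (x - 0) = Option.some x
  rw [sub_zero]

lemma Dc_ξ_some {x y : Qb} (h : (P.freyCurve⁄Qb).Nonsingular x y) :
    (Dc P).ξ (Point.some x y h) = Option.some (x - (P.a : Qb) ^ P.p / 4) := rfl

lemma D0_β : (D0 P).β = ((P.b ^ P.p - P.a ^ P.p : ℤ) : Qb) := by
  show (P.freyCurve⁄Qb).b₂ + 12 * (0 : Qb) = _
  rw [frey_b₂]; push_cast; ring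

lemma D0_κ : (D0 P).κ = -(((P.a * P.b : ℤ) : Qb) ^ P.p / 16) := by
  show ((P.freyCurve⁄Qb).b₄ + (P.freyCurve⁄Qb).b₂ * (0 : Qb) + 6 * (0 : Qb) ^ 2) / 2 = _
  rw [frey_b₄]; push_cast; rw [mul_pow]; ring

lemma D0_κ_int : (D0 P).κ = ((-(P.a ^ P.p) * (P.b ^ P.p) / 16 : ℤ) : Qb) := by
  rw [D0_κ, Int.cast_div (sixteen_dvd_a₄ P) (by norm_num)]
  push_cast; rw [mul_pow]; ring

lemma D0_disc : (D0 P).β ^ 2 - 64 * (D0 P).κ = (((P.c : ℤ) : Qb) ^ P.p) ^ 2 := by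
  rw [D0_β, D0_κ, ← hFLT_Qb]; push_cast; rw [mul_pow]; ring

lemma S0_α₁ : (S0 P).α₁ = 1 := frey_a₁ P

lemma S0_α₂ : (S0 P).α₂ = (((P.b ^ P.p - 1 - P.a ^ P.p) / 4 : ℤ) : Qb) := by
  show (P.freyCurve⁄Qb).a₂ + 3 * (0 : Qb) = _
  rw [frey_a₂, Int.cast_div (four_dvd_a₂ P) (by norm_num)]
  push_cast; ring

lemma Dc_β : (Dc P).β = ((P.c ^ P.p + P.a ^ P.p : ℤ) : Qb) := by
  show (P.freyCurve⁄Qb).b₂ + 12 * ((P.a : Qb) ^ P.p / 4) = _
  rw [frey_b₂]; push_cast; rw [← hFLT_Qb]; ring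

lemma Dc_κ : (Dc P).κ = ((P.a * P.c : ℤ) : Qb) ^ P.p / 16 := by
  show ((P.freyCurve⁄Qb).b₄ + (P.freyCurve⁄Qb).b₂ * ((P.a : Qb) ^ P.p / 4) +
          6 * ((P.a : Qb) ^ P.p / 4) ^ 2) / 2 = _
  rw [frey_b₂, frey_b₄]; push_cast; rw [mul_pow, ← hFLT_Qb]; ring

lemma Sc_α₁ : (Sc P).α₁ = 1 := frey_a₁ P

lemma Sc_α₂ : (Sc P).α₂ = ((P.b ^ P.p - 1 + 2 * P.a ^ P.p : ℤ) : Qb) / 4 := by
  show (P.freyCurve⁄Qb).a₂ + 3 * ((P.a : Qb) ^ P.p / 4) = _
  rw [frey_a₂]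
  push_cast; ring

section inert

variable {P}
variable {A : ValuationSubring Qb} {v : RVal Qb}
  (hv : ∀ x : Qb, x ≠ 0 → (0 ≤ v.w x ↔ x ∈ A))
  {σ : Qb ≃ₐ[ℚ] Qb} (hσ : σ ∈ A.inertiaSubgroupIn ℚ)

include hv hσ

lemma slope_υ_map {e : Qb}
    (he : 4 * e ^ 3 + (P.freyCurve⁄Qb).b₂ * e ^ 2 + 2 * (P.freyCurve⁄Qb).b₄ * e +
      (P.freyCurve⁄Qb).b₆ = 0) (hσe : σ e = e) (g : (P.freyCurve⁄Qb).Point) :
    (slopeOf (P.freyCurve⁄Qb) e two_ne he).υ (Point.map σ.toAlgHom g) =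
      (σ : Qb →+* Qb) ((slopeOf (P.freyCurve⁄Qb) e two_ne he).υ g) := by
  cases g with
  | zero => exact (_root_.map_zero σ).symm
  | some x y h =>
    show σ y + ((P.freyCurve⁄Qb).a₁ * e + (P.freyCurve⁄Qb).a₃) / 2 =
      σ (y + ((P.freyCurve⁄Qb).a₁ * e + (P.freyCurve⁄Qb).a₃) / 2)
    rw [frey_a₁, frey_a₃, map_add, map_div₀, map_add, map_mul, map_one, _root_.map_zero, hσe,
      map_ofNat]

lemma inert_of {e : Qb}
    (he : 4 * e ^ 3 + (P.freyCurve⁄Qb).b₂ * e ^ 2 + 2 * (P.freyCurve⁄Qb).b₄ * e +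
      (P.freyCurve⁄Qb).b₆ = 0) (hσe : σ e = e) :
    Inert (kummerOf (P.freyCurve⁄Qb) e two_ne he) (slopeOf (P.freyCurve⁄Qb) e two_ne he) v
      (σ : Qb →+* Qb) (Point.map σ.toAlgHom) where
  hξ := kummer_ξ_map σ two_ne he hσe
  hυ := slope_υ_map hv hσ he hσe
  hw := fun z => rval_inertia_w hv hσ z
  hs := fun z hz => rval_inertia_sub hv hσ hz

lemma inert0 : Inert (D0 P) (S0 P) v (σ : Qb →+* Qb) (Point.map σ.toAlgHom) :=
  inert_of hv hσ (he0 P) (_root_.map_zero σ)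

lemma inertc : Inert (Dc P) (Sc P) v (σ : Qb →+* Qb) (Point.map σ.toAlgHom) :=
  inert_of hv hσ (hec P) (by rw [map_div₀, map_pow, map_intCast, map_ofNat])

end inert


/-- inertia at 2 acts unipotently on the `p`-torsion -/
theorem frey_unipotent_two {A : ValuationSubring Qb} (hA : A.LiesOverPrime 2)
    {σ : Qb ≃ₐ[ℚ] Qb} (hσ : σ ∈ A.inertiaSubgroupIn ℚ) {g : (P.freyCurve⁄Qb).Point}
    (hg : P.p • g = 0) :
    Point.map σ.toAlgHom (Point.map σ.toAlgHom g - g) = Point.map σ.toAlgHom g - g := by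
  obtain ⟨v, hv⟩ := exists_rval A Nat.prime_two hA
  have unit : ∀ n : ℤ, ¬ ((2 : ℕ) : ℤ) ∣ n → v.EQ (n : Qb) 0 :=
    fun n hn => rval_int_unit Nat.prime_two hA hv hn
  have hab := isCoprime_of_gcd P.hgcdab
  have hβ : v.EQ (D0 P).β 0 := by
    rw [D0_β]
    exact unit _ (not_dvd_pow_sub' Int.prime_two hab (two_dvd_b P) P.hp0)
  have hκ0 : (-(P.a ^ P.p) * (P.b ^ P.p) / 16 : ℤ) ≠ 0 := by
    intro h
    have h1 := Int.eq_mul_of_ediv_eq_right (sixteen_dvd_a₄ P) h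
    have h2 : P.a ^ P.p * P.b ^ P.p ≠ 0 := mul_ne_zero (pow_ne_zero _ P.ha0) (pow_ne_zero _ P.hb0)
    apply h2
    linarith
  have hκ2 : ((2 : ℕ) : ℤ) ∣ (-(P.a ^ P.p) * (P.b ^ P.p) / 16 : ℤ) := by
    obtain ⟨m, hm⟩ := thirtytwo_dvd_b_pow P
    rw [hm]
    refine ⟨-(P.a ^ P.p) * m, ?_⟩
    rw [show -(P.a ^ P.p) * (32 * m) = (2 * (-(P.a ^ P.p) * m)) * 16 by ring]
    rw [Int.mul_ediv_cancel _ (by norm_num)]
    norm_num
  have hκne : (D0 P).κ ≠ 0 := by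
    rw [D0_κ_int]; exact_mod_cast hκ0
  have hh : 0 < v.w (D0 P).κ := by
    rw [D0_κ_int]
    exact rval_int_pos Nat.prime_two hA hv hκ0 hκ2
  have hα₁ : v.GE (S0 P).α₁ 0 := by rw [S0_α₁]; exact RVal.EQ_one.GE le_rfl
  have hα₂ : v.GE (S0 P).α₂ 0 := by rw [S0_α₂]; exact RVal.GE_intCast _
  have hpv : v.EQ ((P.p : ℕ) : Qb) 0 := by
    have := unit (P.p : ℤ) (by
      intro h
      have h' : 2 ∣ P.p := by exact_mod_cast h
      have := (Nat.prime_dvd_prime_iff_eq Nat.prime_two P.pp).mp h'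
      have := P.hp5
      omega)
    simpa using this
  exact unipotent_of_mult (inert0 hv hσ) hh hα₁ hα₂ hβ (RVal.EQ_self hκne) P.hp_odd hpv hg

/-- change of origin for the kernel of reduction -/
lemma InE1_D0_of_Dc {v : RVal Qb} (he : v.GE ((P.a : Qb) ^ P.p / 4) 0)
    {g : (P.freyCurve⁄Qb).Point} (h : InE1 (Dc P) v g) : InE1 (D0 P) v g := by
  rcases g with _ | ⟨x, y, hxy⟩
  · exact InE1.zero
  · intro x' hx'
    rw [D0_ξ_some] at hx'
    obtain rfl := Option.some.inj hx'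
    obtain ⟨h1, h2⟩ := h _ (Dc_ξ_some P hxy)
    have h3 := (RVal.EQ_self (v := v) h1).add_GT (he.GT h2)
    rw [sub_add_cancel] at h3
    exact ⟨h3.1, by rw [h3.2]; exact h2⟩

/-- inertia at `p` moves `p`-torsion points by elements of the kernel of reduction -/
theorem frey_sub_mem_E1 {A : ValuationSubring Qb} (hA : A.LiesOverPrime P.p) {v : RVal Qb}
    (hv : ∀ x : Qb, x ≠ 0 → (0 ≤ v.w x ↔ x ∈ A))
    {σ : Qb ≃ₐ[ℚ] Qb} (hσ : σ ∈ A.inertiaSubgroupIn ℚ) {g : (P.freyCurve⁄Qb).Point}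
    (hg : P.p • g = 0) : InE1 (D0 P) v (Point.map σ.toAlgHom g - g) := by
  have hq := P.pp
  have hqZ : Prime (P.p : ℤ) := Nat.prime_iff_prime_int.mp hq
  have unit : ∀ n : ℤ, ¬ (P.p : ℤ) ∣ n → v.EQ (n : Qb) 0 := fun n hn => rval_int_unit hq hA hv hn
  have hq2' : ¬ (P.p : ℤ) ∣ 2 := by
    intro h
    have h' : P.p ∣ 2 := by exact_mod_cast h
    have := (Nat.prime_dvd_prime_iff_eq hq Nat.prime_two).mp h'
    have := P.hp5
    omega
  have h2 : v.EQ (2 : Qb) 0 := by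
    have := unit 2 hq2'
    simpa using this
  have h4 : v.EQ (4 : Qb) 0 := by
    have := (h2.pow 2).of_eq (b := 0) (by ring)
    norm_num at this
    exact this
  have h16 : v.EQ (16 : Qb) 0 := by
    have := (h2.pow 4).of_eq (b := 0) (by ring)
    norm_num at this
    exact this
  have hpv : v.GT ((P.p : ℕ) : Qb) 0 := by
    have := rval_int_pos hq hA hv (n := (P.p : ℤ)) (by exact_mod_cast P.hp0) dvd_rfl
    exact Or.inr (by simpa using this)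
  have hab := isCoprime_of_gcd P.hgcdab
  have hac := isCoprime_of_gcd P.hgcdac
  have hp0 := P.hp0
  by_cases hc : (P.p : ℤ) ∣ P.c
  · -- multiplicative reduction, node at `x = a^p / 4`
    have hei : v.GE ((P.a : Qb) ^ P.p / 4) 0 :=
      ((((RVal.GE_intCast P.a).pow P.p).mul (h4.inv.GE le_rfl)).mono (by simp))
    apply InE1_D0_of_Dc P hei
    have hβ : v.EQ (Dc P).β 0 := by
      rw [Dc_β]; exact unit _ (not_dvd_pow_add hqZ hac hc hp0)
    have hne : ((P.a * P.c : ℤ) : Qb) ≠ 0 := by exact_mod_cast mul_ne_zero P.ha0 P.hc0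
    have hpos : 0 < v.w ((P.a * P.c : ℤ) : Qb) :=
      rval_int_pos hq hA hv (mul_ne_zero P.ha0 P.hc0) (Dvd.dvd.mul_left hc _)
    have hκ : v.EQ (Dc P).κ (P.p * v.w ((P.a * P.c : ℤ) : Qb)) := by
      rw [Dc_κ]
      exact (((RVal.EQ_self hne).pow P.p).div h16).of_eq (by ring)
    have hh : 0 < (P.p : ℝ) * v.w ((P.a * P.c : ℤ) : Qb) := by
      have : (0 : ℝ) < P.p := by exact_mod_cast P.hppos
      positivity
    have hα₁ : v.GE (Sc P).α₁ 0 := by rw [Sc_α₁]; exact RVal.EQ_one.GE le_rfl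
    have hα₂ : v.GE (Sc P).α₂ 0 := by
      rw [Sc_α₂]
      exact ((RVal.GE_intCast _).mul (h4.inv.GE le_rfl)).mono (by simp)
    refine sub_mem_E1_of_mult (inertc hv hσ) hh hα₁ hα₂ hβ hκ P.hp_odd ?_ hg
    intro g' x' hx' hx0
    refine no_unit_torsion (P.freyCurve⁄Qb) _ two_ne (hec P) v hq (by have := P.hp5; omega) hpv
      ?_ ?_ hei hβ (hκ.GT hh) hx' hx0
    · rw [frey_b₂]
      exact ((RVal.GE_intCast P.b).pow P.p |>.mono (by simp)).sub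
        ((RVal.GE_intCast P.a).pow P.p |>.mono (by simp))
    · have : (P.freyCurve⁄Qb).b₄ = 2 * (D0 P).κ := by
        rw [D0_κ, frey_b₄]; push_cast; rw [mul_pow]; ring
      rw [this, D0_κ_int]
      exact (RVal.GE_intCast _).two_mul
  · have hα₁ : v.GE (S0 P).α₁ 0 := by rw [S0_α₁]; exact RVal.EQ_one.GE le_rfl
    have hα₂ : v.GE (S0 P).α₂ 0 := by rw [S0_α₂]; exact RVal.GE_intCast _
    have hne : ((P.a * P.b : ℤ) : Qb) ≠ 0 := by exact_mod_cast mul_ne_zero P.ha0 P.hb0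
    by_cases hdvd : (P.p : ℤ) ∣ P.a * P.b
    · have hβ : v.EQ (D0 P).β 0 := by
        rw [D0_β]
        rcases hqZ.dvd_or_dvd hdvd with h | h
        · exact unit _ (not_dvd_pow_sub hqZ hab h hp0)
        · exact unit _ (not_dvd_pow_sub' hqZ hab h hp0)
      have hpos : 0 < v.w ((P.a * P.b : ℤ) : Qb) :=
        rval_int_pos hq hA hv (mul_ne_zero P.ha0 P.hb0) hdvd
      have hκ : v.EQ (D0 P).κ (P.p * v.w ((P.a * P.b : ℤ) : Qb)) := by
        rw [D0_κ]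
        exact (((RVal.EQ_self hne).pow P.p).div h16).neg.of_eq (by ring)
      have hh : 0 < (P.p : ℝ) * v.w ((P.a * P.b : ℤ) : Qb) := by
        have : (0 : ℝ) < P.p := by exact_mod_cast P.hppos
        positivity
      refine sub_mem_E1_of_mult (inert0 hv hσ) hh hα₁ hα₂ hβ hκ P.hp_odd ?_ hg
      intro g' x' hx' hx0
      refine no_unit_torsion (P.freyCurve⁄Qb) _ two_ne (he0 P) v hq (by have := P.hp5; omega) hpv
        ?_ ?_ (RVal.GE_zero 0) hβ (hκ.GT hh) hx' hx0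
      · rw [frey_b₂]
        exact ((RVal.GE_intCast P.b).pow P.p |>.mono (by simp)).sub
          ((RVal.GE_intCast P.a).pow P.p |>.mono (by simp))
      · have : (P.freyCurve⁄Qb).b₄ = 2 * (D0 P).κ := by
          rw [D0_κ, frey_b₄]; push_cast; rw [mul_pow]; ring
        rw [this, D0_κ_int]
        exact (RVal.GE_intCast _).two_mul
    · refine sub_mem_E1_of_good (inert0 hv hσ) hα₁ hα₂ ?_ ?_ g
      · rw [D0_κ]
        exact ((((unit _ hdvd)).pow P.p).div h16).neg.of_eq (by ring)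
      · rw [D0_disc]
        exact (((unit _ hc).pow P.p).sq).of_eq (by ring)

end Fermat.Agent.S13
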